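import Mathlib

/-!
# S56 sprint, block LOC-flat, F0 (Hopf orders): the elementary descent lemma

`Ω` a field, `φ : G → (Ω →+* Ω)` a family of ring endomorphisms of `Ω`, `X` a set on which every
`γ : G` acts by a surjection `act γ`.  A family `v i : X → Ω` of `Γ`-equivariant functions
(`v i (act γ x) = γ (v i x)`) which is linearly independent over the elements fixed by `Γ` is
linearly independent over `Ω`.  (Artin's argument; no finiteness, no group structure on `Γ`.)

Also: common denominators for finitely many elements of the "fraction field of `Λ` inside `Ω`".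

Mathlib only.  Branch-only work.
-/

set_option autoImplicit false

namespace Fermat.Agent.TW.Hopf.Descent

open Finset

section Artin

variable {Ω : Type*} [Field Ω] {X ι : Type*}

/-- **Descent lemma.** Equivariant functions that are independent over the fixed elements are
independent over `Ω`. -/
theorem linearIndependent_of_fixed {G : Type*} (φ : G → Ω →+* Ω) (act : G → X → X)
    (hact : ∀ γ, Function.Surjective (act γ))
    (v : ι → X → Ω) (hv : ∀ γ i x, v i (act γ x) = φ γ (v i x))
    (hind : ∀ (s : Finset ι) (c : ι → Ω), (∀ i ∈ s, ∀ γ, φ γ (c i) = c i) →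
        (∑ i ∈ s, c i • v i) = 0 → ∀ i ∈ s, c i = 0) :
    LinearIndependent Ω v := by
  classical
  rw [linearIndependent_iff']
  intro s
  induction s using Finset.induction_on with
  | empty => intro c _ i hi; simp at hi
  | insert j s hj ih =>
    intro c hc
    rw [Finset.sum_insert hj] at hc
    by_cases hcj : c j = 0
    · rw [hcj, zero_smul, zero_add] at hc
      intro i hi
      rcases Finset.mem_insert.mp hi with rfl | hi
      · exact hcj
      · exact ih c hc i hi
    · exfalso
      -- normalise the coefficient of `v j` to `1`
      set d : ι → Ω := fun i => c i / c j with hd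
      have hdj : d j = 1 := by simp [hd, hcj]
      have hrel : v j + ∑ i ∈ s, d i • v i = 0 := by
        have h1 : (c j)⁻¹ • (c j • v j + ∑ i ∈ s, c i • v i) = 0 := by rw [hc, smul_zero]
        rw [smul_add, smul_smul, inv_mul_cancel₀ hcj, one_smul, Finset.smul_sum] at h1
        rw [← h1]
        congr 1
        refine Finset.sum_congr rfl fun i _ => ?_
        rw [smul_smul, hd]
        congr 1
        field_simp
      -- the coefficients are fixed by `Γ`
      have hfix : ∀ γ, ∀ i ∈ s, φ γ (d i) = d i := by
        intro γ
        have hγrel : ∑ i ∈ s, (φ γ (d i) - d i) • v i = 0 := by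
          funext x
          obtain ⟨x', rfl⟩ := hact γ x
          have h1 := congrFun hrel x'
          have h2 := congrFun hrel (act γ x')
          simp only [Pi.add_apply, Finset.sum_apply, Pi.smul_apply, smul_eq_mul,
            Pi.zero_apply] at h1 h2 ⊢
          have h3 := congrArg (φ γ) h1
          rw [map_add, map_sum, map_zero] at h3
          simp only [map_mul, ← hv γ] at h3
          have h4 : ∑ i ∈ s, (φ γ (d i) - d i) * v i (act γ x') =
              (v j (act γ x') + ∑ i ∈ s, φ γ (d i) * v i (act γ x')) -
                (v j (act γ x') + ∑ i ∈ s, d i * v i (act γ x')) := by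
            rw [add_sub_add_left_eq_sub, ← Finset.sum_sub_distrib]
            refine Finset.sum_congr rfl fun i _ => ?_
            ring
          rw [h4, h3, h2, sub_zero]
        intro i hi
        exact sub_eq_zero.mp (ih _ hγrel i hi)
      have h0 := hind (insert j s) d (by
        intro i hi γ
        rcases Finset.mem_insert.mp hi with rfl | hi
        · rw [hdj, map_one]
        · exact hfix γ i hi) (by
        rw [Finset.sum_insert hj, hdj, one_smul]
        exact hrel) j (Finset.mem_insert_self j s)
      rw [hdj] at h0
      exact one_ne_zero h0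

end Artin

section Denominators

variable {Λ : Type*} [CommRing Λ] [IsDomain Λ] {Ω : Type*} [Field Ω] [Algebra Λ Ω]

/-- `z : Ω` lies in the fraction field of `Λ` (inside `Ω`). -/
def IsFrac (Λ : Type*) [CommRing Λ] {Ω : Type*} [Field Ω] [Algebra Λ Ω] (z : Ω) : Prop :=
  ∃ a b : Λ, b ≠ 0 ∧ algebraMap Λ Ω b * z = algebraMap Λ Ω a

/-- Common denominator for a finite family. -/
theorem exists_common_denominator {ι : Type*} (s : Finset ι) (c : ι → Ω)
    (hc : ∀ i ∈ s, IsFrac Λ (c i)) :
    ∃ b : Λ, b ≠ 0 ∧ ∀ i ∈ s, ∃ a : Λ, algebraMap Λ Ω b * c i = algebraMap Λ Ω a := by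
  classical
  induction s using Finset.induction_on with
  | empty => exact ⟨1, one_ne_zero, by simp⟩
  | insert j s hj ih =>
    obtain ⟨b, hb, hbs⟩ := ih fun i hi => hc i (Finset.mem_insert_of_mem hi)
    obtain ⟨a', b', hb', hab'⟩ := hc j (Finset.mem_insert_self j s)
    refine ⟨b * b', mul_ne_zero hb hb', ?_⟩
    intro i hi
    rcases Finset.mem_insert.mp hi with rfl | hi
    · exact ⟨b * a', by rw [map_mul, map_mul, mul_assoc, hab']⟩
    · obtain ⟨a, ha⟩ := hbs i hi
      exact ⟨b' * a, by rw [map_mul, map_mul, ← ha]; ring⟩

end Denominators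

end Fermat.Agent.TW.Hopf.Descent
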