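import Mathlib
import Fermat.Agent.TW.Hopf.Descent

/-!
# S56 sprint, block LOC-flat, F0 (Hopf orders): schematic closure of a set of points, basics

`Λ` a commutative ring, `Ω` a field which is a `Λ`-algebra, `H` a commutative `Λ`-algebra
(later a Hopf algebra).  For a set `S` of `Ω`-points of `H` we define the ideal `vanishingIdeal S`
of functions vanishing on `S`, the evaluation map `H ⧸ vanishingIdeal S → (S → Ω)` (injective),
and prove, for a valuation ring `Λ` whose fraction field is the fixed field of a family `Γ` of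
`Λ`-algebra endomorphisms of `Ω` stabilising the finite set `S`:

* `H ⧸ vanishingIdeal S` is finite free over `Λ`;
* the images of a `Λ`-basis are linearly independent over `Ω` (descent);
* the evaluation `(H ⧸ J) ⊗ (H ⧸ J) → (S × S → Ω)` is injective.

Mathlib only.  Branch-only work.
-/

set_option autoImplicit false
set_option linter.unusedSectionVars false
set_option linter.style.haveILetI false

namespace Fermat.Agent.TW.Hopf.Closure

open WithConv TensorProduct Fermat.Agent.TW.Hopf.Descent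

section Basic

variable {Λ : Type*} [CommRing Λ] {Ω : Type*} [Field Ω] [Algebra Λ Ω]
variable {H : Type*} [CommRing H] [Algebra Λ H]

/-- The ideal of functions vanishing at all points of `S`. -/
def vanishingIdeal (S : Set (H →ₐ[Λ] Ω)) : Ideal H where
  carrier := {h | ∀ x ∈ S, x h = 0}
  add_mem' {a b} ha hb x hx := by rw [map_add, ha x hx, hb x hx, add_zero]
  zero_mem' x _ := map_zero x
  smul_mem' c a ha x hx := by rw [smul_eq_mul, map_mul, ha x hx, mul_zero]

theorem mem_vanishingIdeal {S : Set (H →ₐ[Λ] Ω)} {h : H} :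
    h ∈ vanishingIdeal S ↔ ∀ x ∈ S, x h = 0 := Iff.rfl

/-- Evaluation of functions at the points of `S`. -/
noncomputable def evalOn (S : Set (H →ₐ[Λ] Ω)) : H →ₐ[Λ] (S → Ω) :=
  AlgHom.pi (fun x : S => x.1)

@[simp] theorem evalOn_apply (S : Set (H →ₐ[Λ] Ω)) (h : H) (x : S) : evalOn S h x = x.1 h := rfl

/-- Evaluation on the quotient by the vanishing ideal. -/
noncomputable def evalQ (S : Set (H →ₐ[Λ] Ω)) : (H ⧸ vanishingIdeal S) →ₐ[Λ] (S → Ω) :=
  Ideal.Quotient.liftₐ (vanishingIdeal S) (evalOn S) (by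
    intro h hh
    funext x
    exact hh x.1 x.2)

@[simp] theorem evalQ_mk (S : Set (H →ₐ[Λ] Ω)) (h : H) (x : S) :
    evalQ S (Ideal.Quotient.mk (vanishingIdeal S) h) x = x.1 h := rfl

theorem evalQ_injective (S : Set (H →ₐ[Λ] Ω)) : Function.Injective (evalQ S) := by
  rw [injective_iff_map_eq_zero]
  intro m hm
  obtain ⟨h, rfl⟩ := Ideal.Quotient.mk_surjective m
  rw [Ideal.Quotient.eq_zero_iff_mem]
  intro x hx
  exact congrFun hm ⟨x, hx⟩

/-- The point of the quotient induced by a point of `S`. -/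
noncomputable def ptQ (S : Set (H →ₐ[Λ] Ω)) (x : S) : (H ⧸ vanishingIdeal S) →ₐ[Λ] Ω :=
  (Pi.evalAlgHom Λ (fun _ : S => Ω) x).comp (evalQ S)

@[simp] theorem ptQ_mk (S : Set (H →ₐ[Λ] Ω)) (x : S) (h : H) :
    ptQ S x (Ideal.Quotient.mk (vanishingIdeal S) h) = x.1 h := rfl

theorem ptQ_apply (S : Set (H →ₐ[Λ] Ω)) (x : S) (m : H ⧸ vanishingIdeal S) :
    ptQ S x m = evalQ S m x := rfl

end Basic

section Free

variable {Λ : Type*} [CommRing Λ] [IsDomain Λ] [ValuationRing Λ]
variable {Ω : Type*} [Field Ω] [Algebra Λ Ω] [FaithfulSMul Λ Ω]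
variable {H : Type*} [CommRing H] [Algebra Λ H] [Module.Finite Λ H]

instance quotient_isTorsionFree (S : Set (H →ₐ[Λ] Ω)) :
    Module.IsTorsionFree Λ (H ⧸ vanishingIdeal S) :=
  Function.Injective.moduleIsTorsionFree (evalQ S) (evalQ_injective S) (fun r m => map_smul _ r m)

/-- Finite torsion-free modules over a valuation ring are flat. -/
theorem flat_of_isTorsionFree (M : Type*) [AddCommGroup M] [Module Λ M]
    [Module.IsTorsionFree Λ M] : Module.Flat Λ M := by
  rw [Module.Flat.flat_iff_torsion_eq_bot_of_isBezout, ← Submodule.isTorsionFree_iff_torsion_eq_bot]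
  infer_instance

/-- Finite torsion-free modules over a valuation ring are free. -/
theorem free_of_isTorsionFree (M : Type*) [AddCommGroup M] [Module Λ M] [Module.Finite Λ M]
    [Module.IsTorsionFree Λ M] : Module.Free Λ M := by
  have := flat_of_isTorsionFree (Λ := Λ) M
  exact Module.free_of_flat_of_isLocalRing

instance quotient_flat (S : Set (H →ₐ[Λ] Ω)) : Module.Flat Λ (H ⧸ vanishingIdeal S) :=
  flat_of_isTorsionFree _

instance quotient_finite (S : Set (H →ₐ[Λ] Ω)) : Module.Finite Λ (H ⧸ vanishingIdeal S) :=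
  Module.Finite.of_surjective (Ideal.Quotient.mkₐ Λ (vanishingIdeal S)).toLinearMap
    (Ideal.Quotient.mkₐ_surjective Λ _)

instance quotient_free (S : Set (H →ₐ[Λ] Ω)) : Module.Free Λ (H ⧸ vanishingIdeal S) :=
  free_of_isTorsionFree _

end Free

section Galois

variable {Λ : Type*} [CommRing Λ] [IsDomain Λ]
variable {Ω : Type*} [Field Ω] [Algebra Λ Ω] [FaithfulSMul Λ Ω]
variable {H : Type*} [CommRing H] [Algebra Λ H]

/-- The fraction field of `Λ` inside `Ω` contains the elements fixed by `Γ`. -/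
def FixedIsFrac (Γ : Set (Ω →ₐ[Λ] Ω)) : Prop :=
  ∀ z : Ω, (∀ γ ∈ Γ, γ z = z) → IsFrac Λ z

/-- `S` is stable under post-composition with the elements of `Γ`. -/
def IsStable (Γ : Set (Ω →ₐ[Λ] Ω)) (S : Set (H →ₐ[Λ] Ω)) : Prop :=
  ∀ γ ∈ Γ, ∀ x ∈ S, γ.comp x ∈ S

variable {Γ : Set (Ω →ₐ[Λ] Ω)} {S : Set (H →ₐ[Λ] Ω)}

/-- The action of `γ ∈ Γ` on a stable set of points. -/
def stableAct (hS : IsStable Γ S) (γ : Γ) (x : S) : S := ⟨γ.1.comp x.1, hS γ.1 γ.2 x.1 x.2⟩

theorem stableAct_injective (hS : IsStable Γ S) (γ : Γ) : Function.Injective (stableAct hS γ) := by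
  intro x y hxy
  apply Subtype.ext
  have h1 : γ.1.comp x.1 = γ.1.comp y.1 := congrArg Subtype.val hxy
  ext h
  have h2 := DFunLike.congr_fun h1 h
  exact (γ.1 : Ω →+* Ω).injective h2

theorem stableAct_surjective (hS : IsStable Γ S) (hfin : S.Finite) (γ : Γ) :
    Function.Surjective (stableAct hS γ) := by
  haveI : Finite S := hfin
  exact Finite.surjective_of_injective (stableAct_injective hS γ)

theorem evalQ_stableAct (hS : IsStable Γ S) (γ : Γ) (m : H ⧸ vanishingIdeal S) (x : S) :
    evalQ S m (stableAct hS γ x) = γ.1 (evalQ S m x) := by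
  obtain ⟨h, rfl⟩ := Ideal.Quotient.mk_surjective m
  rfl

/-- **Descent.** A `Λ`-linearly independent family of `H ⧸ vanishingIdeal S` stays linearly
independent over `Ω` in the function algebra `S → Ω`. -/
theorem linearIndependent_evalQ (hfrac : FixedIsFrac Γ) (hS : IsStable Γ S) (hfin : S.Finite)
    {ι : Type*} (b : ι → H ⧸ vanishingIdeal S) (hb : LinearIndependent Λ b) :
    LinearIndependent Ω (fun i => evalQ S (b i)) := by
  classical
  refine linearIndependent_of_fixed (G := Γ) (fun γ => (γ.1 : Ω →+* Ω)) (stableAct hS)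
    (stableAct_surjective hS hfin) _ (fun γ i x => evalQ_stableAct hS γ (b i) x) ?_
  intro s c hc hrel
  obtain ⟨b₀, hb₀, hbs⟩ := exists_common_denominator (Λ := Λ) s c
    (fun i hi => hfrac (c i) (fun γ hγ => hc i hi ⟨γ, hγ⟩))
  choose! a ha using hbs
  have h1 : evalQ S (∑ i ∈ s, a i • b i) = 0 := by
    rw [map_sum]
    have h2 : algebraMap Λ Ω b₀ • ∑ i ∈ s, c i • evalQ S (b i) = 0 := by rw [hrel, smul_zero]
    rw [Finset.smul_sum] at h2
    rw [← h2]
    refine Finset.sum_congr rfl fun i hi => ?_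
    rw [map_smul, smul_smul, ha i hi, algebraMap_smul]
  have h3 : ∑ i ∈ s, a i • b i = 0 := evalQ_injective S (by rw [h1, map_zero])
  have h4 := linearIndependent_iff'.mp hb s a h3
  intro i hi
  have h5 := ha i hi
  rw [h4 i hi, map_zero] at h5
  rcases mul_eq_zero.mp h5 with h6 | h6
  · exact absurd ((map_eq_zero_iff _ (FaithfulSMul.algebraMap_injective Λ Ω)).mp h6) hb₀
  · exact h6

end Galois

section TensorSquare

variable {Λ : Type*} [CommRing Λ] [IsDomain Λ] [ValuationRing Λ]
variable {Ω : Type*} [Field Ω] [Algebra Λ Ω] [FaithfulSMul Λ Ω]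
variable {H : Type*} [CommRing H] [Algebra Λ H] [Module.Finite Λ H]
variable {Γ : Set (Ω →ₐ[Λ] Ω)} {S : Set (H →ₐ[Λ] Ω)}

/-- Evaluation of a tensor at pairs of points of `S`. -/
noncomputable def evalQ₂ (S : Set (H →ₐ[Λ] Ω)) :
    (H ⧸ vanishingIdeal S) ⊗[Λ] (H ⧸ vanishingIdeal S) →ₗ[Λ] (S × S → Ω) :=
  LinearMap.pi fun xy =>
    (Algebra.TensorProduct.lift (ptQ S xy.1) (ptQ S xy.2) (fun _ _ => Commute.all _ _)).toLinearMap

@[simp] theorem evalQ₂_tmul (m m' : H ⧸ vanishingIdeal S) (xy : S × S) :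
    evalQ₂ S (m ⊗ₜ[Λ] m') xy = evalQ S m xy.1 * evalQ S m' xy.2 := by
  simp [evalQ₂, ptQ_apply]

theorem evalQ₂_apply (t : (H ⧸ vanishingIdeal S) ⊗[Λ] (H ⧸ vanishingIdeal S)) (xy : S × S) :
    evalQ₂ S t xy =
      Algebra.TensorProduct.lift (ptQ S xy.1) (ptQ S xy.2) (fun _ _ => Commute.all _ _) t := rfl

/-- The evaluation on the tensor square of `H ⧸ vanishingIdeal S` is injective. -/
theorem evalQ₂_injective (hfrac : FixedIsFrac Γ) (hS : IsStable Γ S) (hfin : S.Finite) :
    Function.Injective (evalQ₂ S) := by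
  classical
  rw [injective_iff_map_eq_zero]
  intro t ht
  set b := Module.Free.chooseBasis Λ (H ⧸ vanishingIdeal S) with hb
  set B := b.tensorProduct b with hB
  have hv : LinearIndependent Ω (fun i => evalQ S (b i)) :=
    linearIndependent_evalQ hfrac hS hfin b b.linearIndependent
  have hv' := Fintype.linearIndependent_iff.mp hv
  -- expand `t` in the basis
  have ht' : ∀ x y : S, ∑ i, (∑ j, algebraMap Λ Ω (B.repr t (i, j)) * evalQ S (b j) y) *
      evalQ S (b i) x = 0 := by
    intro x y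
    have h1 := congrFun ht (x, y)
    rw [← B.sum_repr t, map_sum, Finset.sum_apply] at h1
    rw [Pi.zero_apply, Fintype.sum_prod_type] at h1
    rw [← h1]
    refine Finset.sum_congr rfl fun i _ => ?_
    rw [Finset.sum_mul]
    refine Finset.sum_congr rfl fun j _ => ?_
    rw [map_smul, Pi.smul_apply, hB, Module.Basis.tensorProduct_apply, evalQ₂_tmul,
      Algebra.smul_def]
    ring
  have h2 : ∀ (y : S) (i), ∑ j, algebraMap Λ Ω (B.repr t (i, j)) * evalQ S (b j) y = 0 := by
    intro y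
    apply hv' (fun i => ∑ j, algebraMap Λ Ω (B.repr t (i, j)) * evalQ S (b j) y)
    funext x
    simp only [Finset.sum_apply, Pi.smul_apply, smul_eq_mul, Pi.zero_apply]
    exact ht' x y
  have h3 : ∀ i j, B.repr t (i, j) = 0 := by
    intro i
    have h4 : ∀ j, algebraMap Λ Ω (B.repr t (i, j)) = 0 := by
      apply hv' (fun j => algebraMap Λ Ω (B.repr t (i, j)))
      funext y
      simp only [Finset.sum_apply, Pi.smul_apply, smul_eq_mul, Pi.zero_apply]
      exact h2 y i
    intro j
    exact (map_eq_zero_iff _ (FaithfulSMul.algebraMap_injective Λ Ω)).mp (h4 j)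
  apply B.repr.injective
  ext ⟨i, j⟩
  simpa using h3 i j

end TensorSquare

end Fermat.Agent.TW.Hopf.Closure
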