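import Mathlib
import Fermat.Agent.TW.Hopf.ClosureBasic

/-!
# S56 sprint, block LOC-flat, F0 (Hopf orders): the schematic closure of a Galois-stable subgroup
of points is a finite flat Hopf quotient

Mathlib only.  Branch-only work.
-/

set_option autoImplicit false
set_option linter.unusedSectionVars false
set_option linter.style.haveILetI false

namespace Fermat.Agent.TW.Hopf.Closure

open WithConv TensorProduct Coalgebra Fermat.Agent.TW.Hopf.Descent

section Hopf

variable {Λ : Type*} [CommRing Λ] [IsDomain Λ] [ValuationRing Λ]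
variable {Ω : Type*} [Field Ω] [Algebra Λ Ω] [FaithfulSMul Λ Ω]
variable {H : Type*} [CommRing H] [HopfAlgebra Λ H] [Module.Finite Λ H]
variable {Γ : Set (Ω →ₐ[Λ] Ω)} {S : Set (H →ₐ[Λ] Ω)}

/-- `S` is a subgroup of the group of `Ω`-points of `H`. -/
structure IsSubgroupOfPoints (S : Set (H →ₐ[Λ] Ω)) : Prop where
  one_mem : ofConv (1 : WithConv (H →ₐ[Λ] Ω)) ∈ S
  mul_mem : ∀ x ∈ S, ∀ y ∈ S, ofConv (toConv x * toConv y) ∈ S
  inv_mem : ∀ x ∈ S, x.comp (HopfAlgebra.antipodeAlgHom Λ H) ∈ S

theorem lift_ptQ_map_mk (x y : S) (t : H ⊗[Λ] H) :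
    Algebra.TensorProduct.lift (ptQ S x) (ptQ S y) (fun _ _ => Commute.all _ _)
      (TensorProduct.map (Ideal.Quotient.mkₐ Λ (vanishingIdeal S)).toLinearMap
        (Ideal.Quotient.mkₐ Λ (vanishingIdeal S)).toLinearMap t) =
    Algebra.TensorProduct.lift x.1 y.1 (fun _ _ => Commute.all _ _) t := by
  induction t using TensorProduct.induction_on with
  | zero => simp
  | tmul a b => rfl
  | add a b ha hb => rw [map_add, map_add, map_add, ha, hb]

theorem isCoideal (hfrac : FixedIsFrac Γ) (hS : IsStable Γ S) (hfin : S.Finite)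
    (hG : IsSubgroupOfPoints S) : ((vanishingIdeal S).restrictScalars Λ).IsCoideal where
  counit_eq_zero := by
    intro h hh
    have h1 : (ofConv (1 : WithConv (H →ₐ[Λ] Ω))) h = 0 := hh _ hG.one_mem
    have h2 : algebraMap Λ Ω (counit h) = 0 := h1
    exact (map_eq_zero_iff _ (FaithfulSMul.algebraMap_injective Λ Ω)).mp h2
  map_mkQ_comul_eq_zero := by
    intro h hh
    change TensorProduct.map (Ideal.Quotient.mkₐ Λ (vanishingIdeal S)).toLinearMap
      (Ideal.Quotient.mkₐ Λ (vanishingIdeal S)).toLinearMap (comul h) = 0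
    apply evalQ₂_injective hfrac hS hfin
    rw [map_zero]
    funext xy
    rw [evalQ₂_apply, lift_ptQ_map_mk, Pi.zero_apply]
    have h1 := AlgHom.convMul_apply (toConv xy.1.1) (toConv xy.2.1) h
    have h2 : (toConv xy.1.1 * toConv xy.2.1 : WithConv (H →ₐ[Λ] Ω)) h = 0 :=
      hh _ (hG.mul_mem _ xy.1.2 _ xy.2.2)
    rw [h1] at h2
    exact h2

theorem isHopfIdeal (hfrac : FixedIsFrac Γ) (hS : IsStable Γ S) (hfin : S.Finite)
    (hG : IsSubgroupOfPoints S) : (vanishingIdeal S).IsHopfIdeal Λ :=
  { isCoideal hfrac hS hfin hG with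
    antipode_mem := by
      intro h hh x hx
      exact hh _ (hG.inv_mem x hx) }

/-- The Hopf algebra structure on the schematic closure. -/
@[instance_reducible]
noncomputable def closureHopf (hfrac : FixedIsFrac Γ) (hS : IsStable Γ S) (hfin : S.Finite)
    (hG : IsSubgroupOfPoints S) : HopfAlgebra Λ (H ⧸ vanishingIdeal S) :=
  haveI := isHopfIdeal hfrac hS hfin hG
  inferInstance

end Hopf

section Cocomm

variable {Λ : Type*} [CommRing Λ] {H : Type*} [CommRing H] [Bialgebra Λ H]

/-- A bialgebra quotient of a cocommutative bialgebra is cocommutative. -/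
theorem isCocomm_quotient [IsCocomm Λ H] (I : Ideal H) [(I.restrictScalars Λ).IsCoideal] :
    IsCocomm Λ (H ⧸ I) where
  comm_comp_comul := by
    apply LinearMap.ext
    intro m
    obtain ⟨a, rfl⟩ := Ideal.Quotient.mk_surjective m
    rw [LinearMap.comp_apply, Bialgebra.Quotient.comul_mk, LinearEquiv.coe_coe,
      ← TensorProduct.map_comm, comm_comul]

end Cocomm

end Fermat.Agent.TW.Hopf.Closure
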