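import Mathlib
import Fermat.Agent.TW.Hopf.ClosureBasic

/-!
# S56 sprint, block LOC-flat, F0 (Hopf orders): the points of the schematic closure

`S` a finite `Γ`-stable set of `Ω`-points of the `Λ`-algebra `H`, where the elements of `Ω` fixed
by `Γ` lie in the fraction field of `Λ`, and `Ω` has characteristic zero.  Then every `Ω`-point of
`H` which kills `vanishingIdeal S` belongs to `S` (polynomial trick + B. H. Neumann's covering
lemma).

Mathlib only.  Branch-only work.
-/

set_option autoImplicit false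
set_option linter.unusedSectionVars false
set_option linter.style.haveILetI false

namespace Fermat.Agent.TW.Hopf.Closure

open Polynomial Fermat.Agent.TW.Hopf.Descent

section Points

variable {Λ : Type*} [CommRing Λ] [IsDomain Λ]
variable {Ω : Type*} [Field Ω] [Algebra Λ Ω] [FaithfulSMul Λ Ω]
variable {H : Type*} [CommRing H] [Algebra Λ H]
variable {Γ : Set (Ω →ₐ[Λ] Ω)} {S : Set (H →ₐ[Λ] Ω)}

/-- A polynomial over `Ω` all of whose coefficients lie in the fraction field of `Λ` has a nonzero
`Λ`-multiple with coefficients in `Λ`. -/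
theorem exists_integral_multiple (P : (Polynomial Ω)) (hP : ∀ n, IsFrac Λ (P.coeff n)) :
    ∃ (b : Λ) (Q : Λ[X]), b ≠ 0 ∧ Q.map (algebraMap Λ Ω) = C (algebraMap Λ Ω b) * P := by
  classical
  obtain ⟨b, hb, hbs⟩ := exists_common_denominator (Λ := Λ) (Finset.range (P.natDegree + 1))
    (fun n => P.coeff n) (fun n _ => hP n)
  choose! a ha using hbs
  refine ⟨b, ∑ n ∈ Finset.range (P.natDegree + 1), monomial n (a n), hb, ?_⟩
  ext n
  rw [Polynomial.coeff_map, Polynomial.finsetSum_coeff, coeff_C_mul]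
  simp only [coeff_monomial]
  by_cases hn : n ∈ Finset.range (P.natDegree + 1)
  · rw [Finset.sum_ite_eq' _ n, if_pos hn, ha n hn]
  · rw [Finset.sum_ite_eq' _ n, if_neg hn, map_zero]
    have : P.natDegree < n := by
      rw [Finset.mem_range] at hn
      omega
    rw [coeff_eq_zero_of_natDegree_lt this, mul_zero]

/-- **Polynomial trick.** A point killing `vanishingIdeal S` agrees, at each `h`, with some point
of `S`. -/
theorem exists_mem_eq_apply (hfrac : FixedIsFrac Γ) (hS : IsStable Γ S) (hfin : S.Finite)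
    (x : H →ₐ[Λ] Ω) (hx : ∀ h ∈ vanishingIdeal S, x h = 0) (h : H) :
    ∃ y ∈ S, x h = y h := by
  classical
  haveI : Fintype S := hfin.fintype
  set P : (Polynomial Ω) := ∏ y : S, (X - C (y.1 h)) with hP
  -- the coefficients of `P` are fixed by `Γ`
  have hPfix : ∀ γ ∈ Γ, P.map (γ : Ω →+* Ω) = P := by
    intro γ hγ
    rw [hP, Polynomial.map_prod]
    have hbij : Function.Bijective (stableAct hS ⟨γ, hγ⟩) :=
      ⟨stableAct_injective hS _, stableAct_surjective hS hfin _⟩
    rw [← Function.Bijective.prod_comp hbij (fun y : S => X - C (y.1 h))]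
    refine Finset.prod_congr rfl fun y _ => ?_
    rw [Polynomial.map_sub, Polynomial.map_X, Polynomial.map_C]
    rfl
  have hPfrac : ∀ n, IsFrac Λ (P.coeff n) := by
    intro n
    apply hfrac
    intro γ hγ
    have := congrArg (fun Q : (Polynomial Ω) => Q.coeff n) (hPfix γ hγ)
    simpa [Polynomial.coeff_map] using this
  obtain ⟨b, Q, hb, hQ⟩ := exists_integral_multiple (Λ := Λ) P hPfrac
  -- evaluate
  have hev : ∀ w : H →ₐ[Λ] Ω, w (aeval h Q) = algebraMap Λ Ω b * P.eval (w h) := by
    intro w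
    rw [← Polynomial.aeval_algHom_apply, Polynomial.aeval_def, Polynomial.eval₂_eq_eval_map, hQ,
      Polynomial.eval_mul, Polynomial.eval_C]
  have hmem : aeval h Q ∈ vanishingIdeal S := by
    intro y hy
    rw [hev y, hP, Polynomial.eval_prod]
    rw [Finset.prod_eq_zero (Finset.mem_univ (⟨y, hy⟩ : S)) (by simp), mul_zero]
  have h0 := hx _ hmem
  rw [hev x] at h0
  have hb' : algebraMap Λ Ω b ≠ 0 := fun hb0 =>
    hb ((map_eq_zero_iff _ (FaithfulSMul.algebraMap_injective Λ Ω)).mp hb0)
  have h1 : P.eval (x h) = 0 := (mul_eq_zero.mp h0).resolve_left hb'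
  rw [hP, Polynomial.eval_prod, Finset.prod_eq_zero_iff] at h1
  obtain ⟨y, _, hy⟩ := h1
  refine ⟨y.1, y.2, ?_⟩
  simpa [sub_eq_zero] using hy

/-- A point killing `vanishingIdeal S` belongs to `S`. -/
theorem mem_of_vanishingIdeal_le [CharZero Ω] (hfrac : FixedIsFrac Γ) (hS : IsStable Γ S)
    (hfin : S.Finite) (x : H →ₐ[Λ] Ω) (hx : ∀ h ∈ vanishingIdeal S, x h = 0) : x ∈ S := by
  classical
  have hcov : ⋃ y ∈ hfin.toFinset,
      ((LinearMap.ker (x.toLinearMap - y.toLinearMap) : Submodule Λ H) : Set H) = Set.univ := by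
    rw [Set.eq_univ_iff_forall]
    intro h
    obtain ⟨y, hy, hxy⟩ := exists_mem_eq_apply hfrac hS hfin x hx h
    simp only [Set.mem_iUnion]
    refine ⟨y, hfin.mem_toFinset.mpr hy, ?_⟩
    simp [LinearMap.mem_ker, hxy]
  obtain ⟨y, hy, hfi⟩ := Submodule.exists_finiteIndex_of_cover hcov
  have hyS : y ∈ S := hfin.mem_toFinset.mp hy
  suffices x = y by rw [this]; exact hyS
  ext h
  set K := (LinearMap.ker (x.toLinearMap - y.toLinearMap) : Submodule Λ H) with hK
  have h1 : K.toAddSubgroup.index • h ∈ K.toAddSubgroup := AddSubgroup.nsmul_index_mem _ h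
  have h2 : (x.toLinearMap - y.toLinearMap) (K.toAddSubgroup.index • h) = 0 := h1
  rw [map_nsmul, LinearMap.sub_apply, AlgHom.toLinearMap_apply, AlgHom.toLinearMap_apply,
    nsmul_eq_mul] at h2
  rcases mul_eq_zero.mp h2 with h3 | h3
  · exact absurd (by exact_mod_cast h3) hfi.index_ne_zero
  · exact sub_eq_zero.mp h3

end Points

end Fermat.Agent.TW.Hopf.Closure
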