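import Mathlib
import Fermat.Agent.TW.Hopf.ClosureHopf
import Fermat.Agent.TW.Hopf.ClosurePoints

/-!
# S56 sprint, block LOC-flat, F0 (Hopf orders): finite flat realizability is inherited by
Galois-stable subgroups

`Λ` a valuation ring, `Ω` a field of characteristic zero containing `Λ`, `φ : G → (Ω →ₐ[Λ] Ω)` a
family of automorphisms whose common fixed elements lie in the fraction field of `Λ`.
`IsFlatRealizable φ act` says that the additive group `V` with the operators `act σ` is the group
of `Ω`-points of a finite flat commutative cocommutative Hopf algebra over `Λ` (this is the shape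
of the Prelude's `GaloisRepAdic.IsFlatAt`).  Main result: `IsFlatRealizable.addSubgroup`.

Mathlib only.  Branch-only work.
-/

set_option autoImplicit false
set_option linter.unusedSectionVars false
set_option linter.style.haveILetI false

universe u

namespace Fermat.Agent.TW.Hopf.Closure

open WithConv TensorProduct Coalgebra Fermat.Agent.TW.Hopf.Descent

section Inverse

variable {Λ : Type*} [CommRing Λ] {Ω : Type*} [CommRing Ω] [Algebra Λ Ω]
variable {H : Type*} [CommRing H] [HopfAlgebra Λ H]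

/-- A point composed with the antipode is a convolution inverse. -/
theorem comp_antipode_mul (x : H →ₐ[Λ] Ω) :
    (toConv (x.comp (HopfAlgebra.antipodeAlgHom Λ H)) * toConv x : WithConv (H →ₐ[Λ] Ω)) = 1 := by
  have h1 := AlgHom.comp_convMul_distrib x (toConv (HopfAlgebra.antipodeAlgHom Λ H))
    (toConv (AlgHom.id Λ H))
  rw [AlgHom.antipode_id_cancel] at h1
  apply WithConv.ofConv_injective
  rw [ofConv_toConv, ofConv_toConv, AlgHom.comp_id] at h1
  rw [← h1]
  ext h
  simp

end Inverse

section Realizable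

variable {Λ : Type*} [CommRing Λ] {Ω : Type*} [Field Ω] [Algebra Λ Ω]

/-- `V` with the operators `act σ` is, `φ`-equivariantly, the group of `Ω`-points of a finite flat
commutative cocommutative Hopf algebra over `Λ`. -/
def IsFlatRealizable {G : Type*} (φ : G → Ω →ₐ[Λ] Ω) {V : Type*} [AddCommGroup V]
    (act : G → V → V) : Prop :=
  ∃ (H : Type u) (_ : CommRing H) (_ : HopfAlgebra Λ H),
    Module.Finite Λ H ∧ Module.Flat Λ H ∧ IsCocomm Λ H ∧
    ∃ e : WithConv (H →ₐ[Λ] Ω) ≃ V,
      (∀ f g : WithConv (H →ₐ[Λ] Ω), e (f * g) = e f + e g) ∧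
      ∀ (σ : G) (f : WithConv (H →ₐ[Λ] Ω)), e (toConv ((φ σ).comp f.ofConv)) = act σ (e f)

theorem isFlatRealizable_of {G : Type*} {φ : G → Ω →ₐ[Λ] Ω} {V : Type*} [AddCommGroup V]
    {act : G → V → V} (H₁ : Type u) [CommRing H₁] [HopfAlgebra Λ H₁] [Module.Finite Λ H₁]
    [Module.Flat Λ H₁] [IsCocomm Λ H₁] (e : WithConv (H₁ →ₐ[Λ] Ω) ≃ V)
    (h1 : ∀ f g : WithConv (H₁ →ₐ[Λ] Ω), e (f * g) = e f + e g)
    (h2 : ∀ (σ : G) (f : WithConv (H₁ →ₐ[Λ] Ω)), e (toConv ((φ σ).comp f.ofConv)) = act σ (e f)) :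
    IsFlatRealizable.{u} φ act :=
  ⟨H₁, inferInstance, inferInstance, inferInstance, inferInstance, inferInstance, e, h1, h2⟩

end Realizable

section Sub

variable {Λ : Type*} [CommRing Λ] [IsDomain Λ] [ValuationRing Λ]
variable {Ω : Type*} [Field Ω] [Algebra Λ Ω] [FaithfulSMul Λ Ω] [CharZero Ω]
variable {G : Type*} {φ : G → Ω →ₐ[Λ] Ω} {V : Type*} [AddCommGroup V] {act : G → V → V}

/-- **F0, subobjects.** Finite flat realizability passes to `G`-stable subgroups. -/
theorem IsFlatRealizable.addSubgroup [Finite V] (hfrac : FixedIsFrac (Set.range φ))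
    (hV : IsFlatRealizable.{u} φ act) (W : AddSubgroup V) (hW : ∀ σ v, v ∈ W → act σ v ∈ W) :
    IsFlatRealizable.{u} φ (V := W) (fun σ w => ⟨act σ w.1, hW σ w.1 w.2⟩) := by
  classical
  obtain ⟨H, _, _, hfin, hflat, hcc, e, hadd, hact⟩ := hV
  -- the set of points lying in `W`
  set S : Set (H →ₐ[Λ] Ω) := {x | e (toConv x) ∈ W} with hSdef
  have he1 : e 1 = 0 := by
    have := hadd 1 1
    rw [mul_one] at this
    exact left_eq_add.mp this
  have hSfin : S.Finite := by
    haveI : Finite (WithConv (H →ₐ[Λ] Ω)) := Finite.of_equiv V e.symm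
    haveI : Finite (H →ₐ[Λ] Ω) :=
      Finite.of_injective (fun x => (toConv x : WithConv (H →ₐ[Λ] Ω))) (fun _ _ h => by
        simpa using h)
    exact Set.toFinite S
  have hSstab : IsStable (Set.range φ) S := by
    rintro _ ⟨σ, rfl⟩ x hx
    have := hact σ (toConv x)
    rw [ofConv_toConv] at this
    show e (toConv ((φ σ).comp x)) ∈ W
    rw [this]
    exact hW σ _ hx
  have hSgrp : IsSubgroupOfPoints S :=
    { one_mem := by
        show e (toConv (ofConv 1)) ∈ W
        rw [toConv_ofConv, he1]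
        exact W.zero_mem
      mul_mem := by
        intro x hx y hy
        show e (toConv (ofConv (toConv x * toConv y))) ∈ W
        rw [toConv_ofConv, hadd]
        exact W.add_mem hx hy
      inv_mem := by
        intro x hx
        show e (toConv (x.comp (HopfAlgebra.antipodeAlgHom Λ H))) ∈ W
        have h1 := hadd (toConv (x.comp (HopfAlgebra.antipodeAlgHom Λ H))) (toConv x)
        rw [comp_antipode_mul, he1] at h1
        have h2 : e (toConv (x.comp (HopfAlgebra.antipodeAlgHom Λ H))) = - e (toConv x) :=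
          eq_neg_of_add_eq_zero_left h1.symm
        rw [h2]
        exact W.neg_mem hx }
  haveI hHI := isHopfIdeal hfrac hSstab hSfin hSgrp
  haveI : IsCocomm Λ (H ⧸ vanishingIdeal S) := isCocomm_quotient _
  -- the bijection on points
  set π : H →ₐ[Λ] (H ⧸ vanishingIdeal S) := Ideal.Quotient.mkₐ Λ (vanishingIdeal S) with hπdef
  have hπ : ∀ h, π h = Ideal.Quotient.mk (vanishingIdeal S) h := fun h => rfl
  have hπbi : ((Bialgebra.Quotient.mkBialgHom (vanishingIdeal S) : H →ₐc[Λ] _) : H →ₐ[Λ] _) = π :=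
    rfl
  have hpull : ∀ z : (H ⧸ vanishingIdeal S) →ₐ[Λ] Ω, e (toConv (z.comp π)) ∈ W := by
    intro z
    have : z.comp π ∈ S := by
      apply mem_of_vanishingIdeal_le hfrac hSstab hSfin
      intro h hh
      show z (π h) = 0
      rw [hπ, Ideal.Quotient.eq_zero_iff_mem.mpr hh, map_zero]
    exact this
  have he₁inj : ∀ z z' : WithConv ((H ⧸ vanishingIdeal S) →ₐ[Λ] Ω),
      e (toConv (z.ofConv.comp π)) = e (toConv (z'.ofConv.comp π)) → z = z' := by
    intro z z' h1
    have h2 := toConv_injective (e.injective h1)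
    apply ofConv_injective
    apply AlgHom.ext
    intro m
    obtain ⟨h, rfl⟩ := Ideal.Quotient.mk_surjective m
    exact DFunLike.congr_fun h2 h
  have he₁surj : ∀ w : W, ∃ z : WithConv ((H ⧸ vanishingIdeal S) →ₐ[Λ] Ω),
      e (toConv (z.ofConv.comp π)) = w.1 := by
    intro w
    have hx : ofConv (e.symm w.1) ∈ S := by
      show e (toConv (ofConv (e.symm w.1))) ∈ W
      rw [toConv_ofConv, Equiv.apply_symm_apply]
      exact w.2
    refine ⟨toConv (ptQ S ⟨_, hx⟩), ?_⟩
    have : (ptQ S ⟨_, hx⟩).comp π = ofConv (e.symm w.1) := by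
      ext h
      rfl
    rw [ofConv_toConv, this, toConv_ofConv, Equiv.apply_symm_apply]
  have hmul : ∀ z z' : WithConv ((H ⧸ vanishingIdeal S) →ₐ[Λ] Ω),
      e (toConv ((z * z').ofConv.comp π)) =
        e (toConv (z.ofConv.comp π)) + e (toConv (z'.ofConv.comp π)) := by
    intro z z'
    rw [← hπbi, AlgHom.convMul_comp_bialgHom_distrib, toConv_ofConv, hadd]
  have hgal : ∀ (σ : G) (z : WithConv ((H ⧸ vanishingIdeal S) →ₐ[Λ] Ω)),
      e (toConv ((ofConv (toConv ((φ σ).comp z.ofConv))).comp π)) =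
        act σ (e (toConv (z.ofConv.comp π))) := by
    intro σ z
    rw [ofConv_toConv, AlgHom.comp_assoc]
    exact hact σ (toConv (z.ofConv.comp π))
  exact isFlatRealizable_of (H ⧸ vanishingIdeal S)
    (Equiv.ofBijective (fun z => (⟨e (toConv (z.ofConv.comp π)), hpull z.ofConv⟩ : W))
      ⟨fun z z' h => he₁inj z z' (congrArg Subtype.val h),
        fun w => (he₁surj w).imp fun z hz => Subtype.ext hz⟩)
    (fun z z' => Subtype.ext (hmul z z')) (fun σ z => Subtype.ext (hgal σ z))

end Sub

end Fermat.Agent.TW.Hopf.Closure
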