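import Mathlib
import Fermat.Agent.TW.Hopf.ClosureSub

/-!
# S56 sprint, block LOC-flat, F0 (Hopf orders): base change

Finite flat realizability over `Λ` passes to a `Λ`-algebra `Λ' → Ω`: the Hopf algebra is
`Λ' ⊗[Λ] H`, the `Ω`-points are unchanged.

Mathlib only.  Branch-only work.
-/

set_option autoImplicit false
set_option linter.unusedSectionVars false
set_option linter.style.haveILetI false

universe u

namespace Fermat.Agent.TW.Hopf.Closure

open WithConv TensorProduct Coalgebra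

section BaseChange

variable {Λ : Type*} [CommRing Λ] {Λ' : Type u} [CommRing Λ'] [Algebra Λ Λ']
variable {Ω : Type*} [Field Ω] [Algebra Λ Ω] [Algebra Λ' Ω] [IsScalarTower Λ Λ' Ω]
variable {H : Type u} [CommRing H] [HopfAlgebra Λ H]

/-- Restriction of a `Λ'`-point of `Λ' ⊗ H` to a `Λ`-point of `H`. -/
noncomputable def restrictPt (z : Λ' ⊗[Λ] H →ₐ[Λ'] Ω) : H →ₐ[Λ] Ω :=
  (z.restrictScalars Λ).comp Algebra.TensorProduct.includeRight

@[simp] theorem restrictPt_apply (z : Λ' ⊗[Λ] H →ₐ[Λ'] Ω) (h : H) :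
    restrictPt z h = z (1 ⊗ₜ h) := rfl

theorem restrictPt_injective :
    Function.Injective (restrictPt : (Λ' ⊗[Λ] H →ₐ[Λ'] Ω) → (H →ₐ[Λ] Ω)) :=
  (Algebra.TensorProduct.liftEquivRight Λ Λ' H Ω).symm.injective

theorem restrictPt_surjective :
    Function.Surjective (restrictPt : (Λ' ⊗[Λ] H →ₐ[Λ'] Ω) → (H →ₐ[Λ] Ω)) :=
  (Algebra.TensorProduct.liftEquivRight Λ Λ' H Ω).symm.surjective

theorem lift_comul_one_tmul (z z' : Λ' ⊗[Λ] H →ₐ[Λ'] Ω) (t : H ⊗[Λ] H) :
    Algebra.TensorProduct.lift z z' (fun _ _ => Commute.all _ _)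
      (AlgebraTensorModule.tensorTensorTensorComm Λ Λ' Λ Λ' Λ' Λ' H H
        (((1 : Λ') ⊗ₜ[Λ'] (1 : Λ')) ⊗ₜ[Λ] t)) =
    Algebra.TensorProduct.lift (restrictPt z) (restrictPt z') (fun _ _ => Commute.all _ _) t := by
  induction t using TensorProduct.induction_on with
  | zero => simp
  | tmul a b => simp
  | add a b ha hb => rw [TensorProduct.tmul_add, map_add, map_add, map_add, ha, hb]

theorem restrictPt_mul (z z' : WithConv (Λ' ⊗[Λ] H →ₐ[Λ'] Ω)) :
    toConv (restrictPt (z * z').ofConv) =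
      (toConv (restrictPt z.ofConv) * toConv (restrictPt z'.ofConv) : WithConv (H →ₐ[Λ] Ω)) := by
  apply ofConv_injective
  apply AlgHom.ext
  intro h
  rw [ofConv_toConv, restrictPt_apply]
  have h1 := AlgHom.convMul_apply z z' ((1 : Λ') ⊗ₜ[Λ] h)
  have h2 := AlgHom.convMul_apply (toConv (restrictPt z.ofConv)) (toConv (restrictPt z'.ofConv)) h
  rw [ofConv_toConv, ofConv_toConv] at h2
  erw [h1, h2]
  rw [TensorProduct.comul_tmul, Bialgebra.comul_one]
  exact lift_comul_one_tmul z.ofConv z'.ofConv (comul h)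

variable {G G' : Type*} {φ : G → Ω →ₐ[Λ] Ω} {φ' : G' → Ω →ₐ[Λ'] Ω}
variable {V : Type*} [AddCommGroup V] {act : G → V → V}

/-- **F0, base change.** -/
theorem IsFlatRealizable.baseChange (r : G' → G)
    (hr : ∀ σ, (φ' σ).restrictScalars Λ = φ (r σ)) (hV : IsFlatRealizable.{u} φ act) :
    IsFlatRealizable.{u} φ' (fun σ => act (r σ)) := by
  classical
  obtain ⟨H, _, _, hfin, hflat, hcc, e, hadd, hact⟩ := hV
  set f : WithConv (Λ' ⊗[Λ] H →ₐ[Λ'] Ω) → V := fun z => e (toConv (restrictPt z.ofConv)) with hf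
  have hinj : Function.Injective f := by
    intro z z' h
    exact ofConv_injective (restrictPt_injective (toConv_injective (e.injective h)))
  have hsurj : Function.Surjective f := by
    intro v
    obtain ⟨z, hz⟩ := restrictPt_surjective (Λ' := Λ') (ofConv (e.symm v))
    refine ⟨toConv z, ?_⟩
    simp only [hf, hz, toConv_ofConv, Equiv.apply_symm_apply]
  have hadd' : ∀ z z', f (z * z') = f z + f z' := by
    intro z z'
    simp only [hf, restrictPt_mul, hadd]
  have hgal : ∀ (σ : G') (z : WithConv (Λ' ⊗[Λ] H →ₐ[Λ'] Ω)),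
      f (toConv ((φ' σ).comp z.ofConv)) = act (r σ) (f z) := by
    intro σ z
    simp only [hf]
    rw [← hact, ← hr]
    rfl
  exact isFlatRealizable_of (Λ' ⊗[Λ] H) (Equiv.ofBijective f ⟨hinj, hsurj⟩)
    (fun z z' => hadd' z z') (fun σ z => hgal σ z)

end BaseChange

end Fermat.Agent.TW.Hopf.Closure
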