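import Mathlib
import Fermat.Prelude.Def_GaloisRep_Flat
import Fermat.Agent.S05.Val
import Fermat.Agent.TW.Hopf.ClosureBaseChange

/-!
# S56 sprint, block LOC-flat, F0 bridge: the valuation ring of the decomposition field

`Qb = AlgebraicClosure ℚ`, `P` a valuation subring of `Qb`, `D_P = P.decompositionSubgroup ℚ`.
`decompRing P` is the subring of `P` of elements fixed by `D_P`: a valuation ring (the
henselisation of `ℤ_(p)` when `P` lies over `p`) whose fraction field is the fixed field of `D_P`.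
With `decompOp P : D_P → (Qb →ₐ[decompRing P] Qb)` it is an instance of the generic setting of
`Fermat.Agent.TW.Hopf.Closure` (`FixedIsFrac`, `ValuationRing`, `FaithfulSMul`, `CharZero`), so
`IsFlatRealizable.addSubgroup / quotient / prod` apply to `D_P`-stable subquotients.

Main result: `isFlatRealizable_decomp_of_isFlatAt` — the Prelude's `GaloisRepAdic.IsFlatAt` gives,
for every `P` over `p` and every ideal `I` of finite index, `IsFlatRealizable (decompOp P)` of
`ρ.V ⧸ I • ⊤` with the action of `D_P`.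

Mathlib + Prelude + main's `S05/Val` only.  Branch-only work.
-/

set_option autoImplicit false
set_option linter.unusedSectionVars false
set_option linter.style.haveILetI false

namespace Fermat.Agent.TW.Hopf.DecompRing

open WithConv Fermat.Agent.TW.Hopf.Closure Fermat.Agent.TW.Hopf.Descent

local notation "Qb" => AlgebraicClosure ℚ
local notation "GQ" => (AlgebraicClosure ℚ ≃ₐ[ℚ] AlgebraicClosure ℚ)

/-- The ring of integers of the decomposition field: the elements of `P` fixed by `D_P`. -/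
def decompRing (P : ValuationSubring Qb) : Subring Qb where
  carrier := {z | z ∈ P ∧ ∀ σ ∈ P.decompositionSubgroup ℚ, σ z = z}
  mul_mem' {a b} ha hb := ⟨P.mul_mem _ _ ha.1 hb.1, fun σ hσ => by rw [map_mul, ha.2 σ hσ, hb.2 σ hσ]⟩
  one_mem' := ⟨P.one_mem, fun σ _ => map_one σ⟩
  add_mem' {a b} ha hb := ⟨P.add_mem _ _ ha.1 hb.1, fun σ hσ => by rw [map_add, ha.2 σ hσ, hb.2 σ hσ]⟩
  zero_mem' := ⟨P.zero_mem, fun σ _ => map_zero σ⟩
  neg_mem' {a} ha := ⟨P.neg_mem _ ha.1, fun σ hσ => by rw [map_neg, ha.2 σ hσ]⟩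

variable (P : ValuationSubring Qb)

theorem mem_decompRing {z : Qb} :
    z ∈ decompRing P ↔ z ∈ P ∧ ∀ σ ∈ P.decompositionSubgroup ℚ, σ z = z := Iff.rfl

theorem algebraMap_decompRing (a : decompRing P) : algebraMap (decompRing P) Qb a = (a : Qb) := rfl

/-- A `D_P`-fixed element or its inverse lies in `decompRing P`. -/
theorem mem_or_inv_mem {z : Qb} (hz : ∀ σ ∈ P.decompositionSubgroup ℚ, σ z = z) :
    z ∈ decompRing P ∨ z⁻¹ ∈ decompRing P := by
  rcases P.mem_or_inv_mem z with h | h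
  · exact Or.inl ⟨h, hz⟩
  · exact Or.inr ⟨h, fun σ hσ => by rw [map_inv₀, hz σ hσ]⟩

instance : ValuationRing (decompRing P) := by
  haveI : PreValuationRing (decompRing P) := by
    refine ⟨fun a b => ?_⟩
    by_cases ha : a = 0
    · exact ⟨0, Or.inr (by rw [ha, mul_zero])⟩
    have ha' : (a : Qb) ≠ 0 := fun h => ha (Subtype.ext h)
    have hfix : ∀ σ ∈ P.decompositionSubgroup ℚ, σ ((b : Qb) / (a : Qb)) = (b : Qb) / (a : Qb) :=
      fun σ hσ => by rw [map_div₀, a.2.2 σ hσ, b.2.2 σ hσ]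
    rcases mem_or_inv_mem P hfix with h | h
    · refine ⟨⟨_, h⟩, Or.inl (Subtype.ext ?_)⟩
      show (a : Qb) * ((b : Qb) / (a : Qb)) = b
      field_simp
    · by_cases hb : b = 0
      · exact ⟨0, Or.inl (by rw [hb, mul_zero])⟩
      have hb' : (b : Qb) ≠ 0 := fun h => hb (Subtype.ext h)
      refine ⟨⟨_, h⟩, Or.inr (Subtype.ext ?_)⟩
      show (b : Qb) * ((b : Qb) / (a : Qb))⁻¹ = a
      field_simp
  exact {}

/-- The elements of the decomposition group as `decompRing P`-algebra automorphisms of `Qb`. -/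
noncomputable def decompOp (σ : P.decompositionSubgroup ℚ) : Qb →ₐ[decompRing P] Qb :=
  { ((σ : GQ) : Qb →+* Qb) with commutes' := fun a => a.2.2 σ.1 σ.2 }

@[simp] theorem decompOp_apply (σ : P.decompositionSubgroup ℚ) (z : Qb) :
    decompOp P σ z = (σ : GQ) z := rfl

theorem fixedIsFrac_decompOp : FixedIsFrac (Set.range (decompOp P)) := by
  intro z hz
  have hfix : ∀ σ ∈ P.decompositionSubgroup ℚ, σ z = z :=
    fun σ hσ => hz (decompOp P ⟨σ, hσ⟩) ⟨⟨σ, hσ⟩, rfl⟩
  rcases mem_or_inv_mem P hfix with h | h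
  · exact ⟨⟨z, h⟩, 1, one_ne_zero, by rw [map_one, one_mul]; rfl⟩
  · by_cases hz0 : z = 0
    · exact ⟨0, 1, one_ne_zero, by rw [hz0, mul_zero, map_zero]⟩
    refine ⟨1, ⟨z⁻¹, h⟩, fun h0 => ?_, ?_⟩
    · have : (z⁻¹ : Qb) = 0 := congrArg Subtype.val h0
      exact hz0 (inv_eq_zero.mp this)
    · rw [map_one]
      show z⁻¹ * z = 1
      exact inv_mul_cancel₀ hz0

/-! ### The Prelude's `IsFlatAt` in the generic language -/

section Global

variable {p : ℕ}

/-- An element of `G_ℚ` as a `ℤ_(p)`-algebra endomorphism of `Qb`. -/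
noncomputable def globalOp (p : ℕ) (σ : GQ) : Qb →ₐ[GaloisRep.ratLocalizedAt p] Qb :=
  (σ.restrictScalars (GaloisRep.ratLocalizedAt p)).toAlgHom

@[simp] theorem globalOp_apply (σ : GQ) (z : Qb) : globalOp p σ z = σ z := rfl

/-- The Prelude's `IsFlatAt` at the ideal `I`, in the language of `IsFlatRealizable`
(`Λ = ℤ_(p)`, `Ω = Qb`, `G = G_ℚ`). -/
theorem isFlatRealizable_global_of_isFlatAt {A : Type} [CommRing A] [IsLocalRing A]
    (ρ : GaloisRepAdic A) (hρ : ρ.IsFlatAt p) (I : Ideal A) (hI : Finite (A ⧸ I)) :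
    IsFlatRealizable.{0} (globalOp p) (fun σ => ρ.levelAction I σ) := by
  obtain ⟨H, _, _, hfin, hflat, hcc, e, hadd, hact⟩ := hρ.2 I hI
  exact ⟨H, _, _, hfin, hflat, hcc, e, hadd,
    fun σ f => hact σ f (toConv ((globalOp p σ).comp f.ofConv)) (fun _ => rfl)⟩

end Global

section Local

variable {p : ℕ}

theorem ratLoc_mem_decompRing (hp : p.Prime) (hP : P.LiesOverPrime p)
    (r : GaloisRep.ratLocalizedAt p) :
    algebraMap (GaloisRep.ratLocalizedAt p) Qb r ∈ decompRing P := by
  refine ⟨?_, fun σ _ => σ.commutes (r : ℚ)⟩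
  rw [← P.valuation_le_one_iff]
  show P.valuation (algebraMap ℚ Qb (r : ℚ)) ≤ 1
  have hden : ¬ ((p : ℤ) ∣ ((r : ℚ).den : ℤ)) := by
    intro h
    have h1 : p ∣ (r : ℚ).den := Int.natCast_dvd_natCast.mp h
    have h2 : p ∣ Nat.gcd (r : ℚ).den p := Nat.dvd_gcd h1 dvd_rfl
    rw [r.2] at h2
    exact hp.one_lt.ne' (Nat.dvd_one.mp h2)
  have h1 : P.valuation (((r : ℚ).den : ℤ) : Qb) = 1 :=
    Fermat.Agent.S05.valuation_intCast_eq_one_of_not_dvd P hp hP hden
  have h2 : P.valuation (((r : ℚ).num : ℤ) : Qb) ≤ 1 :=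
    Fermat.Agent.S05.valuation_intCast_le_one P _
  have h3 : algebraMap ℚ Qb (r : ℚ) = (((r : ℚ).num : ℤ) : Qb) / (((r : ℚ).den : ℤ) : Qb) := by
    conv_lhs => rw [← Rat.num_div_den (r : ℚ)]
    rw [map_div₀]
    simp
  rw [h3, map_div₀, h1, div_one]
  exact h2

/-- The structure map `ℤ_(p) → decompRing P` for `P` over `p`. -/
noncomputable def ratLocToDecompRing (hp : p.Prime) (hP : P.LiesOverPrime p) :
    GaloisRep.ratLocalizedAt p →+* decompRing P :=
  (algebraMap (GaloisRep.ratLocalizedAt p) Qb).codRestrict (decompRing P)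
    (ratLoc_mem_decompRing P hp hP)

/-- **Bridge.** The Prelude's `IsFlatAt` gives `IsFlatRealizable` over the valuation ring of the
decomposition field of any place `P` over `p`, equivariantly for `D_P`. -/
theorem isFlatRealizable_decomp_of_isFlatAt (hp : p.Prime) (hP : P.LiesOverPrime p)
    {A : Type} [CommRing A] [IsLocalRing A]
    (ρ : GaloisRepAdic A) (hρ : ρ.IsFlatAt p) (I : Ideal A) (hI : Finite (A ⧸ I)) :
    IsFlatRealizable.{0} (decompOp P)
      (fun σ : P.decompositionSubgroup ℚ => ρ.levelAction I (σ : GQ)) := by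
  letI : Algebra (GaloisRep.ratLocalizedAt p) (decompRing P) :=
    (ratLocToDecompRing P hp hP).toAlgebra
  haveI : IsScalarTower (GaloisRep.ratLocalizedAt p) (decompRing P) Qb :=
    IsScalarTower.of_algebraMap_eq (fun _ => rfl)
  exact IsFlatRealizable.baseChange (Λ := GaloisRep.ratLocalizedAt p) (Λ' := decompRing P)
    (φ := globalOp p) (φ' := decompOp P) (fun σ : P.decompositionSubgroup ℚ => (σ : GQ))
    (fun σ => by ext z; rfl) (isFlatRealizable_global_of_isFlatAt ρ hρ I hI)

end Local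

end Fermat.Agent.TW.Hopf.DecompRing
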