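import Mathlib
import Fermat.Agent.TW.Hopf.ClosurePoints

/-!
# S56 sprint, block LOC-flat, F0 (Hopf orders): point models

A *point model* of a commutative `Λ`-algebra `M` is an injective `Λ`-algebra homomorphism
`ev : M → (X → Ω)` into the algebra of `Ω`-valued functions on a finite set `X` which is equivariant
for an action of the index set `G` of a family `φ : G → (Ω →ₐ[Λ] Ω)` by surjections of `X`.
(Examples: `H ⧸ vanishingIdeal S` with `X = S`; a point-separated Hopf order with `X` = all points;
the algebra of `N`-invariant functions in it.)  If the elements of `Ω` fixed by all `φ σ` lie in the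
fraction field of `Λ`:

* `PointModel.linearIndependent`: a `Λ`-linearly independent family of `M` stays linearly
  independent over `Ω` in `X → Ω` (descent);
* `PointModel.exists_eq_eval` (char. 0): every `Λ`-algebra homomorphism `M → Ω` is the evaluation
  at a point of `X` (polynomial trick);
* `PointModel.span_eq_top`: if `ev M` separates the points of `X`, it spans `X → Ω` over `Ω`;
* `PointModel.exists_smul_eq_of_equivariant`: an equivariant function on `X` is, up to a nonzero
  denominator in `Λ`, in `ev M` (when `M` is finite free and separates points).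

Mathlib only.  Branch-only work.
-/

set_option autoImplicit false
set_option linter.unusedSectionVars false
set_option linter.style.haveILetI false

namespace Fermat.Agent.TW.Hopf.Closure

open Polynomial Fermat.Agent.TW.Hopf.Descent

variable {Λ : Type*} [CommRing Λ] {Ω : Type*} [Field Ω] [Algebra Λ Ω]

/-- A point model (see the module docstring). -/
structure PointModel {G : Type*} (φ : G → Ω →ₐ[Λ] Ω) (M : Type*) [CommRing M] [Algebra Λ M]
    (X : Type*) where
  /-- evaluation -/
  ev : M →ₐ[Λ] (X → Ω)
  ev_injective : Function.Injective ev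
  /-- the action on the points -/
  act : G → X → X
  act_surjective : ∀ σ, Function.Surjective (act σ)
  ev_act : ∀ σ m x, ev m (act σ x) = φ σ (ev m x)

namespace PointModel

variable [IsDomain Λ] [FaithfulSMul Λ Ω]
variable {G : Type*} {φ : G → Ω →ₐ[Λ] Ω} {M : Type*} [CommRing M] [Algebra Λ M] {X : Type*}

/-- **Descent.** -/
theorem linearIndependent (P : PointModel φ M X) (hfrac : FixedIsFrac (Set.range φ))
    {ι : Type*} (b : ι → M) (hb : LinearIndependent Λ b) :
    LinearIndependent Ω (fun i => P.ev (b i)) := by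
  classical
  refine linearIndependent_of_fixed (G := G) (fun σ => ((φ σ : Ω →ₐ[Λ] Ω) : Ω →+* Ω)) P.act
    P.act_surjective _ (fun σ i x => P.ev_act σ (b i) x) ?_
  intro s c hc hrel
  obtain ⟨b₀, hb₀, hbs⟩ := exists_common_denominator (Λ := Λ) s c
    (fun i hi => hfrac (c i) (by rintro _ ⟨σ, rfl⟩; exact hc i hi σ))
  choose! a ha using hbs
  have h1 : P.ev (∑ i ∈ s, a i • b i) = 0 := by
    rw [map_sum]
    have h2 : algebraMap Λ Ω b₀ • ∑ i ∈ s, c i • P.ev (b i) = 0 := by rw [hrel, smul_zero]
    rw [Finset.smul_sum] at h2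
    rw [← h2]
    refine Finset.sum_congr rfl fun i hi => ?_
    rw [map_smul, smul_smul, ha i hi, algebraMap_smul]
  have h3 : ∑ i ∈ s, a i • b i = 0 := P.ev_injective (by rw [h1, map_zero])
  have h4 := linearIndependent_iff'.mp hb s a h3
  intro i hi
  have h5 := ha i hi
  rw [h4 i hi, map_zero] at h5
  rcases mul_eq_zero.mp h5 with h6 | h6
  · exact absurd ((map_eq_zero_iff _ (FaithfulSMul.algebraMap_injective Λ Ω)).mp h6) hb₀
  · exact h6

/-- **Polynomial trick.** -/
theorem exists_eq_eval_apply [Finite X] (P : PointModel φ M X)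
    (hfrac : FixedIsFrac (Set.range φ)) (z : M →ₐ[Λ] Ω) (m : M) :
    ∃ x : X, z m = P.ev m x := by
  classical
  haveI : Fintype X := Fintype.ofFinite X
  set Q₀ : Polynomial Ω := ∏ x : X, (Polynomial.X - C (P.ev m x)) with hQ₀
  have hfix : ∀ σ : G, Q₀.map ((φ σ : Ω →ₐ[Λ] Ω) : Ω →+* Ω) = Q₀ := by
    intro σ
    rw [hQ₀, Polynomial.map_prod]
    have hbij : Function.Bijective (P.act σ) :=
      ⟨Finite.injective_iff_surjective.mpr (P.act_surjective σ), P.act_surjective σ⟩
    rw [← Function.Bijective.prod_comp hbij (fun x : X => Polynomial.X - C (P.ev m x))]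
    refine Finset.prod_congr rfl fun x _ => ?_
    rw [Polynomial.map_sub, Polynomial.map_X, Polynomial.map_C, P.ev_act]
    rfl
  have hQfrac : ∀ n, IsFrac Λ (Q₀.coeff n) := by
    intro n
    apply hfrac
    rintro _ ⟨σ, rfl⟩
    have := congrArg (fun R : Polynomial Ω => R.coeff n) (hfix σ)
    simpa [Polynomial.coeff_map] using this
  obtain ⟨b, Q, hb, hQ⟩ := exists_integral_multiple (Λ := Λ) Q₀ hQfrac
  have hev : ∀ w : M →ₐ[Λ] Ω, w (aeval m Q) = algebraMap Λ Ω b * Q₀.eval (w m) := by
    intro w
    rw [← Polynomial.aeval_algHom_apply, Polynomial.aeval_def, Polynomial.eval₂_eq_eval_map, hQ,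
      Polynomial.eval_mul, Polynomial.eval_C]
  have hzero : aeval m Q = 0 := by
    apply P.ev_injective
    rw [map_zero]
    funext x
    have := hev ((Pi.evalAlgHom Λ (fun _ : X => Ω) x).comp P.ev)
    have h2 : P.ev (aeval m Q) x = algebraMap Λ Ω b * Q₀.eval (P.ev m x) := this
    rw [h2, hQ₀, Polynomial.eval_prod, Finset.prod_eq_zero (Finset.mem_univ x) (by simp),
      mul_zero]
    rfl
  have h0 := hev z
  rw [hzero, map_zero] at h0
  have hb' : algebraMap Λ Ω b ≠ 0 := fun hb0 =>
    hb ((map_eq_zero_iff _ (FaithfulSMul.algebraMap_injective Λ Ω)).mp hb0)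
  have h1 : Q₀.eval (z m) = 0 := (mul_eq_zero.mp h0.symm).resolve_left hb'
  rw [hQ₀, Polynomial.eval_prod, Finset.prod_eq_zero_iff] at h1
  obtain ⟨x, _, hx⟩ := h1
  refine ⟨x, ?_⟩
  simpa [sub_eq_zero] using hx

/-- Every `Λ`-algebra homomorphism `M → Ω` is the evaluation at a point of `X`. -/
theorem exists_eq_eval [Finite X] [CharZero Ω] (P : PointModel φ M X)
    (hfrac : FixedIsFrac (Set.range φ)) (z : M →ₐ[Λ] Ω) :
    ∃ x : X, ∀ m, z m = P.ev m x := by
  classical
  haveI : Fintype X := Fintype.ofFinite X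
  let pt : X → M →ₐ[Λ] Ω := fun x => (Pi.evalAlgHom Λ (fun _ : X => Ω) x).comp P.ev
  have hcov : ⋃ x ∈ (Finset.univ : Finset X),
      ((LinearMap.ker (z.toLinearMap - (pt x).toLinearMap) : Submodule Λ M) : Set M) =
        Set.univ := by
    rw [Set.eq_univ_iff_forall]
    intro m
    obtain ⟨x, hx⟩ := P.exists_eq_eval_apply hfrac z m
    simp only [Set.mem_iUnion]
    refine ⟨x, Finset.mem_univ x, ?_⟩
    have : z m - (pt x) m = 0 := by rw [hx]; exact sub_self _
    simpa [LinearMap.mem_ker] using this
  obtain ⟨x, _, hfi⟩ := Submodule.exists_finiteIndex_of_cover hcov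
  refine ⟨x, fun m => ?_⟩
  set K := (LinearMap.ker (z.toLinearMap - (pt x).toLinearMap) : Submodule Λ M) with hK
  have h1 : K.toAddSubgroup.index • m ∈ K.toAddSubgroup := AddSubgroup.nsmul_index_mem _ m
  have h2 : (z.toLinearMap - (pt x).toLinearMap) (K.toAddSubgroup.index • m) = 0 := h1
  rw [map_nsmul, LinearMap.sub_apply, AlgHom.toLinearMap_apply, AlgHom.toLinearMap_apply,
    nsmul_eq_mul] at h2
  rcases mul_eq_zero.mp h2 with h3 | h3
  · exact absurd (by exact_mod_cast h3) hfi.index_ne_zero
  · exact sub_eq_zero.mp h3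

/-- If `ev M` separates the points of the finite set `X`, it spans `X → Ω` over `Ω`. -/
theorem span_eq_top [Finite X] (P : PointModel φ M X)
    (hsep : ∀ x x' : X, x ≠ x' → ∃ m, P.ev m x ≠ P.ev m x') :
    Submodule.span Ω (Set.range P.ev) = ⊤ := by
  classical
  haveI : Fintype X := Fintype.ofFinite X
  -- the span is a subalgebra
  have hspan : (Algebra.adjoin Ω (Set.range P.ev)).toSubmodule =
      Submodule.span Ω (Set.range P.ev) := by
    rw [Algebra.adjoin_eq_span]
    congr 1
    have : (Set.range P.ev) = ((MonoidHom.mrange (P.ev : M →* (X → Ω)) : Submonoid (X → Ω)) :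
        Set (X → Ω)) := rfl
    rw [this, Submonoid.closure_eq]
  rw [← hspan, eq_top_iff]
  intro f _
  -- indicator functions
  have hδ : ∀ x : X, Pi.single x (1 : Ω) ∈ Algebra.adjoin Ω (Set.range P.ev) := by
    intro x
    have hg : ∀ x' : X, x' ≠ x → ∃ g ∈ Algebra.adjoin Ω (Set.range P.ev),
        g x = 1 ∧ g x' = 0 := by
      intro x' hx'
      obtain ⟨m, hm⟩ := hsep x x' (Ne.symm hx')
      have hne : P.ev m x - P.ev m x' ≠ 0 := sub_ne_zero.mpr hm
      refine ⟨(P.ev m x - P.ev m x')⁻¹ • (P.ev m - algebraMap Ω (X → Ω) (P.ev m x')), ?_, ?_, ?_⟩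
      · have hm' : P.ev m ∈ Algebra.adjoin Ω (Set.range P.ev) :=
          Algebra.subset_adjoin (Set.mem_range_self m)
        exact Subalgebra.smul_mem _ (Subalgebra.sub_mem _ hm' (Subalgebra.algebraMap_mem _ _)) _
      · simp [inv_mul_cancel₀ hne]
      · simp
    choose! g hgmem hg1 hg0 using hg
    have hprod : Pi.single x (1 : Ω) = ∏ x' ∈ Finset.univ.erase x, g x' := by
      funext y
      rw [Finset.prod_apply]
      by_cases hy : y = x
      · subst hy
        rw [Pi.single_eq_same]
        symm
        apply Finset.prod_eq_one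
        intro x' hx'
        exact hg1 x' (Finset.ne_of_mem_erase hx')
      · rw [Pi.single_eq_of_ne hy]
        symm
        exact Finset.prod_eq_zero (Finset.mem_erase.mpr ⟨hy, Finset.mem_univ y⟩) (hg0 y hy)
    rw [hprod]
    exact Subalgebra.prod_mem _ fun x' hx' => hgmem x' (Finset.ne_of_mem_erase hx')
  have hf : f = ∑ x, f x • Pi.single x (1 : Ω) := by
    funext y
    simp [Finset.sum_apply, Pi.single_apply]
  rw [hf]
  exact Subalgebra.sum_mem _ fun x _ => Subalgebra.smul_mem _ (hδ x) _

/-- **Equivariant functions are rational.** If `M` is finite free and separates the points of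
`X`, every equivariant function `X → Ω` is in `ev M` up to a nonzero denominator in `Λ`. -/
theorem exists_smul_eq_of_equivariant [Finite X] [Module.Finite Λ M] [Module.Free Λ M]
    (P : PointModel φ M X) (hfrac : FixedIsFrac (Set.range φ))
    (hsep : ∀ x x' : X, x ≠ x' → ∃ m, P.ev m x ≠ P.ev m x')
    (f : X → Ω) (hf : ∀ σ x, f (P.act σ x) = φ σ (f x)) :
    ∃ b : Λ, b ≠ 0 ∧ ∃ m : M, P.ev m = algebraMap Λ Ω b • f := by
  classical
  set β := Module.Free.chooseBasis Λ M with hβ
  have hli : LinearIndependent Ω (fun i => P.ev (β i)) :=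
    P.linearIndependent hfrac β β.linearIndependent
  have hspan : ⊤ ≤ Submodule.span Ω (Set.range fun i => P.ev (β i)) := by
    rw [← P.span_eq_top hsep, Submodule.span_le]
    rintro _ ⟨m, rfl⟩
    rw [← β.sum_repr m, map_sum]
    refine Submodule.sum_mem _ fun i _ => ?_
    rw [map_smul, ← algebraMap_smul Ω (β.repr m i) (P.ev (β i))]
    exact Submodule.smul_mem _ _ (Submodule.subset_span (Set.mem_range_self i))
  set B := Module.Basis.mk hli hspan with hB
  have hBi : ∀ i, B i = P.ev (β i) := fun i => by rw [hB, Module.Basis.mk_apply]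
  -- the coefficients of `f` are fixed
  have hfix : ∀ σ i, φ σ (B.repr f i) = B.repr f i := by
    intro σ
    have hrel : ∑ i, (B.repr f i - φ σ (B.repr f i)) • P.ev (β i) = 0 := by
      funext y
      obtain ⟨x, rfl⟩ := P.act_surjective σ y
      have h1 : f = ∑ i, B.repr f i • P.ev (β i) := by
        conv_lhs => rw [← B.sum_repr f]
        exact Finset.sum_congr rfl fun i _ => by rw [hBi]
      have h2 := congrFun h1 (P.act σ x)
      have h3 := congrArg (φ σ) (congrFun h1 x)
      rw [← hf σ x] at h3
      simp only [Finset.sum_apply, Pi.smul_apply, smul_eq_mul, map_sum, map_mul,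
        ← P.ev_act] at h2 h3 ⊢
      rw [Pi.zero_apply]
      have : ∑ i, (B.repr f i - φ σ (B.repr f i)) * P.ev (β i) (P.act σ x) =
          ∑ i, B.repr f i * P.ev (β i) (P.act σ x) -
            ∑ i, φ σ (B.repr f i) * P.ev (β i) (P.act σ x) := by
        rw [← Finset.sum_sub_distrib]
        exact Finset.sum_congr rfl fun i _ => by ring
      rw [this, ← h2, ← h3, sub_self]
    intro i
    have := Fintype.linearIndependent_iff.mp hli _ hrel i
    exact (sub_eq_zero.mp this).symm
  obtain ⟨b, hb, hbs⟩ := exists_common_denominator (Λ := Λ) (Finset.univ) (fun i => B.repr f i)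
    (fun i _ => hfrac _ (by rintro _ ⟨σ, rfl⟩; exact hfix σ i))
  choose! a ha using hbs
  refine ⟨b, hb, ∑ i, a i • β i, ?_⟩
  rw [map_sum]
  conv_rhs => rw [← B.sum_repr f, Finset.smul_sum]
  refine Finset.sum_congr rfl fun i _ => ?_
  rw [map_smul, smul_smul, ha i (Finset.mem_univ i), hBi, algebraMap_smul]

end PointModel

end Fermat.Agent.TW.Hopf.Closure
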