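import Mathlib
import Fermat.Agent.TW.Hopf.ClosureSub

/-!
# S56 sprint, block LOC-flat, F0 (Hopf orders): products

Finite flat realizability passes to products: the tensor product of the two Hopf algebras.

Mathlib only.  Branch-only work.
-/

set_option autoImplicit false
set_option linter.unusedSectionVars false
set_option linter.style.haveILetI false

universe u

namespace Fermat.Agent.TW.Hopf.Closure

open WithConv TensorProduct Coalgebra

section Incl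

variable (Λ : Type*) [CommRing Λ] (H₁ H₂ : Type*) [CommRing H₁] [CommRing H₂]
  [Bialgebra Λ H₁] [Bialgebra Λ H₂]

/-- The left inclusion `H₁ → H₁ ⊗ H₂` as a bialgebra homomorphism. -/
noncomputable def inlBialgHom : H₁ →ₐc[Λ] H₁ ⊗[Λ] H₂ :=
  (Bialgebra.TensorProduct.map (BialgHom.id Λ H₁) (Bialgebra.unitBialgHom Λ H₂)).comp
    ((Bialgebra.TensorProduct.rid Λ Λ H₁).symm : H₁ →ₐc[Λ] H₁ ⊗[Λ] Λ)

/-- The right inclusion `H₂ → H₁ ⊗ H₂` as a bialgebra homomorphism. -/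
noncomputable def inrBialgHom : H₂ →ₐc[Λ] H₁ ⊗[Λ] H₂ :=
  (Bialgebra.TensorProduct.map (Bialgebra.unitBialgHom Λ H₁) (BialgHom.id Λ H₂)).comp
    ((Bialgebra.TensorProduct.lid Λ H₂).symm : H₂ →ₐc[Λ] Λ ⊗[Λ] H₂)

@[simp] theorem inlBialgHom_apply (a : H₁) : inlBialgHom Λ H₁ H₂ a = a ⊗ₜ 1 := by
  simp [inlBialgHom]

@[simp] theorem inrBialgHom_apply (b : H₂) : inrBialgHom Λ H₁ H₂ b = 1 ⊗ₜ b := by
  simp [inrBialgHom]

theorem inlBialgHom_toAlgHom :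
    ((inlBialgHom Λ H₁ H₂ : H₁ →ₐc[Λ] _) : H₁ →ₐ[Λ] H₁ ⊗[Λ] H₂) =
      Algebra.TensorProduct.includeLeft := by
  ext a
  simp

theorem inrBialgHom_toAlgHom :
    ((inrBialgHom Λ H₁ H₂ : H₂ →ₐc[Λ] _) : H₂ →ₐ[Λ] H₁ ⊗[Λ] H₂) =
      Algebra.TensorProduct.includeRight := by
  ext b
  simp

end Incl

section Prod

variable {Λ : Type*} [CommRing Λ] {Ω : Type*} [Field Ω] [Algebra Λ Ω]
variable {G : Type*} {φ : G → Ω →ₐ[Λ] Ω}
variable {V₁ V₂ : Type*} [AddCommGroup V₁] [AddCommGroup V₂] {act₁ : G → V₁ → V₁}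
  {act₂ : G → V₂ → V₂}

/-- **F0, products.** -/
theorem IsFlatRealizable.prod (h₁ : IsFlatRealizable.{u} φ act₁) (h₂ : IsFlatRealizable.{u} φ act₂) :
    IsFlatRealizable.{u} φ (V := V₁ × V₂) (fun σ v => (act₁ σ v.1, act₂ σ v.2)) := by
  classical
  obtain ⟨H₁, _, _, hfin₁, hflat₁, hcc₁, e₁, hadd₁, hact₁⟩ := h₁
  obtain ⟨H₂, _, _, hfin₂, hflat₂, hcc₂, e₂, hadd₂, hact₂⟩ := h₂
  set ι₁ : H₁ →ₐ[Λ] H₁ ⊗[Λ] H₂ := Algebra.TensorProduct.includeLeft with hι₁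
  set ι₂ : H₂ →ₐ[Λ] H₁ ⊗[Λ] H₂ := Algebra.TensorProduct.includeRight with hι₂
  have hmul₁ : ∀ z z' : WithConv (H₁ ⊗[Λ] H₂ →ₐ[Λ] Ω),
      toConv ((z * z').ofConv.comp ι₁) = toConv (z.ofConv.comp ι₁) * toConv (z'.ofConv.comp ι₁) := by
    intro z z'
    rw [hι₁, ← inlBialgHom_toAlgHom, AlgHom.convMul_comp_bialgHom_distrib, toConv_ofConv]
  have hmul₂ : ∀ z z' : WithConv (H₁ ⊗[Λ] H₂ →ₐ[Λ] Ω),
      toConv ((z * z').ofConv.comp ι₂) = toConv (z.ofConv.comp ι₂) * toConv (z'.ofConv.comp ι₂) := by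
    intro z z'
    rw [hι₂, ← inrBialgHom_toAlgHom, AlgHom.convMul_comp_bialgHom_distrib, toConv_ofConv]
  set f : WithConv (H₁ ⊗[Λ] H₂ →ₐ[Λ] Ω) → V₁ × V₂ :=
    fun z => (e₁ (toConv (z.ofConv.comp ι₁)), e₂ (toConv (z.ofConv.comp ι₂))) with hf
  have hinj : Function.Injective f := by
    intro z z' h
    have h1 := toConv_injective (e₁.injective (congrArg Prod.fst h))
    have h2 := toConv_injective (e₂.injective (congrArg Prod.snd h))
    apply ofConv_injective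
    exact Algebra.TensorProduct.ext h1 h2
  have hsurj : Function.Surjective f := by
    rintro ⟨v₁, v₂⟩
    refine ⟨toConv (Algebra.TensorProduct.lift (ofConv (e₁.symm v₁)) (ofConv (e₂.symm v₂))
      (fun _ _ => Commute.all _ _)), ?_⟩
    simp only [hf, hι₁, hι₂, Algebra.TensorProduct.lift_comp_includeLeft,
      Algebra.TensorProduct.lift_comp_includeRight', toConv_ofConv, Equiv.apply_symm_apply]
  have hadd : ∀ z z', f (z * z') = f z + f z' := by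
    intro z z'
    simp only [hf, hmul₁, hmul₂, hadd₁, hadd₂, Prod.mk_add_mk]
  have hgal : ∀ (σ : G) (z : WithConv (H₁ ⊗[Λ] H₂ →ₐ[Λ] Ω)),
      f (toConv ((φ σ).comp z.ofConv)) = (act₁ σ (f z).1, act₂ σ (f z).2) := by
    intro σ z
    simp only [hf, AlgHom.comp_assoc]
    rw [← hact₁, ← hact₂]
  exact isFlatRealizable_of (H₁ ⊗[Λ] H₂) (Equiv.ofBijective f ⟨hinj, hsurj⟩)
    (fun z z' => hadd z z') (fun σ z => hgal σ z)

end Prod

end Fermat.Agent.TW.Hopf.Closure
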