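import Mathlib

/-!
# S56 sprint, block LOC-flat, F0 (Hopf orders): sub-bialgebras and sub-Hopf-algebras

`B` a commutative bialgebra over `Λ`, `ι : A →ₐ[Λ] B` an injective algebra homomorphism such that
`ι ⊗ ι` and `ι ⊗ ι ⊗ ι` are injective and `Δ (ι A) ⊆ (ι ⊗ ι)(A ⊗ A)`.  Then `A` carries a unique
bialgebra structure making `ι` a bialgebra homomorphism; it is cocommutative / Hopf if `B` is (and
the antipode preserves `ι A`).

Mathlib only.  Branch-only work.
-/

set_option autoImplicit false
set_option linter.unusedSectionVars false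
set_option linter.style.haveILetI false

namespace Fermat.Agent.TW.Hopf.SubHopf

open TensorProduct Coalgebra

variable {Λ : Type*} [CommRing Λ] {A B : Type*} [CommRing A] [Algebra Λ A] [CommRing B]
  [Bialgebra Λ B]

/-- `ι : A → B` exhibits `A` as a sub-bialgebra of `B`. -/
structure IsSubBialg (ι : A →ₐ[Λ] B) : Prop where
  inj₁ : Function.Injective ι
  inj₂ : Function.Injective (Algebra.TensorProduct.map ι ι)
  inj₃ : Function.Injective (Algebra.TensorProduct.map ι (Algebra.TensorProduct.map ι ι))
  comul_mem : ∀ a, (Bialgebra.comulAlgHom Λ B).comp ι a ∈ (Algebra.TensorProduct.map ι ι).range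

variable {ι : A →ₐ[Λ] B} (hι : IsSubBialg ι)

/-- The comultiplication of the sub-bialgebra. -/
noncomputable def comulSub : A →ₐ[Λ] A ⊗[Λ] A :=
  ((AlgEquiv.ofInjective _ hι.inj₂).symm : _ →ₐ[Λ] _).comp
    (((Bialgebra.comulAlgHom Λ B).comp ι).codRestrict _ hι.comul_mem)

theorem map_comulSub (a : A) :
    Algebra.TensorProduct.map ι ι (comulSub hι a) = Bialgebra.comulAlgHom Λ B (ι a) := by
  have h := AlgEquiv.ofInjective_apply (Algebra.TensorProduct.map ι ι) hι.inj₂ (comulSub hι a)
  rw [← h]
  simp [comulSub]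

theorem map_comp_comulSub :
    (Algebra.TensorProduct.map ι ι).comp (comulSub hι) = (Bialgebra.comulAlgHom Λ B).comp ι :=
  AlgHom.ext (map_comulSub hι)

/-- The counit of the sub-bialgebra. -/
noncomputable def counitSub (ι : A →ₐ[Λ] B) : A →ₐ[Λ] Λ := (Bialgebra.counitAlgHom Λ B).comp ι

section BSide

variable (Λ B)

theorem coassoc_algHom :
    (Algebra.TensorProduct.assoc Λ Λ Λ B B B).toAlgHom.comp
      ((Algebra.TensorProduct.map (Bialgebra.comulAlgHom Λ B) (.id Λ B)).comp
        (Bialgebra.comulAlgHom Λ B)) =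
    (Algebra.TensorProduct.map (.id Λ B) (Bialgebra.comulAlgHom Λ B)).comp
      (Bialgebra.comulAlgHom Λ B) :=
  AlgHom.toLinearMap_injective (Coalgebra.coassoc (R := Λ) (A := B))

theorem rTensor_counit_algHom :
    (Algebra.TensorProduct.map (Bialgebra.counitAlgHom Λ B) (.id Λ B)).comp
      (Bialgebra.comulAlgHom Λ B) = (Algebra.TensorProduct.lid Λ B).symm :=
  AlgHom.toLinearMap_injective (Coalgebra.rTensor_counit_comp_comul (R := Λ) (A := B))

theorem lTensor_counit_algHom :
    (Algebra.TensorProduct.map (.id Λ B) (Bialgebra.counitAlgHom Λ B)).comp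
      (Bialgebra.comulAlgHom Λ B) = (Algebra.TensorProduct.rid Λ Λ B).symm :=
  AlgHom.toLinearMap_injective (Coalgebra.lTensor_counit_comp_comul (R := Λ) (A := B))

end BSide

section Naturality

variable {A₁ A₂ A₃ B₁ B₂ B₃ : Type*} [CommRing A₁] [CommRing A₂] [CommRing A₃] [CommRing B₁]
  [CommRing B₂] [CommRing B₃] [Algebra Λ A₁] [Algebra Λ A₂] [Algebra Λ A₃] [Algebra Λ B₁]
  [Algebra Λ B₂] [Algebra Λ B₃]

theorem assoc_naturality (f₁ : A₁ →ₐ[Λ] B₁) (f₂ : A₂ →ₐ[Λ] B₂) (f₃ : A₃ →ₐ[Λ] B₃) :
    (Algebra.TensorProduct.map f₁ (Algebra.TensorProduct.map f₂ f₃)).comp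
      (Algebra.TensorProduct.assoc Λ Λ Λ A₁ A₂ A₃).toAlgHom =
    (Algebra.TensorProduct.assoc Λ Λ Λ B₁ B₂ B₃).toAlgHom.comp
      (Algebra.TensorProduct.map (Algebra.TensorProduct.map f₁ f₂) f₃) := by
  ext <;> simp [Algebra.TensorProduct.one_def]

theorem lid_naturality (f : A₁ →ₐ[Λ] B₁) :
    (Algebra.TensorProduct.map (AlgHom.id Λ Λ) f).comp
      ((Algebra.TensorProduct.lid Λ A₁).symm : A₁ →ₐ[Λ] Λ ⊗[Λ] A₁) =
    ((Algebra.TensorProduct.lid Λ B₁).symm : B₁ →ₐ[Λ] Λ ⊗[Λ] B₁).comp f := by
  ext a; simp

theorem rid_naturality (f : A₁ →ₐ[Λ] B₁) :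
    (Algebra.TensorProduct.map f (AlgHom.id Λ Λ)).comp
      ((Algebra.TensorProduct.rid Λ Λ A₁).symm : A₁ →ₐ[Λ] A₁ ⊗[Λ] Λ) =
    ((Algebra.TensorProduct.rid Λ Λ B₁).symm : B₁ →ₐ[Λ] B₁ ⊗[Λ] Λ).comp f := by
  ext a; simp

end Naturality

theorem coassocSub :
    (Algebra.TensorProduct.assoc Λ Λ Λ A A A).toAlgHom.comp
      ((Algebra.TensorProduct.map (comulSub hι) (.id Λ A)).comp (comulSub hι)) =
    (Algebra.TensorProduct.map (.id Λ A) (comulSub hι)).comp (comulSub hι) := by
  apply AlgHom.ext
  intro a
  apply hι.inj₃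
  have key : (Algebra.TensorProduct.map ι (Algebra.TensorProduct.map ι ι)).comp
      ((Algebra.TensorProduct.assoc Λ Λ Λ A A A).toAlgHom.comp
        ((Algebra.TensorProduct.map (comulSub hι) (.id Λ A)).comp (comulSub hι))) =
    (Algebra.TensorProduct.map ι (Algebra.TensorProduct.map ι ι)).comp
      ((Algebra.TensorProduct.map (.id Λ A) (comulSub hι)).comp (comulSub hι)) := by
    calc (Algebra.TensorProduct.map ι (Algebra.TensorProduct.map ι ι)).comp
          ((Algebra.TensorProduct.assoc Λ Λ Λ A A A).toAlgHom.comp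
            ((Algebra.TensorProduct.map (comulSub hι) (.id Λ A)).comp (comulSub hι)))
        = ((Algebra.TensorProduct.assoc Λ Λ Λ B B B).toAlgHom.comp
            (Algebra.TensorProduct.map (Algebra.TensorProduct.map ι ι) ι)).comp
              ((Algebra.TensorProduct.map (comulSub hι) (.id Λ A)).comp (comulSub hι)) := by
          rw [← assoc_naturality]; rfl
      _ = (Algebra.TensorProduct.assoc Λ Λ Λ B B B).toAlgHom.comp
            ((Algebra.TensorProduct.map ((Algebra.TensorProduct.map ι ι).comp (comulSub hι))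
              (ι.comp (.id Λ A))).comp (comulSub hι)) := by
          rw [Algebra.TensorProduct.map_comp]; rfl
      _ = (Algebra.TensorProduct.assoc Λ Λ Λ B B B).toAlgHom.comp
            ((Algebra.TensorProduct.map ((Bialgebra.comulAlgHom Λ B).comp ι)
              ((AlgHom.id Λ B).comp ι)).comp (comulSub hι)) := by
          rw [map_comp_comulSub]; rfl
      _ = (Algebra.TensorProduct.assoc Λ Λ Λ B B B).toAlgHom.comp
            ((Algebra.TensorProduct.map (Bialgebra.comulAlgHom Λ B) (AlgHom.id Λ B)).comp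
              ((Algebra.TensorProduct.map ι ι).comp (comulSub hι))) := by
          rw [Algebra.TensorProduct.map_comp]; rfl
      _ = ((Algebra.TensorProduct.assoc Λ Λ Λ B B B).toAlgHom.comp
            ((Algebra.TensorProduct.map (Bialgebra.comulAlgHom Λ B) (AlgHom.id Λ B)).comp
              (Bialgebra.comulAlgHom Λ B))).comp ι := by
          rw [map_comp_comulSub]; rfl
      _ = ((Algebra.TensorProduct.map (.id Λ B) (Bialgebra.comulAlgHom Λ B)).comp
            (Bialgebra.comulAlgHom Λ B)).comp ι := by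
          rw [coassoc_algHom]
      _ = (Algebra.TensorProduct.map (.id Λ B) (Bialgebra.comulAlgHom Λ B)).comp
            ((Algebra.TensorProduct.map ι ι).comp (comulSub hι)) := by
          rw [map_comp_comulSub]; rfl
      _ = (Algebra.TensorProduct.map ((AlgHom.id Λ B).comp ι)
            ((Bialgebra.comulAlgHom Λ B).comp ι)).comp (comulSub hι) := by
          rw [Algebra.TensorProduct.map_comp]; rfl
      _ = (Algebra.TensorProduct.map (ι.comp (AlgHom.id Λ A))
            ((Algebra.TensorProduct.map ι ι).comp (comulSub hι))).comp (comulSub hι) := by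
          rw [map_comp_comulSub]; rfl
      _ = (Algebra.TensorProduct.map ι (Algebra.TensorProduct.map ι ι)).comp
            ((Algebra.TensorProduct.map (.id Λ A) (comulSub hι)).comp (comulSub hι)) := by
          rw [Algebra.TensorProduct.map_comp]; rfl
  exact DFunLike.congr_fun key a

include hι in
theorem lid_map_injective :
    Function.Injective (Algebra.TensorProduct.map (AlgHom.id Λ Λ) ι) := by
  have h : ∀ u : Λ ⊗[Λ] A, ι (Algebra.TensorProduct.lid Λ A u) =
      Algebra.TensorProduct.lid Λ B (Algebra.TensorProduct.map (AlgHom.id Λ Λ) ι u) := by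
    intro u
    induction u using TensorProduct.induction_on with
    | zero => simp
    | tmul r a => simp
    | add x y hx hy => simp only [map_add, hx, hy]
  intro s t hst
  apply (Algebra.TensorProduct.lid Λ A).injective
  apply hι.inj₁
  rw [h, h, hst]

include hι in
theorem rid_map_injective :
    Function.Injective (Algebra.TensorProduct.map ι (AlgHom.id Λ Λ)) := by
  have h : ∀ u : A ⊗[Λ] Λ, ι (Algebra.TensorProduct.rid Λ Λ A u) =
      Algebra.TensorProduct.rid Λ Λ B (Algebra.TensorProduct.map ι (AlgHom.id Λ Λ) u) := by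
    intro u
    induction u using TensorProduct.induction_on with
    | zero => simp
    | tmul a r => simp
    | add x y hx hy => simp only [map_add, hx, hy]
  intro s t hst
  apply (Algebra.TensorProduct.rid Λ Λ A).injective
  apply hι.inj₁
  rw [h, h, hst]

theorem rTensorSub :
    (Algebra.TensorProduct.map (counitSub ι) (.id Λ A)).comp (comulSub hι) =
      (Algebra.TensorProduct.lid Λ A).symm := by
  apply AlgHom.ext
  intro a
  apply lid_map_injective hι
  have key : (Algebra.TensorProduct.map (AlgHom.id Λ Λ) ι).comp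
      ((Algebra.TensorProduct.map (counitSub ι) (.id Λ A)).comp (comulSub hι)) =
    (Algebra.TensorProduct.map (AlgHom.id Λ Λ) ι).comp
      ((Algebra.TensorProduct.lid Λ A).symm : A →ₐ[Λ] Λ ⊗[Λ] A) := by
    calc (Algebra.TensorProduct.map (AlgHom.id Λ Λ) ι).comp
          ((Algebra.TensorProduct.map (counitSub ι) (.id Λ A)).comp (comulSub hι))
        = (Algebra.TensorProduct.map ((AlgHom.id Λ Λ).comp (counitSub ι))
            (ι.comp (.id Λ A))).comp (comulSub hι) := by
          rw [Algebra.TensorProduct.map_comp]; rfl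
      _ = (Algebra.TensorProduct.map ((Bialgebra.counitAlgHom Λ B).comp ι)
            ((AlgHom.id Λ B).comp ι)).comp (comulSub hι) := rfl
      _ = (Algebra.TensorProduct.map (Bialgebra.counitAlgHom Λ B) (AlgHom.id Λ B)).comp
            ((Algebra.TensorProduct.map ι ι).comp (comulSub hι)) := by
          rw [Algebra.TensorProduct.map_comp]; rfl
      _ = ((Algebra.TensorProduct.map (Bialgebra.counitAlgHom Λ B) (AlgHom.id Λ B)).comp
            (Bialgebra.comulAlgHom Λ B)).comp ι := by
          rw [map_comp_comulSub]; rfl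
      _ = ((Algebra.TensorProduct.lid Λ B).symm : B →ₐ[Λ] Λ ⊗[Λ] B).comp ι := by
          rw [rTensor_counit_algHom]
      _ = _ := (lid_naturality ι).symm
  exact DFunLike.congr_fun key a

theorem lTensorSub :
    (Algebra.TensorProduct.map (.id Λ A) (counitSub ι)).comp (comulSub hι) =
      (Algebra.TensorProduct.rid Λ Λ A).symm := by
  apply AlgHom.ext
  intro a
  apply rid_map_injective hι
  have key : (Algebra.TensorProduct.map ι (AlgHom.id Λ Λ)).comp
      ((Algebra.TensorProduct.map (.id Λ A) (counitSub ι)).comp (comulSub hι)) =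
    (Algebra.TensorProduct.map ι (AlgHom.id Λ Λ)).comp
      ((Algebra.TensorProduct.rid Λ Λ A).symm : A →ₐ[Λ] A ⊗[Λ] Λ) := by
    calc (Algebra.TensorProduct.map ι (AlgHom.id Λ Λ)).comp
          ((Algebra.TensorProduct.map (.id Λ A) (counitSub ι)).comp (comulSub hι))
        = (Algebra.TensorProduct.map (ι.comp (.id Λ A))
            ((AlgHom.id Λ Λ).comp (counitSub ι))).comp (comulSub hι) := by
          rw [Algebra.TensorProduct.map_comp]; rfl
      _ = (Algebra.TensorProduct.map ((AlgHom.id Λ B).comp ι)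
            ((Bialgebra.counitAlgHom Λ B).comp ι)).comp (comulSub hι) := rfl
      _ = (Algebra.TensorProduct.map (AlgHom.id Λ B) (Bialgebra.counitAlgHom Λ B)).comp
            ((Algebra.TensorProduct.map ι ι).comp (comulSub hι)) := by
          rw [Algebra.TensorProduct.map_comp]; rfl
      _ = ((Algebra.TensorProduct.map (AlgHom.id Λ B) (Bialgebra.counitAlgHom Λ B)).comp
            (Bialgebra.comulAlgHom Λ B)).comp ι := by
          rw [map_comp_comulSub]; rfl
      _ = ((Algebra.TensorProduct.rid Λ Λ B).symm : B →ₐ[Λ] B ⊗[Λ] Λ).comp ι := by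
          rw [lTensor_counit_algHom]
      _ = _ := (rid_naturality ι).symm
  exact DFunLike.congr_fun key a

/-- The bialgebra structure of a sub-bialgebra. -/
@[instance_reducible]
noncomputable def bialgebraSub : Bialgebra Λ A :=
  Bialgebra.ofAlgHom (comulSub hι) (counitSub ι) (coassocSub hι) (rTensorSub hι) (lTensorSub hι)

theorem comul_bialgebraSub (a : A) :
    letI := bialgebraSub hι
    Coalgebra.comul (R := Λ) a = comulSub hι a := rfl

theorem counit_bialgebraSub (a : A) :
    letI := bialgebraSub hι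
    Coalgebra.counit (R := Λ) a = Coalgebra.counit (R := Λ) (ι a) := rfl

/-- `ι` as a bialgebra homomorphism. -/
noncomputable def bialgHomSub :
    letI := bialgebraSub hι
    A →ₐc[Λ] B :=
  letI := bialgebraSub hι
  BialgHom.ofAlgHom ι (by ext a; rfl) (by
    ext a
    exact (map_comulSub hι a))

@[simp] theorem bialgHomSub_apply (a : A) :
    letI := bialgebraSub hι
    bialgHomSub hι a = ι a := rfl

theorem isCocommSub [IsCocomm Λ B] :
    letI := bialgebraSub hι
    IsCocomm Λ A := by
  letI := bialgebraSub hι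
  refine ⟨?_⟩
  apply LinearMap.ext
  intro a
  apply hι.inj₂
  have h1 : ∀ t : A ⊗[Λ] A, Algebra.TensorProduct.map ι ι (TensorProduct.comm Λ A A t) =
      TensorProduct.comm Λ B B (Algebra.TensorProduct.map ι ι t) := by
    intro t
    induction t using TensorProduct.induction_on with
    | zero => simp
    | tmul x y => simp
    | add x y hx hy => simp only [map_add, hx, hy]
  rw [LinearMap.comp_apply, LinearEquiv.coe_coe, h1, comul_bialgebraSub, map_comulSub]
  exact comm_comul Λ (ι a)

section OfInjective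

open WithConv LinearMap

variable {A' B' : Type*} [Ring A'] [Ring B'] [Bialgebra Λ A'] [HopfAlgebra Λ B']

/-- Transfer the Hopf algebra axioms along an injective bialgebra homomorphism intertwining a
candidate antipode with the antipode (dual of Mathlib's `HopfAlgebra.ofSurjective`). -/
noncomputable abbrev hopfOfInjective (f : A' →ₐc[Λ] B') (hf : Function.Injective f)
    (SA : A' →ₗ[Λ] A')
    (hS : f.toLinearMap ∘ₗ SA = HopfAlgebra.antipode Λ ∘ₗ f.toLinearMap) : HopfAlgebra Λ A' := by
  refine .ofConvInverse SA (ofConv_injective ?_) (ofConv_injective ?_) <;>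
    rw [← LinearMap.cancel_left (show Function.Injective f.toLinearMap from hf)]
  · calc f.toLinearMap ∘ₗ (toConv SA * toConv .id : WithConv (A' →ₗ[Λ] A')).ofConv
        = (AlgHomClass.toAlgHom f).toLinearMap ∘ₗ
            (toConv SA * toConv .id : WithConv (A' →ₗ[Λ] A')).ofConv := rfl
      _ = (toConv (HopfAlgebra.antipode Λ ∘ₗ f.toLinearMap) * toConv f.toLinearMap).ofConv := by
          rw [algHom_comp_convMul_distrib, ← hS]; rfl
      _ = (toConv (HopfAlgebra.antipode Λ) * toConv .id : WithConv (B' →ₗ[Λ] B')).ofConv ∘ₗ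
            f.toCoalgHom.toLinearMap := by
          rw [convMul_comp_coalgHom_distrib]; rfl
      _ = f.toLinearMap ∘ₗ (1 : WithConv (A' →ₗ[Λ] A')).ofConv := by
          rw [antipode_mul_id]
          ext a
          simp
          exact (AlgHomClass.commutes f _).symm
  · calc f.toLinearMap ∘ₗ (toConv .id * toConv SA : WithConv (A' →ₗ[Λ] A')).ofConv
        = (AlgHomClass.toAlgHom f).toLinearMap ∘ₗ
            (toConv .id * toConv SA : WithConv (A' →ₗ[Λ] A')).ofConv := rfl
      _ = (toConv f.toLinearMap * toConv (HopfAlgebra.antipode Λ ∘ₗ f.toLinearMap)).ofConv := by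
          rw [algHom_comp_convMul_distrib, ← hS]; rfl
      _ = (toConv .id * toConv (HopfAlgebra.antipode Λ) : WithConv (B' →ₗ[Λ] B')).ofConv ∘ₗ
            f.toCoalgHom.toLinearMap := by
          rw [convMul_comp_coalgHom_distrib]; rfl
      _ = f.toLinearMap ∘ₗ (1 : WithConv (A' →ₗ[Λ] A')).ofConv := by
          rw [id_mul_antipode]
          ext a
          simp
          exact (AlgHomClass.commutes f _).symm

end OfInjective

section SubHopfAlgebra

variable {A₀ B₀ : Type*} [CommRing A₀] [Algebra Λ A₀] [CommRing B₀] [HopfAlgebra Λ B₀]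
  {j : A₀ →ₐ[Λ] B₀} (hj : IsSubBialg j)
  (hS : ∀ a, (HopfAlgebra.antipode Λ ∘ₗ j.toLinearMap) a ∈ LinearMap.range j.toLinearMap)

/-- The antipode of a sub-Hopf-algebra. -/
noncomputable def antipodeSub : A₀ →ₗ[Λ] A₀ :=
  (LinearEquiv.ofInjective j.toLinearMap hj.inj₁).symm.toLinearMap ∘ₗ
    ((HopfAlgebra.antipode Λ ∘ₗ j.toLinearMap).codRestrict (LinearMap.range j.toLinearMap) hS)

theorem apply_antipodeSub (a : A₀) :
    j (antipodeSub hj hS a) = HopfAlgebra.antipode Λ (j a) := by
  have h := LinearEquiv.ofInjective_apply (f := j.toLinearMap) (h := hj.inj₁)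
    (antipodeSub hj hS a)
  have h' : j (antipodeSub hj hS a) =
      ((LinearEquiv.ofInjective j.toLinearMap hj.inj₁) (antipodeSub hj hS a) : B₀) := h.symm
  rw [h']
  simp [antipodeSub]

/-- The Hopf algebra structure of a sub-Hopf-algebra. -/
@[instance_reducible]
noncomputable def hopfSub : HopfAlgebra Λ A₀ :=
  letI := bialgebraSub hj
  hopfOfInjective (bialgHomSub hj) hj.inj₁ (antipodeSub hj hS) (by
    ext a
    exact apply_antipodeSub hj hS a)

end SubHopfAlgebra

end Fermat.Agent.TW.Hopf.SubHopf
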