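import Mathlib
import Fermat.Agent.TW.Hopf.PointModel
import Fermat.Agent.TW.Hopf.ClosureSub
import Fermat.Agent.TW.Hopf.SubHopf

/-!
# S56 sprint, block LOC-flat, F0 (Hopf orders): the algebra of invariant functions

`H` a point-separated finite flat cocommutative Hopf algebra over a valuation ring `Λ`, `N` a
Galois-stable subgroup of its (finitely many) `Ω`-points.  The subalgebra `invSubalgebra N` of
functions invariant under translation by `N` is a sub-Hopf-algebra, finite and flat over `Λ`.

Mathlib only.  Branch-only work.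
-/

set_option autoImplicit false
set_option linter.unusedSectionVars false
set_option linter.style.haveILetI false

namespace Fermat.Agent.TW.Hopf.Closure

open WithConv TensorProduct Coalgebra Fermat.Agent.TW.Hopf.Descent

section TensorLemma

variable {Λ : Type*} [CommRing Λ] {M : Type*} [AddCommGroup M] [Module Λ M]

/-- If `M ⧸ C` is flat, a tensor of `M ⊗ M` lying in the images of `C ⊗ M` and of `M ⊗ C` lies in
the image of `C ⊗ C`. -/
theorem mem_range_map_subtype (C : Submodule Λ M) [Module.Flat Λ (M ⧸ C)] (t : M ⊗[Λ] M)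
    (h1 : t ∈ LinearMap.range (LinearMap.rTensor M C.subtype))
    (h2 : t ∈ LinearMap.range (LinearMap.lTensor M C.subtype)) :
    t ∈ LinearMap.range (TensorProduct.map C.subtype C.subtype) := by
  obtain ⟨t', rfl⟩ := h2
  obtain ⟨s, hs⟩ := h1
  have hq : LinearMap.rTensor M C.mkQ (LinearMap.lTensor M C.subtype t') = 0 := by
    rw [← hs, ← LinearMap.rTensor_comp_apply]
    have : C.mkQ ∘ₗ C.subtype = 0 := by
      ext c
      simp
    rw [this, LinearMap.rTensor_zero, LinearMap.zero_apply]
  have hcomm : LinearMap.lTensor (M ⧸ C) C.subtype (LinearMap.rTensor C C.mkQ t') =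
      LinearMap.rTensor M C.mkQ (LinearMap.lTensor M C.subtype t') := by
    rw [← LinearMap.comp_apply, ← LinearMap.comp_apply, LinearMap.lTensor_comp_rTensor,
      LinearMap.rTensor_comp_lTensor]
  have hinj : Function.Injective (LinearMap.lTensor (M ⧸ C) C.subtype) :=
    Module.Flat.lTensor_preserves_injective_linearMap C.subtype (Submodule.injective_subtype C)
  have h0 : LinearMap.rTensor C C.mkQ t' = 0 := by
    apply hinj
    rw [hcomm, hq, map_zero]
  have hex : Function.Exact (LinearMap.rTensor C C.subtype) (LinearMap.rTensor C C.mkQ) :=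
    rTensor_exact C (LinearMap.exact_subtype_mkQ C) (Submodule.mkQ_surjective C)
  obtain ⟨t'', rfl⟩ := (hex t').mp h0
  refine ⟨t'', ?_⟩
  rw [← LinearMap.comp_apply, LinearMap.lTensor_comp_rTensor]

end TensorLemma

section MulPt

variable {Λ : Type*} [CommRing Λ] {Ω : Type*} [Field Ω] [Algebra Λ Ω]
variable {H : Type*} [CommRing H] [HopfAlgebra Λ H]

/-- The product of two points (convolution). -/
noncomputable def mulPt (x y : H →ₐ[Λ] Ω) : H →ₐ[Λ] Ω :=
  (toConv x * toConv y : WithConv (H →ₐ[Λ] Ω)).ofConv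

/-- The unit point. -/
noncomputable def onePt : H →ₐ[Λ] Ω := (1 : WithConv (H →ₐ[Λ] Ω)).ofConv

/-- The inverse of a point. -/
noncomputable def invPt (x : H →ₐ[Λ] Ω) : H →ₐ[Λ] Ω := x.comp (HopfAlgebra.antipodeAlgHom Λ H)

theorem mulPt_apply (x y : H →ₐ[Λ] Ω) (h : H) :
    mulPt x y h = Algebra.TensorProduct.lift x y (fun _ _ => Commute.all _ _) (comul h) :=
  AlgHom.convMul_apply (toConv x) (toConv y) h

theorem toConv_mulPt (x y : H →ₐ[Λ] Ω) :
    (toConv (mulPt x y) : WithConv (H →ₐ[Λ] Ω)) = toConv x * toConv y := rfl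

theorem mulPt_assoc (x y z : H →ₐ[Λ] Ω) : mulPt (mulPt x y) z = mulPt x (mulPt y z) := by
  apply toConv_injective
  rw [toConv_mulPt, toConv_mulPt, toConv_mulPt, toConv_mulPt, mul_assoc]

theorem mulPt_onePt (x : H →ₐ[Λ] Ω) : mulPt x onePt = x := by
  apply toConv_injective
  rw [toConv_mulPt]
  exact mul_one _

theorem onePt_mulPt (x : H →ₐ[Λ] Ω) : mulPt onePt x = x := by
  apply toConv_injective
  rw [toConv_mulPt]
  exact one_mul _

theorem invPt_mulPt (x : H →ₐ[Λ] Ω) : mulPt (invPt x) x = onePt := by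
  apply toConv_injective
  rw [toConv_mulPt]
  exact comp_antipode_mul x

theorem mulPt_comm [IsCocomm Λ H] (x y : H →ₐ[Λ] Ω) : mulPt x y = mulPt y x := by
  apply toConv_injective
  rw [toConv_mulPt, toConv_mulPt, mul_comm]

theorem invPt_mulPt_distrib [IsCocomm Λ H] (x y : H →ₐ[Λ] Ω) :
    invPt (mulPt x y) = mulPt (invPt x) (invPt y) := by
  -- both are inverses of `mulPt x y` in a commutative monoid
  have h1 : mulPt (invPt (mulPt x y)) (mulPt x y) = onePt := invPt_mulPt _
  have h2 : mulPt (mulPt (invPt x) (invPt y)) (mulPt x y) = onePt := by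
    rw [mulPt_assoc, ← mulPt_assoc (invPt y) x y, mulPt_comm (invPt y) x, mulPt_assoc x,
      invPt_mulPt, mulPt_onePt, invPt_mulPt]
  calc invPt (mulPt x y) = mulPt (invPt (mulPt x y)) onePt := (mulPt_onePt _).symm
    _ = mulPt (invPt (mulPt x y)) (mulPt (mulPt x y) (mulPt (invPt x) (invPt y))) := by
        rw [mulPt_comm (mulPt x y), h2]
    _ = mulPt (mulPt (invPt (mulPt x y)) (mulPt x y)) (mulPt (invPt x) (invPt y)) :=
        (mulPt_assoc _ _ _).symm
    _ = mulPt (invPt x) (invPt y) := by rw [h1, onePt_mulPt]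

theorem comp_mulPt (γ : Ω →ₐ[Λ] Ω) (x y : H →ₐ[Λ] Ω) :
    γ.comp (mulPt x y) = mulPt (γ.comp x) (γ.comp y) := by
  have := AlgHom.comp_convMul_distrib γ (toConv x) (toConv y)
  simpa [mulPt] using this

end MulPt

section Invariants

variable {Λ : Type*} [CommRing Λ] {Ω : Type*} [Field Ω] [Algebra Λ Ω]
variable {H : Type*} [CommRing H] [HopfAlgebra Λ H]

/-- `H` is point-separated: a function vanishing at all `Ω`-points is zero. -/
def IsPointSeparated (Λ : Type*) [CommRing Λ] (Ω : Type*) [Field Ω] [Algebra Λ Ω]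
    (H : Type*) [CommRing H] [Algebra Λ H] : Prop :=
  ∀ h : H, (∀ x : H →ₐ[Λ] Ω, x h = 0) → h = 0

/-- The subalgebra of functions invariant under translation by the points of `N`. -/
def invSubalgebra (N : Set (H →ₐ[Λ] Ω)) : Subalgebra Λ H where
  carrier := {h | ∀ x : H →ₐ[Λ] Ω, ∀ y ∈ N, mulPt x y h = x h}
  mul_mem' {a b} ha hb x y hy := by rw [map_mul, map_mul, ha x y hy, hb x y hy]
  add_mem' {a b} ha hb x y hy := by rw [map_add, map_add, ha x y hy, hb x y hy]
  algebraMap_mem' r x y _ := by rw [AlgHom.commutes, AlgHom.commutes]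

theorem mem_invSubalgebra {N : Set (H →ₐ[Λ] Ω)} {h : H} :
    h ∈ invSubalgebra N ↔ ∀ x : H →ₐ[Λ] Ω, ∀ y ∈ N, mulPt x y h = x h := Iff.rfl

/-- The full point model of a point-separated algebra. -/
noncomputable def fullPointModel {G : Type*} (φ : G → Ω →ₐ[Λ] Ω)
    (hsep : IsPointSeparated Λ Ω H) [Finite (H →ₐ[Λ] Ω)] :
    PointModel φ H (H →ₐ[Λ] Ω) where
  ev := AlgHom.pi (fun x : H →ₐ[Λ] Ω => x)
  ev_injective := by
    rw [injective_iff_map_eq_zero]
    intro h hh
    exact hsep h fun x => congrFun hh x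
  act σ x := (φ σ).comp x
  act_surjective σ := by
    apply Finite.surjective_of_injective
    intro x y hxy
    ext h
    exact ((φ σ : Ω →ₐ[Λ] Ω) : Ω →+* Ω).injective (DFunLike.congr_fun hxy h)
  ev_act σ m x := rfl

@[simp] theorem fullPointModel_ev_apply {G : Type*} (φ : G → Ω →ₐ[Λ] Ω)
    (hsep : IsPointSeparated Λ Ω H) [Finite (H →ₐ[Λ] Ω)] (h : H) (x : H →ₐ[Λ] Ω) :
    (fullPointModel φ hsep).ev h x = x h := rfl

end Invariants

section Steps

variable {Λ : Type*} [CommRing Λ] [IsDomain Λ] [ValuationRing Λ]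
variable {Ω : Type*} [Field Ω] [Algebra Λ Ω] [FaithfulSMul Λ Ω]
variable {G : Type*} {φ : G → Ω →ₐ[Λ] Ω}
variable {H : Type*} [CommRing H] [HopfAlgebra Λ H] [Module.Finite Λ H] [Module.Flat Λ H]
  [IsCocomm Λ H] [Finite (H →ₐ[Λ] Ω)]

/-- Step A: the comultiplication of an invariant function lies in `C ⊗ H`. -/
theorem comul_mem_range_rTensor (hfrac : FixedIsFrac (Set.range φ))
    (hsep : IsPointSeparated Λ Ω H) (N : Set (H →ₐ[Λ] Ω)) (m : H) (hm : m ∈ invSubalgebra N) :
    comul (R := Λ) m ∈
      LinearMap.range (LinearMap.rTensor H (Subalgebra.toSubmodule (invSubalgebra N)).subtype) := by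
  classical
  haveI : Module.Free Λ H := Module.free_of_flat_of_isLocalRing
  set β := Module.Free.chooseBasis Λ H with hβ
  obtain ⟨c, hc⟩ := TensorProduct.eq_repr_basis_right β (comul (R := Λ) m)
  have hli := (fullPointModel φ hsep).linearIndependent hfrac β β.linearIndependent
  have hmem : ∀ i, c i ∈ invSubalgebra N := by
    intro i x y hy
    have e1 : ∀ w x' : H →ₐ[Λ] Ω,
        Algebra.TensorProduct.lift w x' (fun _ _ => Commute.all _ _) (comul (R := Λ) m) =
          ∑ j ∈ c.support, w (c j) * x' (β j) := by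
      intro w x'
      rw [← hc, Finsupp.sum, map_sum]
      exact Finset.sum_congr rfl fun j _ => by simp
    have hrel : ∑ j ∈ c.support,
        (mulPt x y (c j) - x (c j)) • (fullPointModel φ hsep).ev (β j) = 0 := by
      funext x'
      simp only [Finset.sum_apply, Pi.smul_apply, smul_eq_mul, fullPointModel_ev_apply,
        Pi.zero_apply]
      have e2 : mulPt (mulPt x y) x' m = mulPt x x' m := by
        rw [mulPt_assoc, mulPt_comm y x', ← mulPt_assoc]
        exact hm (mulPt x x') y hy
      rw [mulPt_apply, mulPt_apply, e1, e1] at e2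
      rw [← sub_eq_zero, ← Finset.sum_sub_distrib] at e2
      rw [← e2]
      exact Finset.sum_congr rfl fun j _ => by ring
    by_cases hi : i ∈ c.support
    · exact sub_eq_zero.mp (linearIndependent_iff'.mp hli c.support _ hrel i hi)
    · rw [Finsupp.notMem_support_iff.mp hi, map_zero, map_zero]
  refine ⟨∑ j ∈ c.support,
    (⟨c j, hmem j⟩ : Subalgebra.toSubmodule (invSubalgebra N)) ⊗ₜ[Λ] β j, ?_⟩
  rw [map_sum, ← hc, Finsupp.sum]
  rfl

/-- Step B: the comultiplication of an invariant function lies in `H ⊗ C`. -/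
theorem comul_mem_range_lTensor (hfrac : FixedIsFrac (Set.range φ))
    (hsep : IsPointSeparated Λ Ω H) (N : Set (H →ₐ[Λ] Ω)) (m : H) (hm : m ∈ invSubalgebra N) :
    comul (R := Λ) m ∈
      LinearMap.range (LinearMap.lTensor H (Subalgebra.toSubmodule (invSubalgebra N)).subtype) := by
  obtain ⟨t, ht⟩ := comul_mem_range_rTensor hfrac hsep N m hm
  refine ⟨TensorProduct.comm Λ _ _ t, ?_⟩
  have h1 : ∀ s : (Subalgebra.toSubmodule (invSubalgebra N)) ⊗[Λ] H,
      LinearMap.lTensor H (Subalgebra.toSubmodule (invSubalgebra N)).subtype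
        (TensorProduct.comm Λ _ _ s) =
      TensorProduct.comm Λ H H
        (LinearMap.rTensor H (Subalgebra.toSubmodule (invSubalgebra N)).subtype s) := by
    intro s
    induction s using TensorProduct.induction_on with
    | zero => simp
    | tmul a b => simp
    | add a b ha hb => simp only [map_add, ha, hb]
  rw [h1, ht, comm_comul]

/-- The invariant subalgebra is saturated, so the quotient module is torsion-free. -/
theorem quotient_invSubalgebra_isTorsionFree (N : Set (H →ₐ[Λ] Ω)) :
    Module.IsTorsionFree Λ (H ⧸ Subalgebra.toSubmodule (invSubalgebra N)) := by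
  refine ⟨fun a ha => ?_⟩
  have ha0 : a ≠ 0 := ha.ne_zero
  intro q₁ q₂ hq
  obtain ⟨h₁, rfl⟩ := Submodule.Quotient.mk_surjective _ q₁
  obtain ⟨h₂, rfl⟩ := Submodule.Quotient.mk_surjective _ q₂
  have h3 : a • (h₁ - h₂) ∈ Subalgebra.toSubmodule (invSubalgebra N) := by
    rw [← Submodule.Quotient.mk_eq_zero, Submodule.Quotient.mk_smul, Submodule.Quotient.mk_sub,
      smul_sub]
    exact sub_eq_zero.mpr hq
  rw [Submodule.Quotient.eq]
  intro x y hy
  have h4 := h3 x y hy
  rw [map_smul, map_smul, Algebra.smul_def, Algebra.smul_def] at h4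
  have ha' : algebraMap Λ Ω a ≠ 0 := fun h0 =>
    ha0 ((map_eq_zero_iff _ (FaithfulSMul.algebraMap_injective Λ Ω)).mp h0)
  exact mul_left_cancel₀ ha' h4

theorem quotient_invSubalgebra_flat (N : Set (H →ₐ[Λ] Ω)) :
    Module.Flat Λ (H ⧸ Subalgebra.toSubmodule (invSubalgebra N)) := by
  haveI := quotient_invSubalgebra_isTorsionFree (Λ := Λ) (H := H) N
  exact flat_of_isTorsionFree _

theorem invSubalgebra_flat (N : Set (H →ₐ[Λ] Ω)) : Module.Flat Λ (invSubalgebra N) := by
  haveI : Module.IsTorsionFree Λ (invSubalgebra N) :=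
    Function.Injective.moduleIsTorsionFree (invSubalgebra N).val Subtype.val_injective
      (fun r m => rfl)
  exact flat_of_isTorsionFree _

/-- The comultiplication of an invariant function lies in `C ⊗ C`. -/
theorem comul_mem_range_map (hfrac : FixedIsFrac (Set.range φ))
    (hsep : IsPointSeparated Λ Ω H) (N : Set (H →ₐ[Λ] Ω)) (m : H) (hm : m ∈ invSubalgebra N) :
    comul (R := Λ) m ∈ LinearMap.range
      (TensorProduct.map (Subalgebra.toSubmodule (invSubalgebra N)).subtype
        (Subalgebra.toSubmodule (invSubalgebra N)).subtype) := by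
  haveI := quotient_invSubalgebra_flat (Λ := Λ) (H := H) N
  exact mem_range_map_subtype _ _ (comul_mem_range_rTensor hfrac hsep N m hm)
    (comul_mem_range_lTensor hfrac hsep N m hm)

/-- The invariant subalgebra is a direct summand, hence finite. -/
theorem invSubalgebra_finite (N : Set (H →ₐ[Λ] Ω)) : Module.Finite Λ (invSubalgebra N) := by
  haveI := quotient_invSubalgebra_isTorsionFree (Λ := Λ) (H := H) N
  haveI : Module.Free Λ (H ⧸ Subalgebra.toSubmodule (invSubalgebra N)) := free_of_isTorsionFree _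
  set C := Subalgebra.toSubmodule (invSubalgebra N) with hC
  obtain ⟨s, hs⟩ := Module.projective_lifting_property C.mkQ LinearMap.id
    (Submodule.mkQ_surjective C)
  -- the retraction `r = id - s ∘ q`
  have hr : ∀ h : H, h - s (C.mkQ h) ∈ C := by
    intro h
    rw [← Submodule.Quotient.mk_eq_zero, Submodule.Quotient.mk_sub]
    have := LinearMap.congr_fun hs (C.mkQ h)
    simp only [LinearMap.comp_apply, LinearMap.id_apply, Submodule.mkQ_apply] at this
    rw [Submodule.mkQ_apply, this, sub_self]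
  let r : H →ₗ[Λ] C := LinearMap.codRestrict C (LinearMap.id - s ∘ₗ C.mkQ) (fun h => hr h)
  have hsurj : Function.Surjective r := by
    intro c
    refine ⟨c.1, Subtype.ext ?_⟩
    show c.1 - s (C.mkQ c.1) = c.1
    rw [Submodule.mkQ_apply, (Submodule.Quotient.mk_eq_zero C).mpr c.2, map_zero, sub_zero]
  exact Module.Finite.of_surjective r hsurj

/-- The invariant subalgebra is a sub-bialgebra. -/
theorem isSubBialg_invSubalgebra (hfrac : FixedIsFrac (Set.range φ))
    (hsep : IsPointSeparated Λ Ω H) (N : Set (H →ₐ[Λ] Ω)) :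
    SubHopf.IsSubBialg (invSubalgebra N).val := by
  haveI := invSubalgebra_flat (Λ := Λ) (H := H) N
  have hinj₂ : Function.Injective (TensorProduct.map (invSubalgebra N).val.toLinearMap
      (invSubalgebra N).val.toLinearMap) :=
    TensorProduct.map_injective_of_flat_flat _ _ Subtype.val_injective Subtype.val_injective
  refine ⟨Subtype.val_injective, hinj₂, ?_, ?_⟩
  · exact TensorProduct.map_injective_of_flat_flat (invSubalgebra N).val.toLinearMap
      (TensorProduct.map (invSubalgebra N).val.toLinearMap (invSubalgebra N).val.toLinearMap)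
      Subtype.val_injective hinj₂
  · intro a
    obtain ⟨t, ht⟩ := comul_mem_range_map hfrac hsep N a.1 a.2
    exact ⟨t, ht⟩

/-- The invariant subalgebra of a subgroup is stable under the antipode. -/
theorem antipode_mem_invSubalgebra (N : Set (H →ₐ[Λ] Ω)) (hN : ∀ y ∈ N, invPt y ∈ N)
    (m : H) (hm : m ∈ invSubalgebra N) : HopfAlgebra.antipode Λ m ∈ invSubalgebra N := by
  intro x y hy
  have h1 : mulPt x y (HopfAlgebra.antipode Λ m) = invPt (mulPt x y) m := rfl
  have h2 : x (HopfAlgebra.antipode Λ m) = invPt x m := rfl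
  rw [h1, h2, invPt_mulPt_distrib]
  exact hm (invPt x) (invPt y) (hN y hy)

end Steps

end Fermat.Agent.TW.Hopf.Closure
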