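import Mathlib
import Fermat.Agent.TW.Hopf.QuotAlg

/-!
# S56 sprint, block LOC-flat, F0 (Hopf orders): the points of the algebra of invariant functions

`H` point-separated finite flat cocommutative Hopf over the valuation ring `Λ`, `N` a Galois-stable
subgroup of the `Ω`-points.  Then

* every `Λ`-algebra homomorphism `invSubalgebra N → Ω` is the restriction of a point of `H`;
* two points of `H` with the same restriction differ by an element of `N`.

Mathlib only.  Branch-only work.
-/

set_option autoImplicit false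
set_option linter.unusedSectionVars false
set_option linter.style.haveILetI false

namespace Fermat.Agent.TW.Hopf.Closure

open WithConv TensorProduct Coalgebra Fermat.Agent.TW.Hopf.Descent

variable {Λ : Type*} [CommRing Λ] {Ω : Type*} [Field Ω] [Algebra Λ Ω]
variable {G : Type*} {φ : G → Ω →ₐ[Λ] Ω}
variable {H : Type*} [CommRing H] [HopfAlgebra Λ H]

/-- `N` is a `φ`-stable subgroup of the group of points. -/
structure IsStableSubgroup (φ : G → Ω →ₐ[Λ] Ω) (N : Set (H →ₐ[Λ] Ω)) : Prop where
  one_mem : onePt ∈ N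
  mul_mem : ∀ y ∈ N, ∀ y' ∈ N, mulPt y y' ∈ N
  inv_mem : ∀ y ∈ N, invPt y ∈ N
  stable : ∀ σ, ∀ y ∈ N, (φ σ).comp y ∈ N

section Trace

variable [IsCocomm Λ H] [Finite (H →ₐ[Λ] Ω)] {N : Set (H →ₐ[Λ] Ω)}

/-- A `Fintype` structure on a set of points (local instance). -/
@[instance_reducible]
noncomputable def fintypePts (N : Set (H →ₐ[Λ] Ω)) : Fintype N := Fintype.ofFinite N

attribute [local instance] fintypePts

/-- Left translation by an element of `N` is a bijection of `N`. -/
theorem translate_bijective (hN : IsStableSubgroup φ N) (y₀ : N) :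
    Function.Bijective (fun y : N => (⟨mulPt y₀.1 y.1, hN.mul_mem _ y₀.2 _ y.2⟩ : N)) := by
  have hinj : Function.Injective (fun y : N => (⟨mulPt y₀.1 y.1, hN.mul_mem _ y₀.2 _ y.2⟩ : N)) := by
    intro y y' h
    have h1 : mulPt y₀.1 y.1 = mulPt y₀.1 y'.1 := congrArg Subtype.val h
    apply Subtype.ext
    calc y.1 = mulPt (mulPt (invPt y₀.1) y₀.1) y.1 := by rw [invPt_mulPt, onePt_mulPt]
      _ = mulPt (invPt y₀.1) (mulPt y₀.1 y.1) := mulPt_assoc _ _ _
      _ = mulPt (invPt y₀.1) (mulPt y₀.1 y'.1) := by rw [h1]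
      _ = mulPt (mulPt (invPt y₀.1) y₀.1) y'.1 := (mulPt_assoc _ _ _).symm
      _ = y'.1 := by rw [invPt_mulPt, onePt_mulPt]
  exact ⟨hinj, Finite.surjective_of_injective hinj⟩

/-- The Galois action is a bijection of `N`. -/
theorem galois_bijective (hN : IsStableSubgroup φ N) (σ : G) :
    Function.Bijective (fun y : N => (⟨(φ σ).comp y.1, hN.stable σ _ y.2⟩ : N)) := by
  have hinj : Function.Injective (fun y : N => (⟨(φ σ).comp y.1, hN.stable σ _ y.2⟩ : N)) := by
    intro y y' h
    have h1 : (φ σ).comp y.1 = (φ σ).comp y'.1 := congrArg Subtype.val h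
    apply Subtype.ext
    ext h
    exact ((φ σ : Ω →ₐ[Λ] Ω) : Ω →+* Ω).injective (DFunLike.congr_fun h1 h)
  exact ⟨hinj, Finite.surjective_of_injective hinj⟩

/-- The trace over `N`: `(tr g) w = ∑_{y ∈ N} g (w y)`. -/
noncomputable def traceN (N : Set (H →ₐ[Λ] Ω)) :
    ((H →ₐ[Λ] Ω) → Ω) →ₗ[Ω] ((H →ₐ[Λ] Ω) → Ω) where
  toFun g := fun w => ∑ y : N, g (mulPt w y.1)
  map_add' g g' := by
    funext w
    simp [Finset.sum_add_distrib]
  map_smul' c g := by
    funext w
    simp [Finset.mul_sum]

theorem traceN_apply (g : (H →ₐ[Λ] Ω) → Ω) (w : H →ₐ[Λ] Ω) :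
    traceN N g w = ∑ y : N, g (mulPt w y.1) := rfl

theorem traceN_invariant (hN : IsStableSubgroup φ N) (g : (H →ₐ[Λ] Ω) → Ω) (w : H →ₐ[Λ] Ω)
    (y₀ : H →ₐ[Λ] Ω) (hy₀ : y₀ ∈ N) : traceN N g (mulPt w y₀) = traceN N g w := by
  rw [traceN_apply, traceN_apply]
  rw [← Function.Bijective.sum_comp (translate_bijective hN ⟨y₀, hy₀⟩)
    (fun y : N => g (mulPt w y.1))]
  exact Finset.sum_congr rfl fun y _ => by rw [mulPt_assoc]

theorem traceN_of_invariant [CharZero Ω] (hN : IsStableSubgroup φ N) (f : (H →ₐ[Λ] Ω) → Ω)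
    (hf : ∀ w, ∀ y ∈ N, f (mulPt w y) = f w) :
    traceN N (((Nat.card N : ℕ) : Ω)⁻¹ • f) = f := by
  funext w
  rw [traceN_apply]
  simp only [Pi.smul_apply, smul_eq_mul]
  rw [Finset.sum_congr rfl fun (y : N) _ => by rw [hf w y.1 y.2]]
  rw [Finset.sum_const, Finset.card_univ, nsmul_eq_mul, ← mul_assoc, Nat.card_eq_fintype_card,
    mul_inv_cancel₀, one_mul]
  have : Nonempty N := ⟨⟨onePt, hN.one_mem⟩⟩
  exact_mod_cast Fintype.card_ne_zero

end Trace

section Main

variable [IsDomain Λ] [ValuationRing Λ] [FaithfulSMul Λ Ω] [CharZero Ω]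
variable [Module.Finite Λ H] [Module.Flat Λ H] [IsCocomm Λ H] [Finite (H →ₐ[Λ] Ω)]
variable {N : Set (H →ₐ[Λ] Ω)}

attribute [local instance] fintypePts

/-- The point model of the invariant subalgebra (on all the points of `H`). -/
noncomputable def invPointModel (φ : G → Ω →ₐ[Λ] Ω) (hsep : IsPointSeparated Λ Ω H)
    (N : Set (H →ₐ[Λ] Ω)) : PointModel φ (invSubalgebra N) (H →ₐ[Λ] Ω) where
  ev := (fullPointModel φ hsep).ev.comp (invSubalgebra N).val
  ev_injective := (fullPointModel φ hsep).ev_injective.comp Subtype.val_injective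
  act := (fullPointModel φ hsep).act
  act_surjective := (fullPointModel φ hsep).act_surjective
  ev_act _ _ _ := rfl

@[simp] theorem invPointModel_ev_apply (hsep : IsPointSeparated Λ Ω H) (c : invSubalgebra N)
    (x : H →ₐ[Λ] Ω) : (invPointModel φ hsep N).ev c x = x c.1 := rfl

/-- **(P1)** every point of the invariant subalgebra is the restriction of a point of `H`. -/
theorem exists_restrict_eq (hfrac : FixedIsFrac (Set.range φ)) (hsep : IsPointSeparated Λ Ω H)
    (z : invSubalgebra N →ₐ[Λ] Ω) : ∃ x : H →ₐ[Λ] Ω, z = x.comp (invSubalgebra N).val := by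
  obtain ⟨x, hx⟩ := (invPointModel φ hsep N).exists_eq_eval hfrac z
  exact ⟨x, AlgHom.ext fun c => hx c⟩

theorem traceN_ev_equivariant (hN : IsStableSubgroup φ N) (hsep : IsPointSeparated Λ Ω H)
    (h : H) (σ : G) (w : H →ₐ[Λ] Ω) :
    traceN N ((fullPointModel φ hsep).ev h) ((fullPointModel φ hsep).act σ w) =
      φ σ (traceN N ((fullPointModel φ hsep).ev h) w) := by
  rw [traceN_apply, traceN_apply, map_sum]
  rw [← Function.Bijective.sum_comp (galois_bijective hN σ)
    (fun y : N => (fullPointModel φ hsep).ev h (mulPt ((fullPointModel φ hsep).act σ w) y.1))]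
  refine Finset.sum_congr rfl fun y _ => ?_
  show mulPt ((φ σ).comp w) ((φ σ).comp y.1) h = φ σ (mulPt w y.1 h)
  rw [← comp_mulPt]
  rfl

/-- **Lemma S.** Every `N`-invariant function on the points is an `Ω`-linear combination of
invariant functions of `H`. -/
theorem mem_span_of_invariant (hfrac : FixedIsFrac (Set.range φ)) (hsep : IsPointSeparated Λ Ω H)
    (hN : IsStableSubgroup φ N) (f : (H →ₐ[Λ] Ω) → Ω)
    (hf : ∀ w, ∀ y ∈ N, f (mulPt w y) = f w) :
    f ∈ Submodule.span Ω (Set.range (invPointModel φ hsep N).ev) := by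
  haveI : Module.Free Λ H := Module.free_of_flat_of_isLocalRing
  have hsepH : ∀ x x' : H →ₐ[Λ] Ω, x ≠ x' → ∃ m, (fullPointModel φ hsep).ev m x ≠
      (fullPointModel φ hsep).ev m x' := by
    intro x x' hxx'
    by_contra hcon
    push Not at hcon
    exact hxx' (AlgHom.ext hcon)
  -- the trace maps the span of `ev H` into the span of `ev C`
  have hmap : Submodule.map (traceN N) (Submodule.span Ω (Set.range (fullPointModel φ hsep).ev)) ≤
      Submodule.span Ω (Set.range (invPointModel φ hsep N).ev) := by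
    rw [Submodule.map_span_le]
    rintro _ ⟨h, rfl⟩
    obtain ⟨b, hb, m, hm⟩ := (fullPointModel φ hsep).exists_smul_eq_of_equivariant hfrac hsepH
      (traceN N ((fullPointModel φ hsep).ev h)) (fun σ w => traceN_ev_equivariant hN hsep h σ w)
    have hmC : m ∈ invSubalgebra N := by
      intro x y hy
      have h1 := congrFun hm (mulPt x y)
      have h2 := congrFun hm x
      simp only [fullPointModel_ev_apply, Pi.smul_apply] at h1 h2
      rw [h1, h2, traceN_invariant hN _ _ _ hy]
    have hb' : algebraMap Λ Ω b ≠ 0 := fun h0 =>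
      hb ((map_eq_zero_iff _ (FaithfulSMul.algebraMap_injective Λ Ω)).mp h0)
    have h3 : traceN N ((fullPointModel φ hsep).ev h) =
        (algebraMap Λ Ω b)⁻¹ • (invPointModel φ hsep N).ev ⟨m, hmC⟩ := by
      have : (invPointModel φ hsep N).ev ⟨m, hmC⟩ = (fullPointModel φ hsep).ev m := rfl
      rw [this, hm, smul_smul, inv_mul_cancel₀ hb', one_smul]
    rw [h3]
    exact Submodule.smul_mem _ _ (Submodule.subset_span (Set.mem_range_self _))
  have h4 : ((Nat.card N : ℕ) : Ω)⁻¹ • f ∈
      Submodule.span Ω (Set.range (fullPointModel φ hsep).ev) := by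
    rw [(fullPointModel φ hsep).span_eq_top hsepH]
    exact Submodule.mem_top
  have h5 := hmap (Submodule.mem_map_of_mem h4)
  rwa [traceN_of_invariant hN f hf] at h5

/-- **(P2)** two points with the same restriction to the invariant subalgebra differ by an
element of `N`. -/
theorem exists_mulPt_eq_of_restrict_eq (hfrac : FixedIsFrac (Set.range φ))
    (hsep : IsPointSeparated Λ Ω H) (hN : IsStableSubgroup φ N) (x x' : H →ₐ[Λ] Ω)
    (hxx' : x.comp (invSubalgebra N).val = x'.comp (invSubalgebra N).val) :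
    ∃ y ∈ N, x' = mulPt x y := by
  classical
  set f : (H →ₐ[Λ] Ω) → Ω := fun w => if ∃ y ∈ N, w = mulPt x y then 1 else 0 with hf
  have hfinv : ∀ w, ∀ y ∈ N, f (mulPt w y) = f w := by
    intro w y hy
    have hiff : (∃ y' ∈ N, mulPt w y = mulPt x y') ↔ (∃ y' ∈ N, w = mulPt x y') := by
      constructor
      · rintro ⟨y', hy', h⟩
        refine ⟨mulPt y' (invPt y), hN.mul_mem _ hy' _ (hN.inv_mem _ hy), ?_⟩
        calc w = mulPt w (mulPt y (invPt y)) := by
              rw [mulPt_comm y, invPt_mulPt, mulPt_onePt]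
          _ = mulPt (mulPt w y) (invPt y) := (mulPt_assoc _ _ _).symm
          _ = mulPt (mulPt x y') (invPt y) := by rw [h]
          _ = mulPt x (mulPt y' (invPt y)) := mulPt_assoc _ _ _
      · rintro ⟨y', hy', h⟩
        refine ⟨mulPt y' y, hN.mul_mem _ hy' _ hy, ?_⟩
        rw [h, mulPt_assoc]
    simp only [hf, hiff]
  have hmem := mem_span_of_invariant hfrac hsep hN f hfinv
  -- functions in the span take the same value at `x` and `x'`
  have hval : ∀ g ∈ Submodule.span Ω (Set.range (invPointModel φ hsep N).ev), g x = g x' := by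
    intro g hg
    induction hg using Submodule.span_induction with
    | mem g hg =>
      obtain ⟨c, rfl⟩ := hg
      exact DFunLike.congr_fun hxx' c
    | zero => rfl
    | add g g' _ _ hg hg' => simp only [Pi.add_apply, hg, hg']
    | smul a g _ hg => simp only [Pi.smul_apply, hg]
  have h1 : f x = 1 := by
    simp only [hf]
    rw [if_pos ⟨onePt, hN.one_mem, (mulPt_onePt x).symm⟩]
  have h2 := hval f hmem
  rw [h1] at h2
  by_contra hcon
  have h3 : f x' = 0 := by
    simp only [hf]
    rw [if_neg hcon]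
  rw [h3] at h2
  exact one_ne_zero h2

end Main

end Fermat.Agent.TW.Hopf.Closure
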