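import Mathlib
import Fermat.Agent.TW.Hopf.QuotPoints

/-!
# S56 sprint, block LOC-flat, F0 (Hopf orders): quotients

Finite flat realizability passes to quotients by Galois-stable subgroups: the Hopf algebra is the
algebra of invariant functions in a point-separated model.

* `IsFlatRealizable.exists_pointSeparated`: every realizable module has a point-separated model;
* `IsFlatRealizable.quotient`: **F0, quotients**.

Mathlib only.  Branch-only work.
-/

set_option autoImplicit false
set_option linter.unusedSectionVars false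
set_option linter.style.haveILetI false

universe u

namespace Fermat.Agent.TW.Hopf.Closure

open WithConv TensorProduct Coalgebra Fermat.Agent.TW.Hopf.Descent

section Sep

variable {Λ : Type*} [CommRing Λ] [IsDomain Λ] [ValuationRing Λ]
variable {Ω : Type*} [Field Ω] [Algebra Λ Ω] [FaithfulSMul Λ Ω] [CharZero Ω]
variable {G : Type*} {φ : G → Ω →ₐ[Λ] Ω} {V : Type*} [AddCommGroup V] {act : G → V → V}

/-- Every finite flat realizable module has a point-separated model. -/
theorem IsFlatRealizable.exists_pointSeparated [Finite V] (hfrac : FixedIsFrac (Set.range φ))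
    (hV : IsFlatRealizable.{u} φ act) :
    ∃ (H : Type u) (_ : CommRing H) (_ : HopfAlgebra Λ H),
      Module.Finite Λ H ∧ Module.Flat Λ H ∧ IsCocomm Λ H ∧ IsPointSeparated Λ Ω H ∧
      ∃ e : WithConv (H →ₐ[Λ] Ω) ≃ V,
        (∀ f g : WithConv (H →ₐ[Λ] Ω), e (f * g) = e f + e g) ∧
        ∀ (σ : G) (f : WithConv (H →ₐ[Λ] Ω)), e (toConv ((φ σ).comp f.ofConv)) = act σ (e f) := by
  classical
  obtain ⟨H, _, _, hfin, hflat, hcc, e, hadd, hact⟩ := hV
  set S : Set (H →ₐ[Λ] Ω) := Set.univ with hSdef
  have he1 : e 1 = 0 := by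
    have := hadd 1 1
    rw [mul_one] at this
    exact left_eq_add.mp this
  have hSfin : S.Finite := by
    haveI : Finite (WithConv (H →ₐ[Λ] Ω)) := Finite.of_equiv V e.symm
    haveI : Finite (H →ₐ[Λ] Ω) :=
      Finite.of_injective (fun x => (toConv x : WithConv (H →ₐ[Λ] Ω))) (fun _ _ h => by
        simpa using h)
    exact Set.toFinite S
  have hSstab : IsStable (Set.range φ) S := fun _ _ _ _ => Set.mem_univ _
  have hSgrp : IsSubgroupOfPoints S :=
    ⟨Set.mem_univ _, fun _ _ _ _ => Set.mem_univ _, fun _ _ => Set.mem_univ _⟩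
  haveI hHI := isHopfIdeal hfrac hSstab hSfin hSgrp
  haveI : IsCocomm Λ (H ⧸ vanishingIdeal S) := isCocomm_quotient _
  set π : H →ₐ[Λ] (H ⧸ vanishingIdeal S) := Ideal.Quotient.mkₐ Λ (vanishingIdeal S) with hπdef
  have hπ : ∀ h, π h = Ideal.Quotient.mk (vanishingIdeal S) h := fun h => rfl
  have hπbi : ((Bialgebra.Quotient.mkBialgHom (vanishingIdeal S) : H →ₐc[Λ] _) : H →ₐ[Λ] _) = π :=
    rfl
  have hsep : IsPointSeparated Λ Ω (H ⧸ vanishingIdeal S) := by
    intro m hm
    obtain ⟨h, rfl⟩ := Ideal.Quotient.mk_surjective m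
    rw [Ideal.Quotient.eq_zero_iff_mem]
    intro x hx
    exact hm (ptQ S ⟨x, hx⟩)
  have he₁inj : ∀ z z' : WithConv ((H ⧸ vanishingIdeal S) →ₐ[Λ] Ω),
      e (toConv (z.ofConv.comp π)) = e (toConv (z'.ofConv.comp π)) → z = z' := by
    intro z z' h1
    have h2 := toConv_injective (e.injective h1)
    apply ofConv_injective
    apply AlgHom.ext
    intro m
    obtain ⟨h, rfl⟩ := Ideal.Quotient.mk_surjective m
    exact DFunLike.congr_fun h2 h
  have he₁surj : ∀ w : V, ∃ z : WithConv ((H ⧸ vanishingIdeal S) →ₐ[Λ] Ω),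
      e (toConv (z.ofConv.comp π)) = w := by
    intro w
    have hx : ofConv (e.symm w) ∈ S := Set.mem_univ _
    refine ⟨toConv (ptQ S ⟨_, hx⟩), ?_⟩
    have : (ptQ S ⟨_, hx⟩).comp π = ofConv (e.symm w) := by
      ext h
      rfl
    rw [ofConv_toConv, this, toConv_ofConv, Equiv.apply_symm_apply]
  have hmul : ∀ z z' : WithConv ((H ⧸ vanishingIdeal S) →ₐ[Λ] Ω),
      e (toConv ((z * z').ofConv.comp π)) =
        e (toConv (z.ofConv.comp π)) + e (toConv (z'.ofConv.comp π)) := by
    intro z z'
    rw [← hπbi, AlgHom.convMul_comp_bialgHom_distrib, toConv_ofConv, hadd]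
  have hgal : ∀ (σ : G) (z : WithConv ((H ⧸ vanishingIdeal S) →ₐ[Λ] Ω)),
      e (toConv ((ofConv (toConv ((φ σ).comp z.ofConv))).comp π)) =
        act σ (e (toConv (z.ofConv.comp π))) := by
    intro σ z
    rw [ofConv_toConv, AlgHom.comp_assoc]
    exact hact σ (toConv (z.ofConv.comp π))
  exact ⟨H ⧸ vanishingIdeal S, inferInstance, inferInstance, inferInstance, inferInstance,
    inferInstance, hsep,
    Equiv.ofBijective (fun z => e (toConv (z.ofConv.comp π)))
      ⟨fun z z' h => he₁inj z z' h, fun w => he₁surj w⟩,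
    fun z z' => hmul z z', fun σ z => hgal σ z⟩

/-- **F0, quotients.** Finite flat realizability passes to quotients by `G`-stable subgroups.
The action on the quotient is any family `actQ` compatible with `act`. -/
theorem IsFlatRealizable.quotient [Finite V] (hfrac : FixedIsFrac (Set.range φ))
    (hV : IsFlatRealizable.{u} φ act) (W : AddSubgroup V) (hW : ∀ σ v, v ∈ W → act σ v ∈ W)
    (actQ : G → V ⧸ W → V ⧸ W)
    (hQ : ∀ σ v, actQ σ (QuotientAddGroup.mk v) = QuotientAddGroup.mk (act σ v)) :
    IsFlatRealizable.{u} φ actQ := by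
  classical
  obtain ⟨H, _, _, hfin, hflat, hcc, hsep, e, hadd, hact⟩ := hV.exists_pointSeparated hfrac
  haveI : Finite (WithConv (H →ₐ[Λ] Ω)) := Finite.of_equiv V e.symm
  haveI : Finite (H →ₐ[Λ] Ω) :=
    Finite.of_injective (fun x => (toConv x : WithConv (H →ₐ[Λ] Ω))) (fun _ _ h => by
      simpa using h)
  have he1 : e 1 = 0 := by
    have := hadd 1 1
    rw [mul_one] at this
    exact left_eq_add.mp this
  have hemul : ∀ x y : H →ₐ[Λ] Ω, e (toConv (mulPt x y)) = e (toConv x) + e (toConv y) := by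
    intro x y
    rw [toConv_mulPt, hadd]
  have heinv : ∀ x : H →ₐ[Λ] Ω, e (toConv (invPt x)) = - e (toConv x) := by
    intro x
    have h1 := hemul (invPt x) x
    rw [invPt_mulPt] at h1
    have h2 : e (toConv (onePt : H →ₐ[Λ] Ω)) = 0 := he1
    rw [h2] at h1
    exact eq_neg_of_add_eq_zero_left h1.symm
  have hegal : ∀ (σ : G) (x : H →ₐ[Λ] Ω), e (toConv ((φ σ).comp x)) = act σ (e (toConv x)) :=
    fun σ x => hact σ (toConv x)
  -- the subgroup of points lying in `W`
  set N : Set (H →ₐ[Λ] Ω) := {x | e (toConv x) ∈ W} with hNdef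
  have hN : IsStableSubgroup φ N :=
    { one_mem := by
        show e (toConv (onePt : H →ₐ[Λ] Ω)) ∈ W
        rw [show e (toConv (onePt : H →ₐ[Λ] Ω)) = 0 from he1]
        exact W.zero_mem
      mul_mem := by
        intro y hy y' hy'
        show e (toConv (mulPt y y')) ∈ W
        rw [hemul]
        exact W.add_mem hy hy'
      inv_mem := by
        intro y hy
        show e (toConv (invPt y)) ∈ W
        rw [heinv]
        exact W.neg_mem hy
      stable := by
        intro σ y hy
        show e (toConv ((φ σ).comp y)) ∈ W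
        rw [hegal]
        exact hW σ _ hy }
  -- the Hopf algebra of invariant functions
  have hC := isSubBialg_invSubalgebra hfrac hsep N
  have hS : ∀ a : invSubalgebra N,
      (HopfAlgebra.antipode Λ ∘ₗ (invSubalgebra N).val.toLinearMap) a ∈
        LinearMap.range (invSubalgebra N).val.toLinearMap := fun a =>
    ⟨⟨_, antipode_mem_invSubalgebra N hN.inv_mem a.1 a.2⟩, rfl⟩
  letI hopfC : HopfAlgebra Λ (invSubalgebra N) := SubHopf.hopfSub hC hS
  haveI : IsCocomm Λ (invSubalgebra N) := SubHopf.isCocommSub hC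
  haveI : Module.Finite Λ (invSubalgebra N) := invSubalgebra_finite N
  haveI : Module.Flat Λ (invSubalgebra N) := invSubalgebra_flat N
  set ι : invSubalgebra N →ₐ[Λ] H := (invSubalgebra N).val with hιdef
  have hιbi : ((SubHopf.bialgHomSub hC : invSubalgebra N →ₐc[Λ] H) : invSubalgebra N →ₐ[Λ] H) = ι :=
    rfl
  -- restriction is multiplicative
  have hresmul : ∀ x x' : H →ₐ[Λ] Ω,
      (toConv ((mulPt x x').comp ι) : WithConv (invSubalgebra N →ₐ[Λ] Ω)) =
        toConv (x.comp ι) * toConv (x'.comp ι) := by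
    intro x x'
    have := AlgHom.convMul_comp_bialgHom_distrib (toConv x) (toConv x') (SubHopf.bialgHomSub hC)
    rw [hιbi] at this
    exact congrArg toConv this
  -- choice of an extension
  have hext : ∀ z : WithConv (invSubalgebra N →ₐ[Λ] Ω), ∃ x : H →ₐ[Λ] Ω, z.ofConv = x.comp ι :=
    fun z => exists_restrict_eq hfrac hsep z.ofConv
  choose ext hextspec using hext
  set f : WithConv (invSubalgebra N →ₐ[Λ] Ω) → V ⧸ W :=
    fun z => QuotientAddGroup.mk (e (toConv (ext z))) with hf
  -- independence of the extension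
  have hK : ∀ (z : WithConv (invSubalgebra N →ₐ[Λ] Ω)) (x : H →ₐ[Λ] Ω), z.ofConv = x.comp ι →
      f z = QuotientAddGroup.mk (e (toConv x)) := by
    intro z x hx
    obtain ⟨y, hy, hxy⟩ := exists_mulPt_eq_of_restrict_eq hfrac hsep hN (ext z) x
      (by rw [← hextspec z, hx])
    simp only [hf]
    rw [hxy, hemul, QuotientAddGroup.mk_add]
    have : (QuotientAddGroup.mk (e (toConv y)) : V ⧸ W) = 0 :=
      (QuotientAddGroup.eq_zero_iff _).mpr hy
    rw [this, add_zero]
  have hinj : Function.Injective f := by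
    intro z z' hzz'
    simp only [hf] at hzz'
    have h1 : e (toConv (ext z)) - e (toConv (ext z')) ∈ W := by
      rw [← QuotientAddGroup.eq_zero_iff, QuotientAddGroup.mk_sub, hzz', sub_self]
    set y := mulPt (ext z) (invPt (ext z')) with hy
    have hyN : y ∈ N := by
      show e (toConv y) ∈ W
      rw [hy, hemul, heinv, ← sub_eq_add_neg]
      exact h1
    have h2 : ext z = mulPt (ext z') y := by
      rw [hy, mulPt_comm (ext z), ← mulPt_assoc, mulPt_comm (ext z'), invPt_mulPt, onePt_mulPt]
    apply ofConv_injective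
    rw [hextspec z, hextspec z']
    apply AlgHom.ext
    intro c
    show ext z c.1 = ext z' c.1
    rw [h2]
    exact c.2 (ext z') y hyN
  have hsurj : Function.Surjective f := by
    intro q
    obtain ⟨v, rfl⟩ := QuotientAddGroup.mk_surjective q
    refine ⟨toConv ((ofConv (e.symm v)).comp ι), ?_⟩
    rw [hK _ (ofConv (e.symm v)) (by rw [ofConv_toConv]), toConv_ofConv, Equiv.apply_symm_apply]
  have hfadd : ∀ z z', f (z * z') = f z + f z' := by
    intro z z'
    have h1 : (z * z').ofConv = (mulPt (ext z) (ext z')).comp ι := by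
      have := hresmul (ext z) (ext z')
      rw [← hextspec z, ← hextspec z', toConv_ofConv, toConv_ofConv] at this
      rw [← this, ofConv_toConv]
    rw [hK _ _ h1, hemul, QuotientAddGroup.mk_add]
  have hfgal : ∀ (σ : G) (z : WithConv (invSubalgebra N →ₐ[Λ] Ω)),
      f (toConv ((φ σ).comp z.ofConv)) = actQ σ (f z) := by
    intro σ z
    have h1 : (toConv ((φ σ).comp z.ofConv) : WithConv (invSubalgebra N →ₐ[Λ] Ω)).ofConv =
        ((φ σ).comp (ext z)).comp ι := by
      rw [ofConv_toConv, hextspec z, AlgHom.comp_assoc]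
    rw [hK _ _ h1, hegal, ← hQ]
  exact isFlatRealizable_of (invSubalgebra N) (Equiv.ofBijective f ⟨hinj, hsurj⟩)
    (fun z z' => hfadd z z') (fun σ z => hfgal σ z)

end Sep

end Fermat.Agent.TW.Hopf.Closure
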