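import Mathlib
import Fermat.Agent.TW.Hopf.ClosureQuot
import Fermat.Agent.TW.Hopf.DecompRing

/-!
# S56 sprint, block LOC-flat: subquotient closure, transport, and corollaries over `decompRing P`

* `IsFlatRealizable.of_addEquiv` : transport along an equivariant additive equivalence;
* `IsFlatRealizable.subquotient` : `W / K` for `G`-stable additive subgroups `K`, `W` of a finite
  `V` (the action on the quotient is a free parameter, as in `IsFlatRealizable.quotient`);
* `finite_level` : `ρ.V ⧸ I • ⊤` is finite when `A ⧸ I` is;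
* `isFlatRealizable_decomp_self` : for a *finite* coefficient ring `A` (e.g. `k[ε]`, `k` finite),
  `ρ.V` itself with the action of `D_P` is `IsFlatRealizable` over `decompRing P`;
* `isFlatRealizable_decomp_subquotient(_level)` : all `D_P`-stable subquotients.
-/

set_option autoImplicit false
set_option linter.unusedSectionVars false
set_option linter.style.haveILetI false

namespace Fermat.Agent.TW.Hopf.Closure

open WithConv Fermat.Agent.TW.Hopf.Descent

universe u

section Generic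

variable {Λ : Type*} [CommRing Λ] [IsDomain Λ] [ValuationRing Λ]
variable {Ω : Type*} [Field Ω] [Algebra Λ Ω] [FaithfulSMul Λ Ω] [CharZero Ω]
variable {G : Type*} {φ : G → Ω →ₐ[Λ] Ω} {V : Type*} [AddCommGroup V] {act : G → V → V}

/-- Transport of `IsFlatRealizable` along an equivariant additive equivalence. -/
theorem IsFlatRealizable.of_addEquiv {V' : Type*} [AddCommGroup V'] {act' : G → V' → V'}
    (hV : IsFlatRealizable.{u} φ act) (f : V ≃+ V') (hf : ∀ σ v, f (act σ v) = act' σ (f v)) :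
    IsFlatRealizable.{u} φ act' := by
  obtain ⟨H, _, _, hfin, hflat, hcc, e, hadd, hact⟩ := hV
  refine ⟨H, _, _, hfin, hflat, hcc, e.trans f.toEquiv, fun x y => ?_, fun σ x => ?_⟩
  · show f (e (x * y)) = f (e x) + f (e y)
    rw [hadd, map_add]
  · show f (e _) = act' σ (f (e x))
    rw [hact, hf]

/-- **Subquotient closure.** -/
theorem IsFlatRealizable.subquotient [Finite V] (hfrac : FixedIsFrac (Set.range φ))
    (hV : IsFlatRealizable.{u} φ act) (W K : AddSubgroup V)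
    (hW : ∀ σ v, v ∈ W → act σ v ∈ W) (hK : ∀ σ v, v ∈ K → act σ v ∈ K)
    (actQ : G → (↥W ⧸ K.addSubgroupOf W) → (↥W ⧸ K.addSubgroupOf W))
    (hQ : ∀ σ (w : W), actQ σ (QuotientAddGroup.mk w) =
      QuotientAddGroup.mk (⟨act σ w.1, hW σ w.1 w.2⟩ : W)) :
    IsFlatRealizable.{u} φ actQ :=
  IsFlatRealizable.quotient hfrac (hV.addSubgroup hfrac W hW) (K.addSubgroupOf W)
    (fun σ w hw => hK σ w.1 hw) actQ hQ

end Generic

end Fermat.Agent.TW.Hopf.Closure

namespace Fermat.Agent.TW.Hopf.DecompRing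

open WithConv Fermat.Agent.TW.Hopf.Closure Fermat.Agent.TW.Hopf.Descent

local notation "Qb" => AlgebraicClosure ℚ
local notation "GQ" => (AlgebraicClosure ℚ ≃ₐ[ℚ] AlgebraicClosure ℚ)

variable {A : Type} [CommRing A] [IsLocalRing A]

theorem finite_level (ρ : GaloisRepAdic A) (I : Ideal A) (hI : Finite (A ⧸ I)) :
    Finite (ρ.V ⧸ (I • (⊤ : Submodule A ρ.V))) := by
  haveI : Module.Finite (A ⧸ I) (ρ.V ⧸ (I • (⊤ : Submodule A ρ.V))) :=
    Module.Finite.of_restrictScalars_finite A (A ⧸ I) _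
  exact Module.finite_of_finite (A ⧸ I)

theorem finite_V [Finite A] (ρ : GaloisRepAdic A) : Finite ρ.V := Module.finite_of_finite A

variable (P : ValuationSubring Qb) {p : ℕ}

/-- For a finite coefficient ring, `ρ.V` itself (level `I = ⊥`) with the action of `D_P`. -/
theorem isFlatRealizable_decomp_self [Finite A] (hp : p.Prime) (hP : P.LiesOverPrime p)
    (ρ : GaloisRepAdic A) (hρ : ρ.IsFlatAt p) :
    IsFlatRealizable.{0} (decompOp P)
      (fun (σ : P.decompositionSubgroup ℚ) (v : ρ.V) => ρ.ρ (σ : GQ) v) := by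
  have h0 : (⊥ : Ideal A) • (⊤ : Submodule A ρ.V) = ⊥ := Submodule.bot_smul _
  have hfin : Finite (A ⧸ (⊥ : Ideal A)) :=
    Finite.of_surjective (Ideal.Quotient.mk (⊥ : Ideal A)) Ideal.Quotient.mk_surjective
  have hlev := isFlatRealizable_decomp_of_isFlatAt P hp hP ρ hρ ⊥ hfin
  refine hlev.of_addEquiv (Submodule.quotEquivOfEqBot _ h0).toAddEquiv (fun σ v => ?_)
  obtain ⟨v, rfl⟩ := Submodule.Quotient.mk_surjective _ v
  show (Submodule.quotEquivOfEqBot _ h0) (ρ.levelAction ⊥ (σ : GQ) (Submodule.Quotient.mk v)) =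
    ρ.ρ (σ : GQ) ((Submodule.quotEquivOfEqBot _ h0) (Submodule.Quotient.mk v))
  rw [Submodule.quotEquivOfEqBot_apply_mk]
  exact Submodule.quotEquivOfEqBot_apply_mk _ h0 _

/-- All `D_P`-stable subquotients of `ρ.V ⧸ I • ⊤`. -/
theorem isFlatRealizable_decomp_subquotient_level (hp : p.Prime) (hP : P.LiesOverPrime p)
    (ρ : GaloisRepAdic A) (hρ : ρ.IsFlatAt p) (I : Ideal A) (hI : Finite (A ⧸ I))
    (W K : AddSubgroup (ρ.V ⧸ (I • (⊤ : Submodule A ρ.V))))
    (hW : ∀ σ ∈ P.decompositionSubgroup ℚ, ∀ v ∈ W, ρ.levelAction I σ v ∈ W)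
    (hK : ∀ σ ∈ P.decompositionSubgroup ℚ, ∀ v ∈ K, ρ.levelAction I σ v ∈ K)
    (actQ : P.decompositionSubgroup ℚ → (↥W ⧸ K.addSubgroupOf W) → (↥W ⧸ K.addSubgroupOf W))
    (hQ : ∀ (σ : P.decompositionSubgroup ℚ) (w : W), actQ σ (QuotientAddGroup.mk w) =
      QuotientAddGroup.mk (⟨ρ.levelAction I (σ : GQ) w.1, hW σ.1 σ.2 w.1 w.2⟩ : W)) :
    IsFlatRealizable.{0} (decompOp P) actQ := by
  haveI := finite_level ρ I hI
  exact (isFlatRealizable_decomp_of_isFlatAt P hp hP ρ hρ I hI).subquotient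
    (fixedIsFrac_decompOp P) W K (fun σ v hv => hW σ.1 σ.2 v hv) (fun σ v hv => hK σ.1 σ.2 v hv)
    actQ hQ

/-- All `D_P`-stable subquotients of `ρ.V`, for a finite coefficient ring. -/
theorem isFlatRealizable_decomp_subquotient [Finite A] (hp : p.Prime) (hP : P.LiesOverPrime p)
    (ρ : GaloisRepAdic A) (hρ : ρ.IsFlatAt p) (W K : AddSubgroup ρ.V)
    (hW : ∀ σ ∈ P.decompositionSubgroup ℚ, ∀ v ∈ W, ρ.ρ σ v ∈ W)
    (hK : ∀ σ ∈ P.decompositionSubgroup ℚ, ∀ v ∈ K, ρ.ρ σ v ∈ K)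
    (actQ : P.decompositionSubgroup ℚ → (↥W ⧸ K.addSubgroupOf W) → (↥W ⧸ K.addSubgroupOf W))
    (hQ : ∀ (σ : P.decompositionSubgroup ℚ) (w : W), actQ σ (QuotientAddGroup.mk w) =
      QuotientAddGroup.mk (⟨ρ.ρ (σ : GQ) w.1, hW σ.1 σ.2 w.1 w.2⟩ : W)) :
    IsFlatRealizable.{0} (decompOp P) actQ := by
  haveI := finite_V ρ
  exact (isFlatRealizable_decomp_self P hp hP ρ hρ).subquotient
    (fixedIsFrac_decompOp P) W K (fun σ v hv => hW σ.1 σ.2 v hv) (fun σ v hv => hK σ.1 σ.2 v hv)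
    actQ hQ

end Fermat.Agent.TW.Hopf.DecompRing
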