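import Mathlib

/-!
# Ordinary lines from rigidity: linear algebra (S56 sprint, LOC-flat ORD case, helper5)

`A` a local ring with `𝔪 ^ 2 = 0` (e.g. `k[ε]`), `V` free of rank `2`, `G` a group acting
`A`-linearly (`r`), `I` a normal subgroup ("inertia").  Under the abstract rigidity hypotheses
* `hrig` : for stable `K ≤ W`, an element of `W` which lies in `K + Σ_{g ∈ I} (g - 1) W` and is
  fixed by `I` modulo `K`, lies in `K`  (flat: connected ∩ unramified = 0 on the subquotient `W/K`);
* `hchi` : a character of `G` on a subquotient `W/K` which is nontrivial on `I` is cyclotomic on `I`;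
* `hdet` : the determinant is cyclotomic on `I`;
a `G`-stable `A`-submodule strictly between `𝔪 V` and `V` (a stable line of the residual
representation) yields a `G`-stable free rank-one direct summand `L` with `I` acting trivially on
`V / L` (`exists_line`): the body of the Prelude's `IsOrdinaryAt`.

`L = 𝔪 E + Σ_{g ∈ I} (g - 1) E`, `E` the "good" middle submodule.  No dimension counts: only adapted
bases.  Mathlib only.
-/

set_option autoImplicit false
set_option linter.unusedSectionVars false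

namespace Fermat.Agent.TW.Hopf.OrdLin

open IsLocalRing Module

section Coord

variable {A : Type*} [CommRing A] [IsLocalRing A]
variable {V : Type*} [AddCommGroup V] [Module A V]

/-- `v ∈ 𝔪 V` iff all coordinates are in `𝔪`. -/
theorem mem_mV_iff (b : Basis (Fin 2) A V) (v : V) :
    v ∈ maximalIdeal A • (⊤ : Submodule A V) ↔ ∀ i, b.repr v i ∈ maximalIdeal A := by
  constructor
  · intro hv i
    refine Submodule.smul_induction_on hv ?_ ?_
    · intro m hm w _
      rw [map_smul, Finsupp.smul_apply, smul_eq_mul]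
      exact Ideal.mul_mem_right _ _ hm
    · intro x y hx hy
      rw [map_add, Finsupp.add_apply]
      exact Ideal.add_mem _ hx hy
  · intro h
    rw [← b.sum_repr v]
    exact Submodule.sum_mem _ fun i _ => Submodule.smul_mem_smul (h i) Submodule.mem_top

theorem repr_fin_two (b : Basis (Fin 2) A V) (v : V) :
    v = b.repr v 0 • b 0 + b.repr v 1 • b 1 := by
  conv_lhs => rw [← b.sum_repr v]
  rw [Fin.sum_univ_two]

theorem repr_combo (b : Basis (Fin 2) A V) (s t : A) :
    b.repr (s • b 0 + t • b 1) 0 = s ∧ b.repr (s • b 0 + t • b 1) 1 = t := by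
  simp

/-- an element outside `𝔪 V` is the first vector of a basis. -/
theorem exists_basis_of_notMem (b₀ : Basis (Fin 2) A V) {ℓ : V}
    (hℓ : ℓ ∉ maximalIdeal A • (⊤ : Submodule A V)) : ∃ b : Basis (Fin 2) A V, b 0 = ℓ := by
  classical
  have h1 : ∃ i, b₀.repr ℓ i ∉ maximalIdeal A := by
    by_contra h
    push Not at h
    exact hℓ ((mem_mV_iff b₀ ℓ).mpr h)
  obtain ⟨i, hi⟩ := h1
  rw [notMem_maximalIdeal] at hi
  -- the other basis vector
  obtain ⟨j, hj⟩ : ∃ j : Fin 2, j ≠ i := by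
    fin_cases i
    · exact ⟨1, by decide⟩
    · exact ⟨0, by decide⟩
  set f : V →ₗ[A] V := b₀.constr A ![ℓ, b₀ j] with hf
  have hf0 : f (b₀ 0) = ℓ := by rw [hf, Basis.constr_basis]; rfl
  have hf1 : f (b₀ 1) = b₀ j := by rw [hf, Basis.constr_basis]; rfl
  have hdet : IsUnit (LinearMap.toMatrix b₀ b₀ f).det := by
    rw [Matrix.det_fin_two]
    simp only [LinearMap.toMatrix_apply, hf0, hf1, Basis.repr_self]
    fin_cases i
    · have hj1 : j = 1 := by
        fin_cases j
        · exact absurd rfl hj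
        · rfl
      subst hj1
      simpa [Finsupp.single_apply] using hi
    · have hj0 : j = 0 := by
        fin_cases j
        · rfl
        · exact absurd rfl hj
      subst hj0
      simpa [Finsupp.single_apply] using hi
  refine ⟨b₀.map (LinearEquiv.ofIsUnitDet hdet), ?_⟩
  rw [Basis.map_apply, LinearEquiv.ofIsUnitDet_apply, hf0]

/-- a submodule `𝔪 V ≤ E ≠ ⊤` containing the first basis vector is cut out by the second
coordinate. -/
theorem mem_iff_repr (b : Basis (Fin 2) A V) {E : Submodule A V}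
    (hE1 : maximalIdeal A • (⊤ : Submodule A V) ≤ E) (hE2 : E ≠ ⊤) (hb : b 0 ∈ E) (v : V) :
    v ∈ E ↔ b.repr v 1 ∈ maximalIdeal A := by
  constructor
  · intro hv
    by_contra ht
    rw [notMem_maximalIdeal] at ht
    apply hE2
    have h1 : b 1 ∈ E := by
      have h2 : b.repr v 1 • b 1 = v - b.repr v 0 • b 0 := by
        have := repr_fin_two b v
        rw [eq_sub_iff_add_eq, add_comm]
        exact this.symm
      have h3 : b.repr v 1 • b 1 ∈ E := by
        rw [h2]
        exact E.sub_mem hv (E.smul_mem _ hb)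
      have h4 := E.smul_mem (↑ht.unit⁻¹ : A) h3
      rwa [smul_smul, IsUnit.val_inv_mul, one_smul] at h4
    rw [eq_top_iff, ← b.span_eq, Submodule.span_le]
    rintro x ⟨i, rfl⟩
    fin_cases i
    · exact hb
    · exact h1
  · intro ht
    rw [repr_fin_two b v]
    exact E.add_mem (E.smul_mem _ hb) (hE1 (Submodule.smul_mem_smul ht Submodule.mem_top))

end Coord

/-! ### Group actions -/

section Action

variable {A : Type*} [CommRing A] [IsLocalRing A]
variable {V : Type*} [AddCommGroup V] [Module A V]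
variable {G : Type*} [Group G] (r : G →* Module.End A V) (I : Subgroup G)

/-- `W` is stable under `G`. -/
def Stable (W : Submodule A V) : Prop := ∀ g : G, ∀ v ∈ W, r g v ∈ W

/-- `I` acts trivially on `W / K`. -/
def TrivOn (K W : Submodule A V) : Prop := ∀ g ∈ I, ∀ w ∈ W, r g w - w ∈ K

/-- `Σ_{g ∈ I} (g - 1) W`. -/
def J (W : Submodule A V) : Submodule A V :=
  Submodule.span A {x | ∃ g ∈ I, ∃ w ∈ W, x = r g w - w}

variable {r I}

theorem stable_top : Stable r (⊤ : Submodule A V) := fun _ _ _ => Submodule.mem_top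

theorem stable_mV : Stable r (maximalIdeal A • (⊤ : Submodule A V)) := by
  intro g v hv
  refine Submodule.smul_induction_on hv ?_ ?_
  · intro m hm w _
    rw [map_smul]
    exact Submodule.smul_mem_smul hm Submodule.mem_top
  · intro x y hx hy
    rw [map_add]
    exact Submodule.add_mem _ hx hy

theorem Stable.smul {W : Submodule A V} (hW : Stable r W) : Stable r (maximalIdeal A • W) := by
  intro g v hv
  refine Submodule.smul_induction_on hv ?_ ?_
  · intro m hm w hw
    rw [map_smul]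
    exact Submodule.smul_mem_smul hm (hW g w hw)
  · intro x y hx hy
    rw [map_add]
    exact Submodule.add_mem _ hx hy

theorem Stable.sup {W₁ W₂ : Submodule A V} (h₁ : Stable r W₁) (h₂ : Stable r W₂) :
    Stable r (W₁ ⊔ W₂) := by
  intro g v hv
  obtain ⟨a, ha, b, hb, rfl⟩ := Submodule.mem_sup.mp hv
  rw [map_add]
  exact Submodule.add_mem_sup (h₁ g a ha) (h₂ g b hb)

theorem trivOn_J (W : Submodule A V) : TrivOn r I (J r I W) W :=
  fun g hg w hw => Submodule.subset_span ⟨g, hg, w, hw, rfl⟩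

theorem J_le {W : Submodule A V} (hW : Stable r W) : J r I W ≤ W := by
  rw [J, Submodule.span_le]
  rintro x ⟨g, -, w, hw, rfl⟩
  exact W.sub_mem (hW g w hw) hw

theorem J_mono {W₁ W₂ : Submodule A V} (h : W₁ ≤ W₂) : J r I W₁ ≤ J r I W₂ := by
  apply Submodule.span_mono
  rintro x ⟨g, hg, w, hw, rfl⟩
  exact ⟨g, hg, w, h hw, rfl⟩

theorem Stable.J (hI : ∀ g : G, ∀ h ∈ I, g * h * g⁻¹ ∈ I) {W : Submodule A V} (hW : Stable r W) :
    Stable r (J r I W) := by
  intro g v hv
  induction hv using Submodule.span_induction with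
  | mem x hx =>
    obtain ⟨h, hh, w, hw, rfl⟩ := hx
    refine Submodule.subset_span ⟨g * h * g⁻¹, hI g h hh, r g w, hW g w hw, ?_⟩
    rw [map_sub]
    congr 1
    rw [← Module.End.mul_apply, ← map_mul, ← Module.End.mul_apply, ← map_mul]
    congr 2
    group
  | zero => rw [map_zero]; exact Submodule.zero_mem _
  | add x y _ _ hx hy => rw [map_add]; exact Submodule.add_mem _ hx hy
  | smul a x _ hx => rw [map_smul]; exact Submodule.smul_mem _ _ hx

theorem repr_act (b : Basis (Fin 2) A V) (f : Module.End A V) (v : V) (i : Fin 2) :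
    b.repr (f v) i = b.repr v 0 * b.repr (f (b 0)) i + b.repr v 1 * b.repr (f (b 1)) i := by
  conv_lhs => rw [repr_fin_two b v]
  rw [map_add, map_smul, map_smul, map_add, map_smul, map_smul, Finsupp.add_apply,
    Finsupp.smul_apply, Finsupp.smul_apply, smul_eq_mul, smul_eq_mul]

/-- the two characters of a stable "line" `𝔪 V ≤ E ≠ ⊤` in an adapted basis. -/
theorem chars_of_adapted (b : Basis (Fin 2) A V) {E : Submodule A V} (hE : Stable r E)
    (hE1 : maximalIdeal A • (⊤ : Submodule A V) ≤ E) (hE2 : E ≠ ⊤) (hb : b 0 ∈ E) (g : G) :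
    (∀ e ∈ E, r g e - b.repr (r g (b 0)) 0 • e ∈ maximalIdeal A • (⊤ : Submodule A V)) ∧
    (∀ v : V, r g v - b.repr (r g (b 1)) 1 • v ∈ E) ∧
    LinearMap.det (r g) - b.repr (r g (b 0)) 0 * b.repr (r g (b 1)) 1 ∈ maximalIdeal A := by
  classical
  set α := b.repr (r g (b 0)) 0 with hα
  set β := b.repr (r g (b 0)) 1 with hβ
  set γ := b.repr (r g (b 1)) 0 with hγ
  set δ := b.repr (r g (b 1)) 1 with hδ
  have hβm : β ∈ maximalIdeal A := (mem_iff_repr b hE1 hE2 hb _).mp (hE g _ hb)
  refine ⟨fun e he => ?_, fun v => ?_, ?_⟩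
  · have ht : b.repr e 1 ∈ maximalIdeal A := (mem_iff_repr b hE1 hE2 hb e).mp he
    rw [mem_mV_iff b]
    intro i
    rw [map_sub, map_smul, Finsupp.sub_apply, Finsupp.smul_apply, smul_eq_mul, repr_act b (r g) e i]
    fin_cases i
    · show b.repr e 0 * α + b.repr e 1 * γ - α * b.repr e 0 ∈ maximalIdeal A
      have : b.repr e 0 * α + b.repr e 1 * γ - α * b.repr e 0 = b.repr e 1 * γ := by ring
      rw [this]
      exact Ideal.mul_mem_right _ _ ht
    · show b.repr e 0 * β + b.repr e 1 * δ - α * b.repr e 1 ∈ maximalIdeal A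
      have : b.repr e 0 * β + b.repr e 1 * δ - α * b.repr e 1
          = b.repr e 0 * β + b.repr e 1 * (δ - α) := by ring
      rw [this]
      exact Ideal.add_mem _ (Ideal.mul_mem_left _ _ hβm) (Ideal.mul_mem_right _ _ ht)
  · rw [mem_iff_repr b hE1 hE2 hb, map_sub, map_smul, Finsupp.sub_apply, Finsupp.smul_apply,
      smul_eq_mul, repr_act b (r g) v 1]
    show b.repr v 0 * β + b.repr v 1 * δ - δ * b.repr v 1 ∈ maximalIdeal A
    have : b.repr v 0 * β + b.repr v 1 * δ - δ * b.repr v 1 = b.repr v 0 * β := by ring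
    rw [this]
    exact Ideal.mul_mem_left _ _ hβm
  · rw [← LinearMap.det_toMatrix b (r g), Matrix.det_fin_two]
    simp only [LinearMap.toMatrix_apply]
    show α * δ - γ * β - α * δ ∈ maximalIdeal A
    have : α * δ - γ * β - α * δ = -(γ * β) := by ring
    rw [this]
    exact Ideal.neg_mem_iff _ |>.mpr (Ideal.mul_mem_left _ _ hβm)

end Action

/-! ### The ordinary line -/

section Main

variable {A : Type*} [CommRing A] [IsLocalRing A]
variable {V : Type*} [AddCommGroup V] [Module A V]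
variable {G : Type*} [Group G] {r : G →* Module.End A V} {I : Subgroup G}

/-- a unit multiple lies in a submodule iff the vector does. -/
theorem mem_of_unit_smul_mem {W : Submodule A V} {u : A} (hu : IsUnit u) {w : V}
    (h : u • w ∈ W) : w ∈ W := by
  have := W.smul_mem (↑hu.unit⁻¹ : A) h
  rwa [smul_smul, IsUnit.val_inv_mul, one_smul] at this

theorem det_isUnit (g : G) : IsUnit (LinearMap.det (r g)) := by
  have h : LinearMap.det (r g) * LinearMap.det (r g⁻¹) = 1 := by
    rw [← map_mul, ← map_mul, mul_inv_cancel, map_one, map_one]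
  exact IsUnit.of_mul_eq_one _ h

variable (hm2 : ∀ x ∈ maximalIdeal A, ∀ y ∈ maximalIdeal A, x * y = 0)
  (hI : ∀ g : G, ∀ h ∈ I, g * h * g⁻¹ ∈ I)
  (cyc : G → ℕ → Prop)
  (hcyc_ne : ∃ g ∈ I, ∃ a, cyc g a ∧ ((a : A) - 1) ∉ maximalIdeal A)
  (hdet : ∀ g ∈ I, ∀ a, cyc g a → LinearMap.det (r g) = (a : A))
  (hrig : ∀ K W : Submodule A V, Stable r K → Stable r W → K ≤ W → ∀ y ∈ W, y ∈ K ⊔ J r I W →
    (∀ g ∈ I, r g y - y ∈ K) → y ∈ K)
  (b₀ : Basis (Fin 2) A V)

include hm2 hI hcyc_ne hdet hrig b₀ in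
/-- **Part 3**: from a good middle submodule `E` (`I` trivial on `V / E`) to the ordinary line. -/
theorem exists_line_of_good {E : Submodule A V} (hE : Stable r E)
    (h1 : maximalIdeal A • (⊤ : Submodule A V) < E) (h2 : E < ⊤) (hT : TrivOn r I E ⊤) :
    ∃ L : Submodule A V, (∃ b : Basis (Fin 2) A V, L = A ∙ b 0) ∧ Stable r L ∧
      TrivOn r I L ⊤ := by
  classical
  set mV : Submodule A V := maximalIdeal A • (⊤ : Submodule A V) with hmV
  -- an adapted basis for `E`
  obtain ⟨e₁, he₁E, he₁⟩ : ∃ e ∈ E, e ∉ mV := by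
    by_contra h
    push Not at h
    exact h1.not_ge h
  obtain ⟨b₁, hb₁⟩ := exists_basis_of_notMem b₀ he₁
  have hb₁E : b₁ 0 ∈ E := hb₁ ▸ he₁E
  obtain ⟨w₀, hw₀⟩ : ∃ w : V, w ∉ E := by
    by_contra h
    push Not at h
    exact h2.ne (eq_top_iff.mpr fun v _ => h v)
  obtain ⟨τ, hτ, a, hτa, ha1⟩ := hcyc_ne
  obtain ⟨hc1, hc2, hc3⟩ := chars_of_adapted b₁ hE h1.le h2.ne hb₁E τ
  set y₁ := b₁.repr (r τ (b₁ 0)) 0 with hy₁
  set y₂ := b₁.repr (r τ (b₁ 1)) 1 with hy₂
  -- `y₂ ≡ 1`
  have hy₂1 : y₂ - 1 ∈ maximalIdeal A := by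
    by_contra hu
    rw [notMem_maximalIdeal] at hu
    apply hw₀
    apply mem_of_unit_smul_mem hu
    have h3 : (y₂ - 1) • w₀ = (r τ w₀ - w₀) - (r τ w₀ - y₂ • w₀) := by
      rw [sub_smul, one_smul]; abel
    rw [h3]
    exact E.sub_mem (hT τ hτ w₀ Submodule.mem_top) (hc2 w₀)
  -- `y₁ - 1` is a unit
  have hy₁u : IsUnit (y₁ - 1) := by
    rw [← notMem_maximalIdeal]
    intro hy
    apply ha1
    have h3 : (a : A) - 1 = (LinearMap.det (r τ) - y₁ * y₂) + y₁ * (y₂ - 1) + (y₁ - 1) := by
      rw [hdet τ hτ a hτa]; ring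
    rw [h3]
    exact Ideal.add_mem _ (Ideal.add_mem _ hc3 (Ideal.mul_mem_left _ _ hy₂1)) hy
  set mE : Submodule A V := maximalIdeal A • E with hmE
  set L : Submodule A V := mE ⊔ J r I E with hL
  have hmE_stable : Stable r mE := hE.smul
  have hJE_stable : Stable r (J r I E) := hE.J hI
  have hL_stable : Stable r L := hmE_stable.sup hJE_stable
  have hmE_le : mE ≤ E := Submodule.smul_le.mpr fun m _ e he => E.smul_mem m he
  have hL_le : L ≤ E := sup_le hmE_le (J_le hE)
  -- `I` is trivial on `𝔪 V / 𝔪 E`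
  have htriv : ∀ g ∈ I, ∀ u ∈ mV, r g u - u ∈ mE := by
    intro g hg u hu
    refine Submodule.smul_induction_on hu ?_ ?_
    · intro m hm v _
      rw [map_smul, ← smul_sub]
      exact Submodule.smul_mem_smul hm (hT g hg v Submodule.mem_top)
    · intro x y hx hy
      rw [map_add, add_sub_add_comm]
      exact Submodule.add_mem _ hx hy
  -- (ii): `L ∩ 𝔪 V ≤ 𝔪 E`
  have hLm : L ⊓ mV ≤ mE := by
    rintro y ⟨hyL, hym⟩
    exact hrig mE E hmE_stable hE hmE_le y (hL_le hyL) hyL (fun g hg => htriv g hg y hym)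
  -- (iii): `I` is trivial on `V / L`
  have hLT : TrivOn r I L ⊤ := by
    intro g hg v _
    have hyE : r g v - v ∈ E := hT g hg v Submodule.mem_top
    refine hrig L ⊤ hL_stable stable_top le_top _ Submodule.mem_top ?_ ?_
    · exact Submodule.mem_sup_right (trivOn_J ⊤ g hg v Submodule.mem_top)
    · intro h hh
      exact Submodule.mem_sup_right (trivOn_J E h hh _ hyE)
  -- `E ≤ L + 𝔪 V`
  have hEL : E ≤ L ⊔ mV := by
    intro e he
    apply mem_of_unit_smul_mem hy₁u
    have h3 : (y₁ - 1) • e = (r τ e - e) - (r τ e - y₁ • e) := by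
      rw [sub_smul, one_smul]; abel
    rw [h3]
    exact Submodule.sub_mem _
      (Submodule.mem_sup_left (Submodule.mem_sup_right (trivOn_J E τ hτ e he)))
      (Submodule.mem_sup_right (hc1 e he))
  obtain ⟨ℓ, hℓL, hℓ⟩ : ∃ ℓ ∈ L, ℓ ∉ mV := by
    by_contra h
    push Not at h
    have : E ≤ mV := hEL.trans (sup_le h le_rfl)
    exact h1.not_ge this
  obtain ⟨b, hb⟩ := exists_basis_of_notMem b₀ hℓ
  have hbE : b 0 ∈ E := hb ▸ hL_le hℓL
  have hbL : b 0 ∈ L := hb ▸ hℓL
  refine ⟨L, ⟨b, ?_⟩, hL_stable, hLT⟩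
  -- `𝔪 E ≤ A ℓ`
  have hmEl : mE ≤ A ∙ b 0 := by
    rw [hmE, Submodule.smul_le]
    intro m hm e he
    have ht : b.repr e 1 ∈ maximalIdeal A := (mem_iff_repr b h1.le h2.ne hbE e).mp he
    rw [repr_fin_two b e, smul_add, smul_smul, smul_smul, hm2 m hm _ ht, zero_smul, add_zero]
    exact Submodule.smul_mem _ _ (Submodule.mem_span_singleton_self _)
  apply le_antisymm
  · intro y hy
    have ht : b.repr y 1 ∈ maximalIdeal A := (mem_iff_repr b h1.le h2.ne hbE y).mp (hL_le hy)
    have h3 : b.repr y 1 • b 1 ∈ L ⊓ mV := by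
      refine ⟨?_, Submodule.smul_mem_smul ht Submodule.mem_top⟩
      have h4 : b.repr y 1 • b 1 = y - b.repr y 0 • b 0 := by
        have := repr_fin_two b y
        rw [eq_sub_iff_add_eq, add_comm]
        exact this.symm
      rw [h4]
      exact L.sub_mem hy (L.smul_mem _ hbL)
    rw [repr_fin_two b y]
    exact Submodule.add_mem _ (Submodule.smul_mem _ _ (Submodule.mem_span_singleton_self _))
      (hmEl (hLm h3))
  · rw [Submodule.span_singleton_le_iff_mem]
    exact hbL

variable (hcyc_ex : ∀ g ∈ I, ∃ a, cyc g a)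
  (hchi : ∀ K W : Submodule A V, Stable r K → Stable r W → K ≤ W → maximalIdeal A • W ≤ K →
    ∀ x : G → A, (∀ g : G, ∀ w ∈ W, r g w - x g • w ∈ K) → (∃ w ∈ W, w ∉ K) →
    (∃ g ∈ I, x g - 1 ∉ maximalIdeal A) → ∀ g ∈ I, ∀ a, cyc g a → x g - (a : A) ∈ maximalIdeal A)

include hm2 hI hcyc_ne hdet hrig b₀ hcyc_ex hchi in
/-- **the ordinary line**: a stable line of the residual representation yields a stable free
rank-one direct summand `L` with `I` trivial on `V / L`. -/
theorem exists_line {E' : Submodule A V} (hE' : Stable r E')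
    (h1 : maximalIdeal A • (⊤ : Submodule A V) < E') (h2 : E' < ⊤) :
    ∃ L : Submodule A V, (∃ b : Basis (Fin 2) A V, L = A ∙ b 0) ∧ Stable r L ∧
      TrivOn r I L ⊤ := by
  classical
  set mV : Submodule A V := maximalIdeal A • (⊤ : Submodule A V) with hmV
  -- it suffices to find a good middle submodule
  suffices hgood : ∃ E : Submodule A V, Stable r E ∧ mV < E ∧ E < ⊤ ∧ TrivOn r I E ⊤ by
    obtain ⟨E, hE, hE1, hE2, hT⟩ := hgood
    exact exists_line_of_good hm2 hI cyc hcyc_ne hdet hrig b₀ hE hE1 hE2 hT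
  obtain ⟨e₁, he₁E, he₁⟩ : ∃ e ∈ E', e ∉ mV := by
    by_contra h
    push Not at h
    exact h1.not_ge h
  obtain ⟨b, hb⟩ := exists_basis_of_notMem b₀ he₁
  have hbE : b 0 ∈ E' := hb ▸ he₁E
  obtain ⟨w₀, hw₀⟩ : ∃ w : V, w ∉ E' := by
    by_contra h
    push Not at h
    exact h2.ne (eq_top_iff.mpr fun v _ => h v)
  set x₁ : G → A := fun g => b.repr (r g (b 0)) 0 with hx₁
  set x₂ : G → A := fun g => b.repr (r g (b 1)) 1 with hx₂
  have hc := fun g => chars_of_adapted b hE' h1.le h2.ne hbE g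
  by_cases hram : ∃ g ∈ I, x₂ g - 1 ∉ maximalIdeal A
  · -- the quotient character is ramified, hence cyclotomic; the sub is unramified
    have hχ := hchi E' ⊤ hE' stable_top le_top h1.le x₂ (fun g w _ => (hc g).2.1 w)
      ⟨w₀, Submodule.mem_top, hw₀⟩ hram
    have hx₁1 : ∀ g ∈ I, x₁ g - 1 ∈ maximalIdeal A := by
      intro g hg
      obtain ⟨a, hga⟩ := hcyc_ex g hg
      have hau : IsUnit (a : A) := by rw [← hdet g hg a hga]; exact det_isUnit g
      have h3 : (x₁ g - 1) * (a : A)
          = x₁ g * ((a : A) - x₂ g) - (LinearMap.det (r g) - x₁ g * x₂ g) := by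
        rw [hdet g hg a hga]; ring
      have h4 : (x₁ g - 1) * (a : A) ∈ maximalIdeal A := by
        rw [h3]
        refine Ideal.sub_mem _ (Ideal.mul_mem_left _ _ ?_) (hc g).2.2
        rw [← neg_sub]
        exact (Ideal.neg_mem_iff _).mpr (hχ g hg a hga)
      rcases (Ideal.IsPrime.mem_or_mem inferInstance h4) with h5 | h5
      · exact h5
      · exact absurd hau ((mem_maximalIdeal _).mp h5)
    have htriv : ∀ g ∈ I, ∀ e ∈ E', r g e - e ∈ mV := by
      intro g hg e he
      have h3 : r g e - e = (r g e - x₁ g • e) + (x₁ g - 1) • e := by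
        rw [sub_smul, one_smul]; abel
      rw [h3]
      exact Submodule.add_mem _ ((hc g).1 e he)
        (Submodule.smul_mem_smul (hx₁1 g hg) Submodule.mem_top)
    set E : Submodule A V := mV ⊔ J r I ⊤ with hE
    have hE_stable : Stable r E := stable_mV.sup (stable_top.J hI)
    have hEE' : E ⊓ E' ≤ mV := by
      rintro y ⟨hyE, hyE'⟩
      exact hrig mV ⊤ stable_mV stable_top le_top y Submodule.mem_top hyE
        (fun g hg => htriv g hg y hyE')
    obtain ⟨g₀, hg₀, hg₀u⟩ := hram
    rw [notMem_maximalIdeal] at hg₀u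
    refine ⟨E, hE_stable, lt_of_le_of_ne le_sup_left ?_, lt_top_iff_ne_top.mpr ?_, ?_⟩
    · intro hEq
      apply hw₀
      apply mem_of_unit_smul_mem hg₀u
      have h3 : (x₂ g₀ - 1) • w₀ = (r g₀ w₀ - w₀) - (r g₀ w₀ - x₂ g₀ • w₀) := by
        rw [sub_smul, one_smul]; abel
      rw [h3]
      refine E'.sub_mem (h1.le ?_) ((hc g₀).2.1 w₀)
      rw [hEq]
      exact Submodule.mem_sup_right (trivOn_J ⊤ g₀ hg₀ w₀ Submodule.mem_top)
    · intro hEq
      have : E' ≤ mV := by
        intro y hy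
        exact hEE' ⟨hEq ▸ Submodule.mem_top, hy⟩
      exact h1.not_ge this
    · intro g hg v hv
      exact Submodule.mem_sup_right (trivOn_J ⊤ g hg v hv)
  · -- the quotient character is unramified
    push Not at hram
    refine ⟨E', hE', h1, h2, ?_⟩
    intro g hg v _
    have h3 : r g v - v = (r g v - x₂ g • v) + (x₂ g - 1) • v := by
      rw [sub_smul, one_smul]; abel
    rw [h3]
    exact E'.add_mem ((hc g).2.1 v)
      (h1.le (Submodule.smul_mem_smul (hram g hg) Submodule.mem_top))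

end Main

end Fermat.Agent.TW.Hopf.OrdLin
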