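import Mathlib

/-!
# S56 sprint, block LOC-flat (ORD case), OF-2: the ordinary line of a flat deformation to `k[ε]`

Pure linear algebra over `k[ε] = DualNumber k` (Mathlib only).  `V` is free of rank `2` over `k[ε]`
with an action `ρ` of a group `G`; `D`, `I` are subgroups of `G` (decomposition and inertia), `I`
normalised by `D`.  `E ⊇ εV` is a `D`-stable submodule which is a line modulo `ε`, such that
`I` acts trivially on `V/E` and non-trivially on `E/εV`.

The two inputs coming from flatness (Raynaud / Fontaine rigidity of finite flat group schemes) are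
* `H1` : `(εE + Σ_{σ ∈ I} (σ - 1)E) ∩ εV ⊆ εE`  (the connected part of the flat subquotient `E/εE`
  meets the inertia-fixed subgroup `εV/εE` trivially);
* `H2` : an extension of unramified by unramified which is flat is unramified (for `V/L`).

Conclusion (`exists_ordinary_line`): `L := εE + Σ_{σ ∈ I} (σ - 1)E` is a free rank-one direct summand
`span {b 0}`, stable under `D`, and `I` acts trivially on `V/L` — literally the body of the Prelude's
`IsOrdinaryAt`.  No counting, no finiteness of `k`.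
-/

set_option autoImplicit false
set_option linter.unusedSectionVars false

namespace Fermat.Agent.TW.Hopf.OrdLine

open DualNumber Module

section Basis

variable {R : Type*} [CommRing R] {V : Type*} [AddCommGroup V] [Module R V]

/-- Replace the `0`-th vector of a basis by a vector whose `0`-th coordinate is a unit. -/
theorem exists_basis_of_isUnit_repr [Nontrivial R] (b' : Basis (Fin 2) R V) (l : V) (hu : IsUnit (b'.repr l 0)) :
    ∃ b : Basis (Fin 2) R V, b 0 = l ∧ b 1 = b' 1 := by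
  have hl : l = b'.repr l 0 • b' 0 + b'.repr l 1 • b' 1 := by
    conv_lhs => rw [← b'.sum_repr l, Fin.sum_univ_two]
  obtain ⟨u, hu⟩ := hu
  have hb0 : b' 0 = (↑u⁻¹ : R) • (l - b'.repr l 1 • b' 1) := by
    have : l - b'.repr l 1 • b' 1 = (u : R) • b' 0 := by
      rw [hu, sub_eq_iff_eq_add]; exact hl
    rw [this, smul_smul, Units.inv_mul, one_smul]
  have hspan : ⊤ ≤ Submodule.span R (Set.range ![l, b' 1]) := by
    rw [← b'.span_eq, Submodule.span_le]
    rintro _ ⟨i, rfl⟩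
    have h0 : l ∈ Submodule.span R (Set.range ![l, b' 1]) := Submodule.subset_span ⟨0, rfl⟩
    have h1 : b' 1 ∈ Submodule.span R (Set.range ![l, b' 1]) := Submodule.subset_span ⟨1, rfl⟩
    fin_cases i
    · show b' 0 ∈ _
      rw [hb0]
      exact Submodule.smul_mem _ _ (Submodule.sub_mem _ h0 (Submodule.smul_mem _ _ h1))
    · exact h1
  have hcard : Fintype.card (Fin 2) = finrank R V := by
    rw [finrank_eq_card_basis b']
  refine ⟨basisOfTopLeSpanOfCardEqFinrank ![l, b' 1] hspan hcard, ?_, ?_⟩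
  · rw [coe_basisOfTopLeSpanOfCardEqFinrank]; rfl
  · rw [coe_basisOfTopLeSpanOfCardEqFinrank]; rfl

/-- Over a local ring, a vector of a free module of rank `2` which is not in `𝔪 V` is the first
vector of a basis. -/
theorem exists_basis_of_notMem [IsLocalRing R] [Module.Free R V] [Module.Finite R V]
    (hrank : finrank R V = 2) {l : V}
    (hl : l ∉ IsLocalRing.maximalIdeal R • (⊤ : Submodule R V)) :
    ∃ b : Basis (Fin 2) R V, b 0 = l := by
  have b' : Basis (Fin 2) R V := finBasisOfFinrankEq R V hrank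
  have hsum : l = b'.repr l 0 • b' 0 + b'.repr l 1 • b' 1 := by
    conv_lhs => rw [← b'.sum_repr l, Fin.sum_univ_two]
  by_cases h0 : IsUnit (b'.repr l 0)
  · obtain ⟨b, hb, -⟩ := exists_basis_of_isUnit_repr b' l h0
    exact ⟨b, hb⟩
  by_cases h1 : IsUnit (b'.repr l 1)
  · obtain ⟨b, hb, -⟩ := exists_basis_of_isUnit_repr (b'.reindex (Equiv.swap 0 1)) l (by
      rw [Basis.repr_reindex_apply]
      simpa using h1)
    exact ⟨b, hb⟩
  exfalso
  apply hl
  rw [hsum]
  exact Submodule.add_mem _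
    (Submodule.smul_mem_smul ((IsLocalRing.mem_maximalIdeal _).mpr h0) Submodule.mem_top)
    (Submodule.smul_mem_smul ((IsLocalRing.mem_maximalIdeal _).mpr h1) Submodule.mem_top)

end Basis

section Main

variable {k : Type*} [Field k] {V : Type*} [AddCommGroup V] [Module k[ε] V]
  [Module.Free k[ε] V] [Module.Finite k[ε] V]
  {G : Type*} [Group G] (ρ : G →* Module.End k[ε] V) (D I : Subgroup G)

/-- The candidate ordinary line `εE + Σ_{σ ∈ I} (σ - 1)E`. -/
def ordLine (E : Submodule k[ε] V) : Submodule k[ε] V :=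
  IsLocalRing.maximalIdeal k[ε] • E ⊔ ⨆ σ ∈ I, E.map (ρ σ - 1)

variable {ρ D I}

theorem sub_mem_ordLine (E : Submodule k[ε] V) {σ : G} (hσ : σ ∈ I) {v : V} (hv : v ∈ E) :
    ρ σ v - v ∈ ordLine ρ I E := by
  refine Submodule.mem_sup_right ?_
  refine Submodule.mem_iSup_of_mem σ (Submodule.mem_iSup_of_mem hσ ?_)
  exact ⟨v, hv, rfl⟩

theorem ordLine_le (E : Submodule k[ε] V) (hEI : ∀ σ ∈ I, ∀ v ∈ E, ρ σ v ∈ E) :
    ordLine ρ I E ≤ E := by
  refine sup_le Submodule.smul_le_right (iSup₂_le fun σ hσ => ?_)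
  rintro _ ⟨v, hv, rfl⟩
  exact E.sub_mem (hEI σ hσ v hv) hv

theorem ordLine_stable (hnorm : ∀ τ ∈ D, ∀ σ ∈ I, τ * σ * τ⁻¹ ∈ I) (E : Submodule k[ε] V)
    (hED : ∀ τ ∈ D, ∀ v ∈ E, ρ τ v ∈ E) {τ : G} (hτ : τ ∈ D) {v : V}
    (hv : v ∈ ordLine ρ I E) : ρ τ v ∈ ordLine ρ I E := by
  have hmap : (ordLine ρ I E).map (ρ τ) ≤ ordLine ρ I E := by
    unfold ordLine
    rw [Submodule.map_sup, Submodule.map_smul'']
    refine sup_le_sup (Submodule.smul_mono le_rfl ?_) ?_
    · rintro _ ⟨v, hv, rfl⟩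
      exact hED τ hτ v hv
    · rw [Submodule.map_iSup]
      refine iSup_le fun σ => ?_
      rw [Submodule.map_iSup]
      refine iSup_le fun hσ => ?_
      rintro _ ⟨_, ⟨e, he, rfl⟩, rfl⟩
      refine Submodule.mem_iSup_of_mem (τ * σ * τ⁻¹)
        (Submodule.mem_iSup_of_mem (hnorm τ hτ σ hσ) ⟨ρ τ e, hED τ hτ e he, ?_⟩)
      have h1 : ρ (τ * σ * τ⁻¹) (ρ τ e) = ρ τ (ρ σ e) := by
        rw [← Module.End.mul_apply, ← map_mul, inv_mul_cancel_right, map_mul, Module.End.mul_apply]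
      simp only [LinearMap.sub_apply, Module.End.one_apply, h1, map_sub]
  exact hmap ⟨v, hv, rfl⟩

/-- **OF-2 (abstract form).** See the module docstring. -/
theorem exists_ordinary_line (hrank : finrank k[ε] V = 2)
    (hnorm : ∀ τ ∈ D, ∀ σ ∈ I, τ * σ * τ⁻¹ ∈ I) (hID : I ≤ D)
    (E : Submodule k[ε] V) (hE2 : E < ⊤) (hED : ∀ τ ∈ D, ∀ v ∈ E, ρ τ v ∈ E)
    (hsub : ∃ σ ∈ I, ∃ v ∈ E, ρ σ v - v ∉ IsLocalRing.maximalIdeal k[ε] • (⊤ : Submodule k[ε] V))
    (H1 : ordLine ρ I E ⊓ IsLocalRing.maximalIdeal k[ε] • (⊤ : Submodule k[ε] V) ≤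
      IsLocalRing.maximalIdeal k[ε] • E)
    (H2 : ∀ L : Submodule k[ε] V, L ≤ E → (∀ τ ∈ D, ∀ v ∈ L, ρ τ v ∈ L) →
      (∀ σ ∈ I, ∀ v ∈ E, ρ σ v - v ∈ L) → ∀ σ ∈ I, ∀ v, ρ σ v - v ∈ L) :
    ∃ L : Submodule k[ε] V, (∃ b : Basis (Fin 2) k[ε] V, L = Submodule.span k[ε] {b 0}) ∧
      (∀ τ ∈ D, ∀ v ∈ L, ρ τ v ∈ L) ∧ ∀ σ ∈ I, ∀ v, ρ σ v - v ∈ L := by
  have hEI : ∀ σ ∈ I, ∀ v ∈ E, ρ σ v ∈ E := fun σ hσ => hED σ (hID hσ)
  have hLE : ordLine ρ I E ≤ E := ordLine_le E hEI
  refine ⟨ordLine ρ I E, ?_, fun τ hτ v hv => ordLine_stable hnorm E hED hτ hv,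
    H2 _ hLE (fun τ hτ v hv => ordLine_stable hnorm E hED hτ hv)
      (fun σ hσ v hv => sub_mem_ordLine E hσ hv)⟩
  obtain ⟨σ0, hσ0, v0, hv0, hl⟩ := hsub
  obtain ⟨b, hb0⟩ := exists_basis_of_notMem hrank hl
  have hlL : b 0 ∈ ordLine ρ I E := hb0 ▸ sub_mem_ordLine E hσ0 hv0
  have hlE : b 0 ∈ E := hLE hlL
  have hsum : ∀ e : V, e = b.repr e 0 • b 0 + b.repr e 1 • b 1 := fun e => by
    conv_lhs => rw [← b.sum_repr e, Fin.sum_univ_two]
  -- the `b 1`-coordinate of an element of `E` is in the maximal ideal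
  have hcoord : ∀ e ∈ E, b.repr e 1 ∈ IsLocalRing.maximalIdeal k[ε] := by
    intro e he
    by_contra hu
    rw [IsLocalRing.mem_maximalIdeal, mem_nonunits_iff, not_not] at hu
    obtain ⟨u, hu⟩ := hu
    have h1 : b 1 = (↑u⁻¹ : k[ε]) • (e - b.repr e 0 • b 0) := by
      have : e - b.repr e 0 • b 0 = (u : k[ε]) • b 1 := by
        rw [hu, sub_eq_iff_eq_add, add_comm]; exact hsum e
      rw [this, smul_smul, Units.inv_mul, one_smul]
    have hb1 : b 1 ∈ E := by
      rw [h1]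
      exact E.smul_mem _ (E.sub_mem he (E.smul_mem _ hlE))
    apply hE2.ne
    rw [eq_top_iff, ← b.span_eq, Submodule.span_le]
    rintro _ ⟨i, rfl⟩
    fin_cases i
    · exact hlE
    · exact hb1
  -- `ε E ⊆ A · b 0`
  have hmE : IsLocalRing.maximalIdeal k[ε] • E ≤ Submodule.span k[ε] {b 0} := by
    rw [Submodule.smul_le]
    intro r hr e he
    rw [maximalIdeal_eq_span_singleton_eps, Ideal.mem_span_singleton'] at hr
    obtain ⟨r', rfl⟩ := hr
    have ht := hcoord e he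
    rw [maximalIdeal_eq_span_singleton_eps, Ideal.mem_span_singleton'] at ht
    obtain ⟨t', ht'⟩ := ht
    have : (r' * ε) • e = (r' * ε * b.repr e 0) • b 0 := by
      conv_lhs => rw [hsum e, ← ht']
      rw [smul_add, smul_smul, smul_smul]
      have h0 : r' * ε * (t' * ε) = 0 := by
        rw [mul_comm t' ε, ← mul_assoc, mul_assoc r' ε ε, eps_mul_eps, mul_zero, zero_mul]
      rw [h0, zero_smul, add_zero]
    rw [this]
    exact Submodule.smul_mem _ _ (Submodule.mem_span_singleton_self _)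
  refine ⟨b, le_antisymm ?_ ?_⟩
  · intro x hx
    have hxE : x ∈ E := hLE hx
    have hy : b.repr x 1 • b 1 ∈ ordLine ρ I E := by
      have : b.repr x 1 • b 1 = x - b.repr x 0 • b 0 := by
        rw [eq_sub_iff_add_eq, add_comm]; exact (hsum x).symm
      rw [this]
      exact Submodule.sub_mem _ hx (Submodule.smul_mem _ _ hlL)
    have hy' : b.repr x 1 • b 1 ∈ IsLocalRing.maximalIdeal k[ε] • (⊤ : Submodule k[ε] V) :=
      Submodule.smul_mem_smul (hcoord x hxE) Submodule.mem_top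
    have hy'' : b.repr x 1 • b 1 ∈ Submodule.span k[ε] {b 0} := hmE (H1 ⟨hy, hy'⟩)
    rw [hsum x]
    exact Submodule.add_mem _ (Submodule.smul_mem _ _ (Submodule.mem_span_singleton_self _)) hy''
  · rw [Submodule.span_le, Set.singleton_subset_iff]
    exact hlL

end Main

end Fermat.Agent.TW.Hopf.OrdLine
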