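import Mathlib
import Fermat.Agent.TW.Hopf.OrdLine

/-!
# S56 sprint, LOC-flat (ORD case): `exists_ordinary_line` from ONE rigidity hypothesis

`IsRigid ρ D I` is the single consequence of flatness used by the ORD case ("(i')"): for `D`-stable
submodules `K ≤ W`, an element `y ∈ W` which is fixed by `I` modulo `K` and lies in
`K + Σ_{σ ∈ I} (σ - 1) W` lies in `K` (the connected part of the flat subquotient `W / K` meets the
inertia-invariants trivially).  It implies both `H1` and `H2` of `OrdLine.exists_ordinary_line`.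
-/

set_option autoImplicit false
set_option linter.unusedSectionVars false

namespace Fermat.Agent.TW.Hopf.OrdLine

open DualNumber Module

section Rigid

variable {A : Type*} [CommRing A] {V : Type*} [AddCommGroup V] [Module A V]
  {G : Type*} [Group G]

/-- The rigidity property "(i')" of a flat representation. -/
def IsRigid (ρ : G →* Module.End A V) (D I : Subgroup G) : Prop :=
  ∀ W K : Submodule A V, K ≤ W → (∀ τ ∈ D, ∀ v ∈ W, ρ τ v ∈ W) → (∀ τ ∈ D, ∀ v ∈ K, ρ τ v ∈ K) →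
    ∀ y ∈ W, (∀ σ ∈ I, ρ σ y - y ∈ K) → y ∈ K ⊔ ⨆ σ ∈ I, W.map (ρ σ - 1) → y ∈ K

end Rigid

section Main

variable {k : Type*} [Field k] {V : Type*} [AddCommGroup V] [Module k[ε] V]
  [Module.Free k[ε] V] [Module.Finite k[ε] V]
  {G : Type*} [Group G] {ρ : G →* Module.End k[ε] V} {D I : Subgroup G}

/-- **OF-2 from rigidity.** -/
theorem exists_ordinary_line_of_isRigid (hrank : finrank k[ε] V = 2)
    (hnorm : ∀ τ ∈ D, ∀ σ ∈ I, τ * σ * τ⁻¹ ∈ I) (hID : I ≤ D)
    (E : Submodule k[ε] V) (hE2 : E < ⊤) (hED : ∀ τ ∈ D, ∀ v ∈ E, ρ τ v ∈ E)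
    (hquot : ∀ σ ∈ I, ∀ v, ρ σ v - v ∈ E)
    (hsub : ∃ σ ∈ I, ∃ v ∈ E, ρ σ v - v ∉ IsLocalRing.maximalIdeal k[ε] • (⊤ : Submodule k[ε] V))
    (hrig : IsRigid ρ D I) :
    ∃ L : Submodule k[ε] V, (∃ b : Basis (Fin 2) k[ε] V, L = Submodule.span k[ε] {b 0}) ∧
      (∀ τ ∈ D, ∀ v ∈ L, ρ τ v ∈ L) ∧ ∀ σ ∈ I, ∀ v, ρ σ v - v ∈ L := by
  have hEI : ∀ σ ∈ I, ∀ v ∈ E, ρ σ v ∈ E := fun σ hσ => hED σ (hID hσ)
  refine exists_ordinary_line hrank hnorm hID E hE2 hED hsub ?_ ?_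
  · -- H1
    rintro y ⟨hyL, hym⟩
    have hmE : ∀ τ ∈ D, ∀ v ∈ IsLocalRing.maximalIdeal k[ε] • E,
        ρ τ v ∈ IsLocalRing.maximalIdeal k[ε] • E := by
      intro τ hτ v hv
      have : (IsLocalRing.maximalIdeal k[ε] • E).map (ρ τ) ≤ IsLocalRing.maximalIdeal k[ε] • E := by
        rw [Submodule.map_smul'']
        refine Submodule.smul_mono le_rfl ?_
        rintro _ ⟨e, he, rfl⟩
        exact hED τ hτ e he
      exact this ⟨v, hv, rfl⟩
    refine hrig E (IsLocalRing.maximalIdeal k[ε] • E) Submodule.smul_le_right hED hmE y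
      (ordLine_le E hEI hyL) (fun σ hσ => ?_) hyL
    have : (IsLocalRing.maximalIdeal k[ε] • (⊤ : Submodule k[ε] V)).map (ρ σ - 1) ≤
        IsLocalRing.maximalIdeal k[ε] • E := by
      rw [Submodule.map_smul'']
      refine Submodule.smul_mono le_rfl ?_
      rintro _ ⟨v, -, rfl⟩
      exact hquot σ hσ v
    exact this ⟨y, hym, rfl⟩
  · -- H2
    intro L hLE hLD hEL σ hσ v
    refine hrig ⊤ L le_top (fun _ _ _ _ => Submodule.mem_top) hLD (ρ σ v - v) Submodule.mem_top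
      (fun τ hτ => hEL τ hτ _ (hquot σ hσ v)) ?_
    refine Submodule.mem_sup_right ?_
    exact Submodule.mem_iSup_of_mem σ (Submodule.mem_iSup_of_mem hσ ⟨v, Submodule.mem_top, rfl⟩)

end Main

end Fermat.Agent.TW.Hopf.OrdLine
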