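import Mathlib

/-!
# S56 design sprint, block LOC-flat, F1: the RIGIDITY LEMMA

`W` a commutative ring in which `p` (an odd prime) is a non-zero-divisor and `⋂ pⁿ W = 0`;
`H` a `W`-bialgebra (in the application: a finite flat cocommutative Hopf algebra, neither
finiteness nor cocommutativity nor the antipode is used).  A `W`-point `x` of `H`
(`x : WithConv (H →ₐ[W] W)`, the convolution monoid of Mathlib) with `x ^ p = 1` which is
congruent to the unit section modulo `p` is the unit section.

Proof: in the convolution ring `WithConv (H →ₗ[W] W)` write `x = 1 + φ`; if `φ = pⁿ ψ` with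
`n ≥ 1` then `0 = (1 + φ) ^ p - 1 = pⁿ⁺¹ ψ + pⁿ⁺² (…)`, because `p ∣ C(p, j)` for `0 < j < p` and
`p ≥ 3`; so `ψ ∈ p · Hom` and `φ ∈ ⋂ pⁿ Hom = 0`.

Mathlib only.  Branch-only work.
-/

set_option autoImplicit false

namespace Fermat.Agent.TW.Hopf.Rigidity

open Finset

/-! ### The ring lemma -/

section Ring

variable {C : Type*} [Ring C] {p : ℕ}

theorem pow_nsmul_eq_zero (htf : ∀ c : C, p • c = 0 → c = 0) :
    ∀ (k : ℕ) (c : C), p ^ k • c = 0 → c = 0
  | 0, c, h => by simpa using h
  | k + 1, c, h => by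
    rw [pow_succ, mul_smul] at h
    exact htf c (pow_nsmul_eq_zero htf k _ h)

/-- `pⁿ⁺² ∣ p^(n (m + 2)) · C(p, m + 2)` for `n ≥ 1`, `p ≥ 3` prime, `m + 2 ≤ p`. -/
theorem dvd_pow_mul_choose (hp : p.Prime) (hp2 : p ≠ 2) {n : ℕ} (hn : 1 ≤ n) {m : ℕ}
    (hm : m + 2 ≤ p) : p ^ (n + 2) ∣ p ^ (n * (m + 2)) * p.choose (m + 2) := by
  have hp3 : 3 ≤ p := by
    have := hp.two_le
    omega
  rcases Nat.lt_or_ge (m + 2) p with hlt | hge
  · -- `p ∣ C(p, m + 2)` and `n + 1 ≤ n (m + 2)`
    have h1 : p ∣ p.choose (m + 2) := hp.dvd_choose_self (by omega) hlt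
    have h2 : p ^ (n + 1) ∣ p ^ (n * (m + 2)) := by
      apply pow_dvd_pow
      nlinarith
    calc p ^ (n + 2) = p ^ (n + 1) * p := by ring
      _ ∣ p ^ (n * (m + 2)) * p.choose (m + 2) := Nat.mul_dvd_mul h2 h1
  · have hmp : m + 2 = p := le_antisymm hm hge
    rw [hmp, Nat.choose_self, mul_one]
    apply pow_dvd_pow
    nlinarith

/-- **Ring lemma.** In a ring without `p`-torsion (`p` an odd prime), if `(1 + φ) ^ p = 1` and
`φ ∈ p C` then `φ ∈ pⁿ C` for every `n`. -/
theorem exists_nsmul_of_add_pow_eq_one (hp : p.Prime) (hp2 : p ≠ 2)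
    (htf : ∀ c : C, p • c = 0 → c = 0) (φ : C) (h1 : (φ + 1) ^ p = 1) (h0 : ∃ ψ : C, φ = p • ψ) :
    ∀ n : ℕ, ∃ ψ : C, φ = p ^ n • ψ := by
  intro n
  induction n with
  | zero => exact ⟨φ, by simp⟩
  | succ n ih =>
    rcases Nat.eq_zero_or_pos n with rfl | hn
    · simpa using h0
    obtain ⟨ψ, hψ⟩ := ih
    obtain ⟨q, rfl⟩ : ∃ q, p = q + 2 := ⟨p - 2, by have := hp.two_le; omega⟩
    -- expand the binomial
    have hexp := (Commute.one_right φ).add_pow (q + 2)
    rw [h1, Finset.sum_range_succ', Finset.sum_range_succ'] at hexp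
    simp only [one_pow, mul_one, pow_zero, Nat.choose_zero_right, Nat.cast_one, zero_add,
      pow_one, Nat.choose_one_right] at hexp
    -- the tail is divisible by `pⁿ⁺²`
    have htail : ∃ T : C, (∑ m ∈ range (q + 1), φ ^ (m + 1 + 1) * ((q + 2).choose (m + 1 + 1) : C))
        = (q + 2) ^ (n + 2) • T := by
      refine Finset.sum_induction _ (fun x => ∃ T : C, x = (q + 2) ^ (n + 2) • T) ?_ ?_ ?_
      · rintro a b ⟨Ta, rfl⟩ ⟨Tb, rfl⟩
        exact ⟨Ta + Tb, by rw [smul_add]⟩
      · exact ⟨0, by simp⟩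
      · intro m hm
        rw [Finset.mem_range] at hm
        obtain ⟨K, hK⟩ := dvd_pow_mul_choose hp hp2 hn (m := m) (by omega)
        refine ⟨K • ψ ^ (m + 2), ?_⟩
        have e1 : φ ^ (m + 1 + 1) = (q + 2) ^ (n * (m + 2)) • ψ ^ (m + 2) := by
          rw [hψ, smul_pow, ← pow_mul]
        rw [e1, ← nsmul_eq_mul', ← mul_smul, mul_comm, hK, mul_smul]
    obtain ⟨T, hT⟩ := htail
    rw [hT] at hexp
    -- `pⁿ⁺¹ • (p • T + ψ) = 0`
    have hz : (q + 2) ^ (n + 1) • ((q + 2) • T + ψ) = 0 := by
      have h2 : (q + 2) ^ (n + 2) • T + φ * ((q + 2 : ℕ) : C) = 0 := by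
        have := hexp
        have h3 : (1 : C) = ((q + 2) ^ (n + 2) • T + φ * ((q + 2 : ℕ) : C)) + 1 := this
        have h4 : ((q + 2) ^ (n + 2) • T + φ * ((q + 2 : ℕ) : C)) + 1 = 0 + 1 := by
          rw [zero_add]; exact h3.symm
        exact add_right_cancel h4
      rw [smul_add, ← mul_smul, ← pow_succ]
      have h5 : φ * ((q + 2 : ℕ) : C) = (q + 2) ^ (n + 1) • ψ := by
        rw [← nsmul_eq_mul', hψ, ← mul_smul, ← pow_succ']
      rw [← h5]
      exact h2
    have h6 := pow_nsmul_eq_zero htf (n + 1) _ hz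
    refine ⟨-T, ?_⟩
    have h7 : ψ = (q + 2) • (-T) := by
      rw [smul_neg]
      exact eq_neg_of_add_eq_zero_right h6
    rw [hψ, h7, ← mul_smul, ← pow_succ]

end Ring

/-! ### Points of a bialgebra -/

section Points

open Coalgebra WithConv

variable {R H B : Type*} [CommRing R] [Ring H] [Bialgebra R H] [CommRing B] [Algebra R B] {p : ℕ}

/-- The linear map underlying a point, in the convolution ring. -/
noncomputable def lin (x : WithConv (H →ₐ[R] B)) : WithConv (H →ₗ[R] B) :=
  toConv x.ofConv.toLinearMap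

theorem lin_pow (x : WithConv (H →ₐ[R] B)) (n : ℕ) : lin (x ^ n) = lin x ^ n :=
  AlgHom.toLinearMap_convPow x n

theorem lin_one : lin (1 : WithConv (H →ₐ[R] B)) = 1 := AlgHom.toLinearMap_convOne

theorem lin_injective : Function.Injective (lin : WithConv (H →ₐ[R] B) → _) :=
  toConv_injective.comp (AlgHom.toLinearMap_injective.comp ofConv_injective)

/-- Evaluation at `h : H` as an additive map on the convolution ring. -/
noncomputable def evalAt (h : H) : WithConv (H →ₗ[R] B) →+ B where
  toFun f := f.ofConv h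
  map_zero' := rfl
  map_add' _ _ := rfl

theorem evalAt_lin (x : WithConv (H →ₐ[R] B)) (h : H) : evalAt h (lin x) = x h := rfl

theorem evalAt_one (h : H) : evalAt h (1 : WithConv (H →ₗ[R] B)) = algebraMap R B (counit h) := rfl

theorem conv_ext {f g : WithConv (H →ₗ[R] B)} (hfg : ∀ h, evalAt h f = evalAt h g) : f = g := by
  apply ofConv_injective
  exact LinearMap.ext hfg

/-- **Rigidity lemma.** `p` an odd prime, `B` a commutative `R`-algebra without `p`-torsion and
`p`-adically separated, `x` a `B`-point of the `R`-bialgebra `H` with `x ^ p = 1`, congruent to the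
unit section modulo `p B`.  Then `x = 1`. -/
theorem eq_one_of_pow_eq_one_of_congr (hp : p.Prime) (hp2 : p ≠ 2)
    (htf : ∀ w : B, p • w = 0 → w = 0)
    (hsep : ∀ w : B, (∀ n : ℕ, ∃ v : B, w = p ^ n • v) → w = 0)
    (x : WithConv (H →ₐ[R] B)) (hx : x ^ p = 1)
    (hcong : ∀ h : H, ∃ w : B, x h - algebraMap R B (counit h) = p • w) : x = 1 := by
  classical
  -- the convolution ring has no `p`-torsion
  have htfC : ∀ c : WithConv (H →ₗ[R] B), p • c = 0 → c = 0 := by
    intro c hc
    apply conv_ext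
    intro h
    have := congrArg (evalAt h) hc
    rw [map_nsmul, map_zero] at this
    rw [map_zero]
    exact htf _ this
  set φ : WithConv (H →ₗ[R] B) := lin x - 1 with hφ
  have h1 : (φ + 1) ^ p = 1 := by
    rw [hφ, sub_add_cancel, ← lin_pow, hx, lin_one]
  -- `φ = p • ψ`
  have h0 : ∃ ψ : WithConv (H →ₗ[R] B), φ = p • ψ := by
    choose w hw using hcong
    have hφh : ∀ h, evalAt h φ = p • w h := by
      intro h
      rw [hφ, map_sub, evalAt_lin, evalAt_one, hw]
    have hcancel : ∀ a b : B, p • a = p • b → a = b := fun a b h =>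
      sub_eq_zero.mp (htf _ (by rw [smul_sub, h, sub_self]))
    have hadd : ∀ a b : H, w (a + b) = w a + w b := by
      intro a b
      apply hcancel
      rw [smul_add, ← hφh a, ← hφh b, ← hφh (a + b)]
      show φ.ofConv (a + b) = φ.ofConv a + φ.ofConv b
      exact map_add _ _ _
    have hsmul : ∀ (c : R) (a : H), w (c • a) = (RingHom.id R c) • w a := by
      intro c a
      apply hcancel
      rw [← hφh (c • a), RingHom.id_apply, smul_comm, ← hφh a]
      show φ.ofConv (c • a) = c • φ.ofConv a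
      exact map_smul _ _ _
    refine ⟨toConv { toFun := w, map_add' := hadd, map_smul' := hsmul }, ?_⟩
    apply conv_ext
    intro h
    rw [hφh, map_nsmul]
    rfl
  have key := exists_nsmul_of_add_pow_eq_one hp hp2 htfC φ h1 h0
  have hφ0 : φ = 0 := by
    apply conv_ext
    intro h
    rw [map_zero]
    apply hsep
    intro n
    obtain ⟨ψ, hψ⟩ := key n
    exact ⟨evalAt h ψ, by rw [hψ, map_nsmul]⟩
  apply lin_injective
  rw [lin_one]
  exact sub_eq_zero.mp hφ0

end Points

/-! ### Inverse of a point (Mathlib's `AlgHom.convGroup` asks for a bialgebra structure on the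
target; here the target is any commutative algebra) -/

section Inverse

open Coalgebra WithConv Algebra TensorProduct Bialgebra

variable {R A C : Type*} [CommSemiring R] [CommSemiring A] [HopfAlgebra R A] [CommSemiring C]
  [Algebra R C]

/-- The inverse of a point: composition with the antipode. -/
noncomputable def pinv (f : WithConv (A →ₐ[R] C)) : WithConv (A →ₐ[R] C) :=
  toConv (f.ofConv.comp (HopfAlgebra.antipodeAlgHom R A))

theorem pinv_mul_cancel (f : WithConv (A →ₐ[R] C)) : pinv f * f = 1 := by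
  have H : (lmul' R).comp (Algebra.TensorProduct.map f.ofConv f.ofConv) =
      f.ofConv.comp (lmul' R) := by ext <;> simp
  trans toConv <| ((lmul' R).comp (Algebra.TensorProduct.map f.ofConv f.ofConv)).comp
      ((Algebra.TensorProduct.map
      (HopfAlgebra.antipodeAlgHom R A) (.id _ _)).comp (comulAlgHom R A))
  · rw [AlgHom.comp_assoc, ← AlgHom.comp_assoc (Algebra.TensorProduct.map f.ofConv f.ofConv),
      ← Algebra.TensorProduct.map_comp]; rfl
  rw [H, AlgHom.comp_assoc, WithConv.ext_iff, ← AlgHom.toLinearMap_injective.eq_iff]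
  change f.ofConv.toLinearMap.comp
      (toConv (HopfAlgebra.antipode R (A := A)) * toConv LinearMap.id).ofConv =
    ofConv (1 : WithConv <| A →ₗ[R] C)
  rw [LinearMap.antipode_mul_id]
  ext
  simp

theorem mul_pinv_cancel [IsCocomm R A] (f : WithConv (A →ₐ[R] C)) : f * pinv f = 1 := by
  rw [mul_comm, pinv_mul_cancel]

end Inverse

section Points2

open Coalgebra WithConv

variable {R H B : Type*} [CommRing R] [CommRing H] [HopfAlgebra R H] [CommRing B] [Algebra R B]
  {p : ℕ}

/-- **Injectivity of reduction on `p`-torsion** : two `B`-points `x`, `y` of a Hopf algebra such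
that `x y⁻¹` is killed by `p` and congruent to the unit section modulo `p B` are equal. -/
theorem eq_of_mul_pinv_pow_eq_one (hp : p.Prime) (hp2 : p ≠ 2)
    (htf : ∀ w : B, p • w = 0 → w = 0)
    (hsep : ∀ w : B, (∀ n : ℕ, ∃ v : B, w = p ^ n • v) → w = 0)
    (x y : WithConv (H →ₐ[R] B)) (hxy : (x * pinv y) ^ p = 1)
    (hcong : ∀ h : H, ∃ w : B, (x * pinv y) h - algebraMap R B (counit h) = p • w) : x = y := by
  have h1 := eq_one_of_pow_eq_one_of_congr hp hp2 htf hsep (x * pinv y) hxy hcong
  calc x = x * (pinv y * y) := by rw [pinv_mul_cancel, mul_one]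
    _ = (x * pinv y) * y := (mul_assoc _ _ _).symm
    _ = y := by rw [h1, one_mul]

end Points2



end Fermat.Agent.TW.Hopf.Rigidity
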