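import Mathlib
import Fermat.Prelude.Def_FLTPrelim_Ramification
import Fermat.Agent.S05.Val
import Fermat.Agent.S13.InertiaValue
import Fermat.Agent.TW.Hopf.Rigidity

/-!
# Points of a finite flat group scheme and inertia (S56 design sprint, F2-core, helper5)

`Qb = AlgebraicClosure ℚ`, `P` a valuation subring of `Qb` over the odd prime `p`, `I_P` its inertia
group (`P.inertiaSubgroupIn ℚ`, the Prelude's).  `H` a bialgebra over a ring `R` mapping to the
`I_P`-fixed elements of `P` (think `R = ℤ_(p)`, or the valuation ring of the decomposition field of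
`P`), `x : H →ₐ[R] Qb` a point.

* `postComp` : post-composition with an algebra map is a monoid hom on points.
* `fixedInt P` : the `R`-subalgebra of `Qb` of `I_P`-fixed elements of `P`
  (the ring of integers of the inertia field, localised at `P`); its maximal ideal is generated by
  `p` (`Fermat.Agent.S13.valuation_eq_zpow_of_inertia_fixed`, on main).
* `eq_one_of_inertia_fixed` (**RIG-unr**): a point `x` with `x ^ p = 1`, with values in `P`, fixed
  by `I_P`, reducing to the unit section modulo the maximal ideal of `P`, is the unit section.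
-/

set_option autoImplicit false

namespace Fermat.Agent.TW.Hopf.PointsInertia

open Coalgebra WithConv Fermat.Agent.TW.Hopf.Rigidity

/-! ### Post-composition -/

section PostComp

variable {R H A B : Type*} [CommSemiring R] [Semiring H] [Bialgebra R H] [CommSemiring A]
  [Algebra R A] [CommSemiring B] [Algebra R B]

/-- Post-composition with an algebra map, as a monoid hom on points. -/
noncomputable def postComp (φ : A →ₐ[R] B) : WithConv (H →ₐ[R] A) →* WithConv (H →ₐ[R] B) where
  toFun x := toConv (φ.comp x.ofConv)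
  map_one' := by
    apply ofConv_injective
    apply AlgHom.ext
    intro h
    show φ (algebraMap R A (counit h)) = algebraMap R B (counit h)
    exact φ.commutes _
  map_mul' x y := by
    apply ofConv_injective
    rw [ofConv_toConv, AlgHom.comp_convMul_distrib]

theorem postComp_apply (φ : A →ₐ[R] B) (x : WithConv (H →ₐ[R] A)) (h : H) :
    postComp φ x h = φ (x h) := rfl

theorem postComp_injective {φ : A →ₐ[R] B} (hφ : Function.Injective φ) :
    Function.Injective (postComp (H := H) φ) := by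
  intro x y hxy
  apply ofConv_injective
  apply AlgHom.ext
  intro h
  apply hφ
  have := congrArg (fun z : WithConv (H →ₐ[R] B) => z h) hxy
  exact this

end PostComp

/-! ### The inertia-fixed integers -/

local notation "Qb" => AlgebraicClosure ℚ
local notation "GQ" => (AlgebraicClosure ℚ ≃ₐ[ℚ] AlgebraicClosure ℚ)

local instance instIsGaloisQbPointsInertia : IsGalois ℚ Qb :=
  Fermat.Agent.S54.FrobExists.isGalois_rat_algebraicClosure

section FixedInt

variable {R : Type*} [CommRing R] [Algebra R Qb]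

/-- the `I_P`-fixed elements of `P`, as an `R`-subalgebra of `Qb`, for a ring `R` mapping into the
`I_P`-fixed elements of `P`. -/
def fixedInt (P : ValuationSubring Qb) (hRP : ∀ r : R, algebraMap R Qb r ∈ P)
    (hRfix : ∀ σ ∈ P.inertiaSubgroupIn ℚ, ∀ r : R, σ (algebraMap R Qb r) = algebraMap R Qb r) :
    Subalgebra R Qb where
  carrier := {z | z ∈ P ∧ ∀ σ ∈ P.inertiaSubgroupIn ℚ, σ z = z}
  mul_mem' {a b} ha hb := ⟨P.mul_mem _ _ ha.1 hb.1, fun σ hσ => by
    rw [map_mul, ha.2 σ hσ, hb.2 σ hσ]⟩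
  add_mem' {a b} ha hb := ⟨P.add_mem _ _ ha.1 hb.1, fun σ hσ => by
    rw [map_add, ha.2 σ hσ, hb.2 σ hσ]⟩
  algebraMap_mem' r := ⟨hRP r, fun σ hσ => hRfix σ hσ r⟩

theorem mem_fixedInt {P : ValuationSubring Qb} {hRP : ∀ r : R, algebraMap R Qb r ∈ P}
    {hRfix : ∀ σ ∈ P.inertiaSubgroupIn ℚ, ∀ r : R, σ (algebraMap R Qb r) = algebraMap R Qb r}
    {z : Qb} :
    z ∈ fixedInt P hRP hRfix ↔ z ∈ P ∧ ∀ σ ∈ P.inertiaSubgroupIn ℚ, σ z = z := Iff.rfl

variable {p : ℕ} (hp : p.Prime) (P : ValuationSubring Qb) (hP : P.LiesOverPrime p)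

include hP in
theorem valuation_p_lt_one : P.valuation (p : Qb) < 1 := (P.mem_nonunits_iff).mp hP

include hp in
theorem valuation_p_ne_zero : P.valuation (p : Qb) ≠ 0 :=
  (Valuation.ne_zero_iff _).mpr (Nat.cast_ne_zero.mpr hp.ne_zero)

include hp hP

/-- **the maximal ideal of the inertia-fixed integers is generated by `p`.** -/
theorem div_p_mem_of_fixed {z : Qb} (hz : P.valuation z < 1)
    (hfix : ∀ σ ∈ P.inertiaSubgroupIn ℚ, σ z = z) : z / (p : Qb) ∈ P := by
  by_cases hz0 : z = 0
  · rw [hz0, zero_div]; exact P.zero_mem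
  obtain ⟨n, hn⟩ := Fermat.Agent.S13.valuation_eq_zpow_of_inertia_fixed P hp hP hz0 hfix
  have hℓ1 := valuation_p_lt_one P hP
  have hℓ0 := valuation_p_ne_zero hp P
  have hn1 : 1 ≤ n := by
    by_contra h
    have h : n ≤ 0 := by omega
    have : 1 ≤ P.valuation (p : Qb) ^ n := one_le_zpow_of_nonpos₀ (zero_lt_iff.mpr hℓ0) hℓ1.le h
    rw [← hn] at this
    exact absurd hz (not_lt.mpr this)
  rw [← P.valuation_le_one_iff, map_div₀, div_le_one₀ (zero_lt_iff.mpr hℓ0), hn]
  calc P.valuation (p : Qb) ^ n ≤ P.valuation (p : Qb) ^ (1 : ℤ) :=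
        zpow_le_zpow_right_of_le_one₀ (zero_lt_iff.mpr hℓ0) hℓ1.le hn1
    _ = P.valuation (p : Qb) := zpow_one _

/-- the inertia-fixed integers are `p`-adically separated. -/
theorem eq_zero_of_fixed_of_forall_dvd {z : Qb}
    (hfix : ∀ σ ∈ P.inertiaSubgroupIn ℚ, σ z = z)
    (hdiv : ∀ n : ℕ, ∃ v : Qb, v ∈ P ∧ z = (p : Qb) ^ n * v) : z = 0 := by
  by_contra hz0
  obtain ⟨m, hm⟩ := Fermat.Agent.S13.valuation_eq_zpow_of_inertia_fixed P hp hP hz0 hfix
  have hℓ1 := valuation_p_lt_one P hP
  have hℓ0 := valuation_p_ne_zero hp P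
  obtain ⟨v, hvP, hzv⟩ := hdiv (m.toNat + 1)
  have h1 : P.valuation z ≤ P.valuation (p : Qb) ^ (m.toNat + 1) := by
    rw [hzv, map_mul, map_pow]
    calc P.valuation (p : Qb) ^ (m.toNat + 1) * P.valuation v
        ≤ P.valuation (p : Qb) ^ (m.toNat + 1) * 1 :=
          mul_le_mul_right ((P.valuation_le_one_iff v).mpr hvP) _
      _ = _ := mul_one _
  rw [hm, ← zpow_natCast] at h1
  have h2 : ((m.toNat + 1 : ℕ) : ℤ) ≤ m := by
    by_contra h
    rw [not_le] at h
    have := zpow_lt_zpow_right_of_lt_one₀ (zero_lt_iff.mpr hℓ0) hℓ1 h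
    exact absurd h1 (not_le.mpr this)
  have h3 : m ≤ (m.toNat : ℤ) := Int.self_le_toNat m
  push_cast at h2
  omega

end FixedInt

/-! ### Rigidity for inertia-fixed points -/

section RigUnr

variable {R H : Type*} [CommRing R] [Algebra R Qb] [Ring H] [Bialgebra R H]

/-- **RIG-unr.**  `p` odd, `P | p`, `x` a `Qb`-point of `H` with `x ^ p = 1`, integral at `P`,
fixed by the inertia group of `P` and reducing to the unit section modulo the maximal ideal of `P`.
Then `x = 1`. -/
theorem eq_one_of_inertia_fixed {p : ℕ} (hp : p.Prime) (hp2 : p ≠ 2)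
    (P : ValuationSubring Qb) (hP : P.LiesOverPrime p)
    (hRP : ∀ r : R, algebraMap R Qb r ∈ P)
    (hRfix : ∀ σ ∈ P.inertiaSubgroupIn ℚ, ∀ r : R, σ (algebraMap R Qb r) = algebraMap R Qb r)
    (x : WithConv (H →ₐ[R] Qb)) (hx : x ^ p = 1)
    (hint : ∀ h : H, x h ∈ P)
    (hfix : ∀ σ ∈ P.inertiaSubgroupIn ℚ, ∀ h : H, σ (x h) = x h)
    (hred : ∀ h : H, P.valuation (x h - algebraMap R Qb (counit h)) < 1) : x = 1 := by
  classical
  set 𝔅 := fixedInt P hRP hRfix with h𝔅
  have hmem : ∀ h : H, x h ∈ 𝔅 := fun h => ⟨hint h, fun σ hσ => hfix σ hσ h⟩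
  set x' : WithConv (H →ₐ[R] 𝔅) := toConv (x.ofConv.codRestrict 𝔅 hmem) with hx'
  have hxx' : postComp 𝔅.val x' = x := by
    apply ofConv_injective
    apply AlgHom.ext
    intro h
    rfl
  have hinj : Function.Injective (postComp (H := H) 𝔅.val) :=
    postComp_injective Subtype.val_injective
  have hx'p : x' ^ p = 1 := by
    apply hinj
    rw [map_pow, hxx', hx, map_one]
  have hpQ : (p : Qb) ≠ 0 := Nat.cast_ne_zero.mpr hp.ne_zero
  have htf : ∀ w : 𝔅, p • w = 0 → w = 0 := by
    intro w hw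
    apply Subtype.ext
    have h1 : p • (w : Qb) = 0 := by
      have := congrArg (Subtype.val : 𝔅 → Qb) hw
      simpa using this
    rw [nsmul_eq_mul] at h1
    rcases mul_eq_zero.mp h1 with h | h
    · exact absurd h hpQ
    · exact h
  have hsep : ∀ w : 𝔅, (∀ n : ℕ, ∃ v : 𝔅, w = p ^ n • v) → w = 0 := by
    intro w hw
    apply Subtype.ext
    apply eq_zero_of_fixed_of_forall_dvd hp P hP w.2.2
    intro n
    obtain ⟨v, hv⟩ := hw n
    refine ⟨v, v.2.1, ?_⟩
    have := congrArg (Subtype.val : 𝔅 → Qb) hv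
    simpa [nsmul_eq_mul] using this
  have hcong : ∀ h : H, ∃ w : 𝔅, x' h - algebraMap R 𝔅 (counit h) = p • w := by
    intro h
    set z : Qb := x h - algebraMap R Qb (counit h) with hz
    have hzfix : ∀ σ ∈ P.inertiaSubgroupIn ℚ, σ z = z := by
      intro σ hσ
      rw [hz, map_sub, hfix σ hσ h, hRfix σ hσ]
    have hzP : z / (p : Qb) ∈ P := div_p_mem_of_fixed hp P hP (hred h) hzfix
    refine ⟨⟨z / (p : Qb), hzP, fun σ hσ => by rw [map_div₀, hzfix σ hσ, map_natCast]⟩, ?_⟩
    apply Subtype.ext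
    show x h - algebraMap R Qb (counit h) = _
    have : ((p • (⟨z / (p : Qb), hzP, fun σ hσ => by
      rw [map_div₀, hzfix σ hσ, map_natCast]⟩ : 𝔅) : 𝔅) : Qb) = p • (z / (p : Qb)) := rfl
    rw [this, nsmul_eq_mul, mul_div_cancel₀ _ hpQ]
  have h1 := eq_one_of_pow_eq_one_of_congr hp hp2 htf hsep x' hx'p hcong
  rw [← hxx', h1, map_one]

end RigUnr

end Fermat.Agent.TW.Hopf.PointsInertia
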