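import Mathlib
import Fermat.Agent.TW.Font.PRoot
import Fermat.Agent.TW.Hopf.Rigidity

/-!
# Rigidity, ramified form (S56 design sprint, node `Hopf RigidityRam`, helper5)

`a b : B` with `a ^ (p - 1) = p * b` (think `a = ϖ ^ m`, `v(a) > v(p) / (p - 1)`, `b = a ^ (p-1) / p`
a non-unit), `p * a` regular on `B`, `B` separated for the `(a, b)`-adic topology.
Then a `B`-point `x` of a cocommutative bialgebra with `x ^ p = 1` and `x ≡ 1 mod a B` is `1`,
and reduction modulo `a B` is injective on `p`-torsion points of a cocommutative Hopf algebra.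

No completeness and no Jacobson-radical hypothesis: the unit argument of `PRoot.eq_of_pow_eq` is
replaced by the iteration `y = c y`, `c ∈ (a, b)`, and separatedness.  No `p ≠ 2`.
Mathlib + `TW/Font/PRoot` (the binomial normal form) + `TW/Hopf/Rigidity` (`lin`, `evalAt`, `pinv`).
-/

set_option autoImplicit false

namespace Fermat.Agent.TW.Hopf.RigidityRam

open Fermat.Agent.TW.Font Fermat.Agent.TW.Hopf.Rigidity

/-! ### The ring lemma, separated form -/

section Ring

variable {C : Type*} [CommRing C]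

/-- `(1 + a y) ^ p = 1`, `a ^ (p-1) = p b`, `p a` regular, `C` separated for `(a, b)` ⟹ `y = 0`
(`p = n + 2`). -/
theorem eq_zero_of_one_add_mul_pow_eq_one_succ {n : ℕ} (hp : (n + 2).Prime) {a b : C}
    (hab : a ^ (n + 1) = ((n + 2 : ℕ) : C) * b)
    (hreg : ∀ x : C, ((n + 2 : ℕ) : C) * a * x = 0 → x = 0)
    (hsep : ∀ y : C, (∀ k : ℕ, y ∈ (Ideal.span {a, b} : Ideal C) ^ k) → y = 0) {y : C}
    (h : (1 + a * y) ^ (n + 2) = 1) : y = 0 := by
  rw [PRoot.one_add_mul_pow_eq hp hab] at h
  have h0 : ((n + 2 : ℕ) : C) * a * (y + a * (y * PRoot.q1 n a y) + b * y ^ (n + 2)) = 0 := by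
    have h1 : (1 : C) + ((n + 2 : ℕ) : C) * a * (y + a * (y * PRoot.q1 n a y) + b * y ^ (n + 2))
        = 1 + 0 := by rw [add_zero]; exact h
    exact add_left_cancel h1
  have h1 := hreg _ h0
  set c : C := -(a * PRoot.q1 n a y + b * y ^ (n + 1)) with hc
  have hy : y = c * y := by
    have : c * y = y - (y + a * (y * PRoot.q1 n a y) + b * y ^ (n + 2)) := by
      rw [hc]; ring
    rw [this, h1, sub_zero]
  have hcJ : c ∈ (Ideal.span {a, b} : Ideal C) := by
    rw [hc]
    refine Ideal.neg_mem_iff _ |>.mpr (Ideal.add_mem _ ?_ ?_)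
    · exact Ideal.mul_mem_right _ _ (Ideal.subset_span (by simp))
    · exact Ideal.mul_mem_right _ _ (Ideal.subset_span (by simp))
  apply hsep
  intro k
  induction k with
  | zero => simp
  | succ k ih =>
    rw [hy, pow_succ']
    exact Ideal.mul_mem_mul hcJ ih

/-- the same for a prime `p`. -/
theorem eq_zero_of_one_add_mul_pow_eq_one {p : ℕ} (hp : p.Prime) {a b : C}
    (hab : a ^ (p - 1) = (p : C) * b)
    (hreg : ∀ x : C, (p : C) * a * x = 0 → x = 0)
    (hsep : ∀ y : C, (∀ k : ℕ, y ∈ (Ideal.span {a, b} : Ideal C) ^ k) → y = 0) {y : C}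
    (h : (1 + a * y) ^ p = 1) : y = 0 := by
  obtain ⟨n, rfl⟩ := PRoot.exists_eq_add_two hp
  exact eq_zero_of_one_add_mul_pow_eq_one_succ hp (by simpa using hab) hreg hsep h

end Ring

/-! ### Linear maps with values in an ideal -/

section ValIdeal

open Coalgebra WithConv TensorProduct

variable {R H B : Type*} [CommRing R] [Ring H] [Bialgebra R H] [CommRing B] [Algebra R B]

/-- convolution is filtered by the ideals of values. -/
theorem convMul_apply_mem {I J : Ideal B} {f g : WithConv (H →ₗ[R] B)}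
    (hf : ∀ h, evalAt h f ∈ I) (hg : ∀ h, evalAt h g ∈ J) (h : H) :
    evalAt h (f * g) ∈ I * J := by
  have key : ∀ t : H ⊗[R] H,
      LinearMap.mul' R B (TensorProduct.map f.ofConv g.ofConv t) ∈ I * J := by
    intro t
    induction t with
    | zero => simp
    | tmul u v =>
      rw [TensorProduct.map_tmul, LinearMap.mul'_apply]
      exact Ideal.mul_mem_mul (hf u) (hg v)
    | add s t hs ht =>
      rw [map_add, map_add]
      exact Ideal.add_mem _ hs ht
  exact key (comul h)

/-- The (left) ideal of the convolution ring of the maps with values in `J`. -/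
def valIdeal (J : Ideal B) : Ideal (WithConv (H →ₗ[R] B)) where
  carrier := {f | ∀ h, evalAt h f ∈ J}
  add_mem' {f g} hf hg h := by rw [map_add]; exact J.add_mem (hf h) (hg h)
  zero_mem' h := by rw [map_zero]; exact J.zero_mem
  smul_mem' c f hf h := by
    have := convMul_apply_mem (I := ⊤) (J := J) (f := c) (g := f) (fun _ => trivial) hf h
    rw [Ideal.top_mul] at this
    exact this

theorem mem_valIdeal {J : Ideal B} {f : WithConv (H →ₗ[R] B)} :
    f ∈ valIdeal (R := R) (H := H) J ↔ ∀ h, evalAt h f ∈ J := Iff.rfl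

theorem mul_mem_valIdeal_mul {I J : Ideal B} {f g : WithConv (H →ₗ[R] B)}
    (hf : f ∈ valIdeal I) (hg : g ∈ valIdeal J) : f * g ∈ valIdeal (I * J) :=
  fun h => convMul_apply_mem hf hg h

theorem mul_mem_valIdeal_left {J : Ideal B} {f : WithConv (H →ₗ[R] B)} (hf : f ∈ valIdeal J)
    (g : WithConv (H →ₗ[R] B)) : f * g ∈ valIdeal J := by
  intro h
  have := convMul_apply_mem (I := J) (J := ⊤) (f := f) (g := g) hf (fun _ => trivial) h
  rwa [Ideal.mul_top] at this

theorem evalAt_algebraMap_mul (s : B) (f : WithConv (H →ₗ[R] B)) (h : H) :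
    evalAt h (algebraMap B (WithConv (H →ₗ[R] B)) s * f) = s * evalAt h f := by
  rw [← Algebra.smul_def]
  rfl

theorem algebraMap_mem_valIdeal {J : Ideal B} {s : B} (hs : s ∈ J) :
    algebraMap B (WithConv (H →ₗ[R] B)) s ∈ valIdeal (R := R) (H := H) J := by
  intro h
  have : evalAt h (algebraMap B (WithConv (H →ₗ[R] B)) s) = s * algebraMap R B (counit h) := by
    rw [← mul_one (algebraMap B (WithConv (H →ₗ[R] B)) s), evalAt_algebraMap_mul, evalAt_one]
  rw [this]
  exact J.mul_mem_right _ hs

end ValIdeal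

section ValIdealComm

open Coalgebra WithConv

variable {R H B : Type*} [CommRing R] [Ring H] [Bialgebra R H] [IsCocomm R H] [CommRing B]
  [Algebra R B]

theorem pow_valIdeal_le (J : Ideal B) (k : ℕ) :
    (valIdeal (R := R) (H := H) J) ^ k ≤ valIdeal (J ^ k) := by
  induction k with
  | zero =>
    intro f _ h
    simp
  | succ k ih =>
    rw [pow_succ, pow_succ]
    rw [Ideal.mul_le]
    intro f hf g hg
    exact mul_mem_valIdeal_mul (ih hf) hg

omit [IsCocomm R H] in
theorem span_pair_le_valIdeal (a b : B) :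
    (Ideal.span {algebraMap B (WithConv (H →ₗ[R] B)) a, algebraMap B (WithConv (H →ₗ[R] B)) b} :
      Ideal (WithConv (H →ₗ[R] B))) ≤ valIdeal (Ideal.span {a, b}) := by
  rw [Ideal.span_le]
  rintro f (rfl | rfl)
  · exact algebraMap_mem_valIdeal (Ideal.subset_span (by simp))
  · exact algebraMap_mem_valIdeal (Ideal.subset_span (by simp))

end ValIdealComm

/-! ### Points -/

section Points

open Coalgebra WithConv

variable {R H B : Type*} [CommRing R] [Ring H] [Bialgebra R H] [IsCocomm R H] [CommRing B]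
  [Algebra R B] {p : ℕ}

/-- **Rigidity, ramified form.**  `a ^ (p-1) = p b`, `p a` regular on `B`, `B` separated for
`(a, b)`.  A `B`-point `x` of the cocommutative bialgebra `H` with `x ^ p = 1`, congruent to the unit
section modulo `a B`, is the unit section. -/
theorem eq_one_of_pow_eq_one_of_congr_ram (hp : p.Prime) {a b : B}
    (hab : a ^ (p - 1) = (p : B) * b)
    (hreg : ∀ w : B, (p : B) * a * w = 0 → w = 0)
    (hsep : ∀ w : B, (∀ k : ℕ, w ∈ (Ideal.span {a, b} : Ideal B) ^ k) → w = 0)
    (x : WithConv (H →ₐ[R] B)) (hx : x ^ p = 1)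
    (hcong : ∀ h : H, ∃ w : B, x h - algebraMap R B (counit h) = a * w) : x = 1 := by
  classical
  -- `a` is regular
  have hrega : ∀ u v : B, a * u = a * v → u = v := by
    intro u v huv
    have : (p : B) * a * (u - v) = 0 := by rw [mul_sub, mul_assoc, mul_assoc, huv, sub_self]
    exact sub_eq_zero.mp (hreg _ this)
  -- `lin x = 1 + a' * y`
  choose w hw using hcong
  have hadd : ∀ u v : H, w (u + v) = w u + w v := by
    intro u v
    apply hrega
    rw [mul_add, ← hw, ← hw, ← hw, map_add, map_add, map_add]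
    ring
  have hsmul : ∀ (c : R) (u : H), w (c • u) = (RingHom.id R c) • w u := by
    intro c u
    apply hrega
    rw [← hw, RingHom.id_apply, mul_smul_comm, ← hw, map_smul, map_smul, smul_sub,
      Algebra.smul_def c (algebraMap R B (counit u)), ← map_mul, smul_eq_mul]
  set y : WithConv (H →ₗ[R] B) := toConv { toFun := w, map_add' := hadd, map_smul' := hsmul }
    with hy
  set a' := algebraMap B (WithConv (H →ₗ[R] B)) a with ha'
  set b' := algebraMap B (WithConv (H →ₗ[R] B)) b with hb'
  have hlin : lin x = 1 + a' * y := by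
    apply conv_ext
    intro h
    rw [map_add, evalAt_lin, evalAt_one, ha', evalAt_algebraMap_mul]
    have : evalAt h y = w h := rfl
    rw [this, ← hw]
    ring
  have hpow : (1 + a' * y) ^ p = 1 := by rw [← hlin, ← lin_pow, hx, lin_one]
  have hab' : a' ^ (p - 1) = (p : WithConv (H →ₗ[R] B)) * b' := by
    rw [ha', hb', ← map_pow, hab, map_mul, map_natCast]
  have hreg' : ∀ f : WithConv (H →ₗ[R] B), (p : WithConv (H →ₗ[R] B)) * a' * f = 0 → f = 0 := by
    intro f hf
    apply conv_ext
    intro h
    rw [map_zero]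
    apply hreg
    have h1 : (p : WithConv (H →ₗ[R] B)) * a' = algebraMap B _ ((p : B) * a) := by
      rw [map_mul, map_natCast]
    rw [h1] at hf
    have := congrArg (evalAt h) hf
    rwa [evalAt_algebraMap_mul, map_zero] at this
  have hsep' : ∀ f : WithConv (H →ₗ[R] B),
      (∀ k : ℕ, f ∈ (Ideal.span {a', b'} : Ideal (WithConv (H →ₗ[R] B))) ^ k) → f = 0 := by
    intro f hf
    apply conv_ext
    intro h
    rw [map_zero]
    apply hsep
    intro k
    exact pow_valIdeal_le _ k (Ideal.pow_right_mono (span_pair_le_valIdeal a b) k (hf k)) h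
  have hy0 : y = 0 := eq_zero_of_one_add_mul_pow_eq_one hp hab' hreg' hsep' hpow
  apply lin_injective
  rw [hlin, hy0, mul_zero, add_zero, lin_one]

end Points

section Points2

open Coalgebra WithConv

variable {R H B : Type*} [CommRing R] [CommRing H] [HopfAlgebra R H] [IsCocomm R H] [CommRing B]
  [Algebra R B] {p : ℕ}

omit [IsCocomm R H] in
theorem lin_mul (x y : WithConv (H →ₐ[R] B)) : lin (x * y) = lin x * lin y :=
  AlgHom.toLinearMap_convMul x y

/-- two points congruent modulo an ideal `J`: `x y⁻¹` is congruent to the unit section. -/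
theorem mul_pinv_congr {J : Ideal B} (x y : WithConv (H →ₐ[R] B))
    (hxy : ∀ h : H, x h - y h ∈ J) (h : H) :
    (x * pinv y) h - algebraMap R B (counit h) ∈ J := by
  have h1 : lin (x * pinv y) - 1 = (lin x - lin y) * lin (pinv y) := by
    rw [sub_mul, ← lin_mul, ← lin_mul, mul_pinv_cancel, lin_one]
  have h2 : lin x - lin y ∈ valIdeal (R := R) (H := H) J := by
    intro h
    rw [map_sub, evalAt_lin, evalAt_lin]
    exact hxy h
  have h3 := mul_mem_valIdeal_left h2 (lin (pinv y)) h
  rw [← h1, map_sub, evalAt_lin, evalAt_one] at h3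
  exact h3

/-- **Injectivity of reduction modulo `a B` on `p`-torsion points** (`a ^ (p-1) = p b`, …). -/
theorem eq_of_pow_eq_one_of_congr_ram (hp : p.Prime) {a b : B}
    (hab : a ^ (p - 1) = (p : B) * b)
    (hreg : ∀ w : B, (p : B) * a * w = 0 → w = 0)
    (hsep : ∀ w : B, (∀ k : ℕ, w ∈ (Ideal.span {a, b} : Ideal B) ^ k) → w = 0)
    (x y : WithConv (H →ₐ[R] B)) (hx : x ^ p = 1) (hy : y ^ p = 1)
    (hcong : ∀ h : H, ∃ w : B, x h - y h = a * w) : x = y := by
  have hcomm : ∀ u v : WithConv (H →ₐ[R] B), u * v = v * u := by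
    intro u v
    apply lin_injective
    rw [lin_mul, lin_mul, mul_comm]
  have hpy : (pinv y) ^ p = 1 := by
    have h1 : (pinv y) ^ p * y ^ p = 1 := by
      rw [← (show Commute (pinv y) y from hcomm _ _).mul_pow, pinv_mul_cancel, one_pow]
    rwa [hy, mul_one] at h1
  have hz : (x * pinv y) ^ p = 1 := by
    rw [(show Commute x (pinv y) from hcomm _ _).mul_pow, hx, hpy, one_mul]
  have hc : ∀ h : H, ∃ w : B, (x * pinv y) h - algebraMap R B (counit h) = a * w := by
    intro h
    have hxyJ : ∀ h : H, x h - y h ∈ (Ideal.span {a} : Ideal B) := by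
      intro h
      obtain ⟨w, hw⟩ := hcong h
      rw [hw]
      exact Ideal.mul_mem_right _ _ (Ideal.subset_span (Set.mem_singleton a))
    have := mul_pinv_congr x y hxyJ h
    obtain ⟨w, hw⟩ := Ideal.mem_span_singleton'.mp this
    exact ⟨w, by rw [← hw, mul_comm]⟩
  have h1 := eq_one_of_pow_eq_one_of_congr_ram hp hab hreg hsep (x * pinv y) hz hc
  calc x = x * (pinv y * y) := by rw [pinv_mul_cancel, mul_one]
    _ = (x * pinv y) * y := (mul_assoc _ _ _).symm
    _ = y := by rw [h1, one_mul]

end Points2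

end Fermat.Agent.TW.Hopf.RigidityRam
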