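import Mathlib
import Fermat.Prelude.Def_GaloisRep_Flat
import Fermat.Agent.TW.Hopf.PointsInertia
import Fermat.Agent.TW.Hopf.RigidityRam

/-!
# Reduction of points modulo a place (S56 design sprint, F2-core, helper5)

`Qb = AlgebraicClosure ℚ`, `P` a valuation subring of `Qb` over `p`, `D` a subgroup of `G_ℚ`
(`D = ⊤`, or `D` the decomposition group of `P`), `R` a ring mapping to the
`D`-fixed elements of `P` (`R = ℤ_(p) = GaloisRep.ratLocalizedAt p` and `D = ⊤`: `ratLoc_mem`,
`ratLoc_fixed`; or `R` the valuation ring of the decomposition field),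
`H` a commutative cocommutative Hopf algebra, integral over `R`.

* `apply_mem` : points have values in `P`.
* `galAct σ` (`σ : D`) : the Galois action on points, a monoid automorphism.
* `Red P x y` : `x ≡ y` modulo the maximal ideal of `P`;  `conn P` : the submonoid of the points
  reducing to the unit section ("the connected part").
* `red_galAct_of_mem_inertia` : inertia moves every point inside its residue class.
* `mul_pinv_mem_conn`, `pinv_mem_conn`, `galAct_mem_conn` (decomposition group).
* `eq_one_of_mem_conn_of_fixed` : **RIG-unr** in this language.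
-/

set_option autoImplicit false
set_option linter.unusedSectionVars false

namespace Fermat.Agent.TW.Hopf.PointsReduction

open Coalgebra WithConv Fermat.Agent.TW.Hopf.Rigidity Fermat.Agent.TW.Hopf.RigidityRam
  Fermat.Agent.TW.Hopf.PointsInertia

local notation "Qb" => AlgebraicClosure ℚ
local notation "GQ" => (AlgebraicClosure ℚ ≃ₐ[ℚ] AlgebraicClosure ℚ)

/-! ### `ℤ_(p)` maps to the fixed integers -/

section RatLoc

variable {p : ℕ}

theorem ratLoc_fixed {D : Subgroup GQ} (σ : D) (r : GaloisRep.ratLocalizedAt p) :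
    (σ : GQ) (algebraMap (GaloisRep.ratLocalizedAt p) Qb r)
      = algebraMap (GaloisRep.ratLocalizedAt p) Qb r :=
  (σ : GQ).commutes (r : ℚ)

theorem ratLoc_mem (hp : p.Prime) (P : ValuationSubring Qb) (hP : P.LiesOverPrime p)
    (r : GaloisRep.ratLocalizedAt p) : algebraMap (GaloisRep.ratLocalizedAt p) Qb r ∈ P := by
  rw [← P.valuation_le_one_iff]
  show P.valuation (algebraMap ℚ Qb (r : ℚ)) ≤ 1
  have hden : ¬ ((p : ℤ) ∣ ((r : ℚ).den : ℤ)) := by
    intro h
    have h1 : p ∣ (r : ℚ).den := Int.natCast_dvd_natCast.mp h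
    have h2 : p ∣ Nat.gcd (r : ℚ).den p := Nat.dvd_gcd h1 dvd_rfl
    rw [r.2] at h2
    exact hp.one_lt.ne' (Nat.dvd_one.mp h2)
  have h1 : P.valuation (((r : ℚ).den : ℤ) : Qb) = 1 :=
    Fermat.Agent.S05.valuation_intCast_eq_one_of_not_dvd P hp hP hden
  have h2 : P.valuation (((r : ℚ).num : ℤ) : Qb) ≤ 1 := Fermat.Agent.S05.valuation_intCast_le_one P _
  have h3 : algebraMap ℚ Qb (r : ℚ) = (((r : ℚ).num : ℤ) : Qb) / (((r : ℚ).den : ℤ) : Qb) := by
    conv_lhs => rw [← Rat.num_div_den (r : ℚ)]
    rw [map_div₀]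
    simp
  rw [h3, map_div₀, h1, div_one]
  exact h2

end RatLoc

/-! ### Integrality of the values of a point -/

section Integral

variable {R : Type*} [CommRing R] [Algebra R Qb]

theorem mem_of_isIntegral (P : ValuationSubring Qb) (hRP : ∀ r : R, algebraMap R Qb r ∈ P) {z : Qb}
    (hz : IsIntegral R z) : z ∈ P := by
  obtain ⟨f, hmonic, hf⟩ := hz
  let φ : R →+* P := (algebraMap R Qb).codRestrict P.toSubring hRP
  have hφ : (algebraMap P Qb).comp φ = algebraMap R Qb := by
    ext r
    rfl
  have hint : IsIntegral P z := by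
    refine ⟨f.map φ, hmonic.map φ, ?_⟩
    rw [Polynomial.eval₂_map, hφ]
    exact hf
  obtain ⟨y, hy⟩ := IsIntegrallyClosed.isIntegral_iff.mp hint
  rw [← hy]
  exact y.2

variable {H : Type*} [Ring H] [Bialgebra R H] [Algebra.IsIntegral R H]

theorem apply_mem (P : ValuationSubring Qb) (hRP : ∀ r : R, algebraMap R Qb r ∈ P)
    (x : WithConv (H →ₐ[R] Qb)) (h : H) : x h ∈ P :=
  mem_of_isIntegral P hRP ((Algebra.IsIntegral.isIntegral (R := R) h).map x.ofConv)

end Integral

/-! ### Galois action on points -/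

section GalAct

variable {R : Type*} [CommRing R] [Algebra R Qb] {D : Subgroup GQ}
  (hRfix : ∀ (σ : D) (r : R), (σ : GQ) (algebraMap R Qb r) = algebraMap R Qb r)
  {H : Type*} [Ring H] [Bialgebra R H]

/-- an element of `D ≤ G_ℚ` as an `R`-algebra endomorphism of `Qb`. -/
noncomputable def sigmaHom (σ : D) : Qb →ₐ[R] Qb :=
  { ((σ : GQ) : Qb →+* Qb) with commutes' := hRfix σ }

theorem sigmaHom_apply (σ : D) (z : Qb) : sigmaHom hRfix σ z = (σ : GQ) z := rfl

/-- the Galois action on points. -/
noncomputable def galAct (σ : D) : WithConv (H →ₐ[R] Qb) →* WithConv (H →ₐ[R] Qb) :=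
  postComp (sigmaHom hRfix σ)

theorem galAct_apply (σ : D) (x : WithConv (H →ₐ[R] Qb)) (h : H) :
    galAct hRfix σ x h = (σ : GQ) (x h) := rfl

theorem galAct_eq_toConv (σ : D) (x : WithConv (H →ₐ[R] Qb)) :
    galAct hRfix σ x = toConv ((sigmaHom hRfix σ).comp x.ofConv) := rfl

/-- the characterisation used in the Prelude's `IsFlatAt`. -/
theorem eq_galAct_of_forall {σ : D} {f g : WithConv (H →ₐ[R] Qb)}
    (hfg : ∀ h : H, g h = (σ : GQ) (f h)) : g = galAct hRfix σ f := by
  apply ofConv_injective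
  apply AlgHom.ext
  intro h
  exact hfg h

theorem galAct_one (x : WithConv (H →ₐ[R] Qb)) : galAct hRfix (1 : D) x = x := by
  apply ofConv_injective
  apply AlgHom.ext
  intro h
  rfl

theorem galAct_mul (σ τ : D) (x : WithConv (H →ₐ[R] Qb)) :
    galAct hRfix (σ * τ) x = galAct hRfix σ (galAct hRfix τ x) := by
  apply ofConv_injective
  apply AlgHom.ext
  intro h
  rfl

end GalAct

/-! ### Congruence of points modulo the maximal ideal of `P` -/

section Red

variable {R : Type*} [CommRing R] [Algebra R Qb] {H : Type*} [CommRing H] [HopfAlgebra R H]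
  [IsCocomm R H] [Algebra.IsIntegral R H]

/-- `x ≡ y` modulo the maximal ideal of `P`. -/
def Red (P : ValuationSubring Qb) (x y : WithConv (H →ₐ[R] Qb)) : Prop :=
  ∀ h : H, P.valuation (x h - y h) < 1

omit [IsCocomm R H] [Algebra.IsIntegral R H] in
theorem Red.refl (P : ValuationSubring Qb) (x : WithConv (H →ₐ[R] Qb)) : Red P x x := by
  intro h
  rw [sub_self, map_zero]
  exact zero_lt_one

omit [IsCocomm R H] [Algebra.IsIntegral R H] in
theorem Red.symm {P : ValuationSubring Qb} {x y : WithConv (H →ₐ[R] Qb)} (hxy : Red P x y) :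
    Red P y x := by
  intro h
  rw [← neg_sub, Valuation.map_neg]
  exact hxy h

omit [IsCocomm R H] [Algebra.IsIntegral R H] in
theorem Red.trans {P : ValuationSubring Qb} {x y z : WithConv (H →ₐ[R] Qb)} (hxy : Red P x y)
    (hyz : Red P y z) : Red P x z := by
  intro h
  have : x h - z h = (x h - y h) + (y h - z h) := by ring
  rw [this]
  exact lt_of_le_of_lt (Valuation.map_add _ _ _) (max_lt (hxy h) (hyz h))

variable (P : ValuationSubring Qb) (hRP : ∀ r : R, algebraMap R Qb r ∈ P)

/-- `P` as an `R`-subalgebra of `Qb`. -/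
def intSubalg : Subalgebra R Qb where
  carrier := {z | z ∈ P}
  mul_mem' ha hb := P.mul_mem _ _ ha hb
  add_mem' ha hb := P.add_mem _ _ ha hb
  algebraMap_mem' r := hRP r

/-- the maximal ideal of `P`, as an ideal of `intSubalg P`. -/
def maxIdeal : Ideal (intSubalg P hRP) where
  carrier := {z | P.valuation (z : Qb) < 1}
  add_mem' {a b} ha hb := by
    show P.valuation ((a : Qb) + (b : Qb)) < 1
    exact lt_of_le_of_lt (Valuation.map_add _ _ _) (max_lt ha hb)
  zero_mem' := by
    show P.valuation (0 : Qb) < 1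
    rw [map_zero]; exact zero_lt_one
  smul_mem' c a ha := by
    show P.valuation ((c : Qb) * (a : Qb)) < 1
    rw [map_mul]
    have hc : P.valuation (c : Qb) ≤ 1 := (P.valuation_le_one_iff _).mpr c.2
    calc P.valuation (c : Qb) * P.valuation (a : Qb) ≤ 1 * P.valuation (a : Qb) :=
          mul_le_mul_left hc _
      _ = P.valuation (a : Qb) := one_mul _
      _ < 1 := ha

/-- a point, with values restricted to `P`. -/
noncomputable def toInt (x : WithConv (H →ₐ[R] Qb)) : WithConv (H →ₐ[R] intSubalg P hRP) :=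
  toConv (x.ofConv.codRestrict (intSubalg P hRP) (fun h => apply_mem P hRP x h))

theorem postComp_toInt (x : WithConv (H →ₐ[R] Qb)) :
    postComp (intSubalg P hRP).val (toInt P hRP x) = x := by
  apply ofConv_injective
  apply AlgHom.ext
  intro h
  rfl

theorem toInt_apply (x : WithConv (H →ₐ[R] Qb)) (h : H) : ((toInt P hRP x h : intSubalg P hRP) : Qb) = x h :=
  rfl

theorem toInt_injective : Function.Injective (toInt (H := H) P hRP) := by
  intro x y hxy
  rw [← postComp_toInt P hRP x, ← postComp_toInt P hRP y, hxy]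

theorem toInt_mul (x y : WithConv (H →ₐ[R] Qb)) :
    toInt P hRP (x * y) = toInt P hRP x * toInt P hRP y := by
  apply postComp_injective (H := H) (φ := (intSubalg P hRP).val) Subtype.val_injective
  rw [map_mul, postComp_toInt, postComp_toInt, postComp_toInt]

theorem toInt_one : toInt (H := H) P hRP 1 = 1 := by
  apply postComp_injective (H := H) (φ := (intSubalg P hRP).val) Subtype.val_injective
  rw [map_one, postComp_toInt]

theorem toInt_pinv (x : WithConv (H →ₐ[R] Qb)) : toInt P hRP (pinv x) = pinv (toInt P hRP x) := by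
  apply ofConv_injective
  apply AlgHom.ext
  intro h
  rfl

theorem red_iff (x y : WithConv (H →ₐ[R] Qb)) :
    Red P x y ↔ ∀ h : H, toInt P hRP x h - toInt P hRP y h ∈ maxIdeal P hRP := Iff.rfl

/-- the points reducing to the unit section: "the connected part". -/
def conn : Submonoid (WithConv (H →ₐ[R] Qb)) where
  carrier := {x | Red P x 1}
  one_mem' := Red.refl P 1
  mul_mem' {x y} hx hy := by
    -- `x y - 1 = (x - 1) y + (y - 1)`
    show Red P (x * y) 1
    rw [red_iff P hRP]
    intro h
    have h1 : lin (toInt P hRP (x * y)) - lin (toInt P hRP (1 : WithConv (H →ₐ[R] Qb)))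
        = (lin (toInt P hRP x) - 1) * lin (toInt P hRP y) + (lin (toInt P hRP y) - 1) := by
      rw [toInt_mul, toInt_one, lin_mul, lin_one]
      ring
    have h2 : lin (toInt P hRP x) - 1 ∈ valIdeal (R := R) (H := H) (maxIdeal P hRP) := by
      intro h
      rw [map_sub, evalAt_lin, evalAt_one]
      exact (red_iff P hRP x 1).mp hx h
    have h3 : lin (toInt P hRP y) - 1 ∈ valIdeal (R := R) (H := H) (maxIdeal P hRP) := by
      intro h
      rw [map_sub, evalAt_lin, evalAt_one]
      exact (red_iff P hRP y 1).mp hy h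
    have h4 := (valIdeal (R := R) (H := H) (maxIdeal P hRP)).add_mem
      (mul_mem_valIdeal_left h2 (lin (toInt P hRP y))) h3
    rw [← h1] at h4
    have h5 := h4 h
    rw [map_sub, evalAt_lin, evalAt_lin] at h5
    exact h5

theorem mem_conn {x : WithConv (H →ₐ[R] Qb)} : x ∈ conn P hRP ↔ Red P x 1 := Iff.rfl

/-- congruent points differ by an element of the connected part. -/
theorem mul_pinv_mem_conn {x y : WithConv (H →ₐ[R] Qb)} (hxy : Red P x y) :
    x * pinv y ∈ conn P hRP := by
  rw [mem_conn, red_iff P hRP]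
  intro h
  have := mul_pinv_congr (J := maxIdeal P hRP) (toInt P hRP x) (toInt P hRP y)
    ((red_iff P hRP x y).mp hxy) h
  rw [toInt_mul, toInt_pinv, toInt_one]
  exact this

theorem pinv_mem_conn {x : WithConv (H →ₐ[R] Qb)} (hx : x ∈ conn P hRP) : pinv x ∈ conn P hRP := by
  have h1 : Red P (1 : WithConv (H →ₐ[R] Qb)) x := Red.symm hx
  have := mul_pinv_mem_conn P hRP h1
  rwa [one_mul] at this

/-- conversely. -/
theorem red_of_mul_pinv_mem_conn {x y : WithConv (H →ₐ[R] Qb)} (hxy : x * pinv y ∈ conn P hRP) :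
    Red P x y := by
  -- `x - y = (x y⁻¹ - 1) y`
  rw [red_iff P hRP]
  intro h
  have h1 : lin (toInt P hRP x) - lin (toInt P hRP y)
      = (lin (toInt P hRP (x * pinv y)) - 1) * lin (toInt P hRP y) := by
    rw [sub_mul, one_mul, ← lin_mul, ← toInt_mul, mul_assoc, pinv_mul_cancel, mul_one]
  have h2 : lin (toInt P hRP (x * pinv y)) - 1 ∈ valIdeal (R := R) (H := H) (maxIdeal P hRP) := by
    intro h
    rw [map_sub, evalAt_lin, evalAt_one]
    exact (red_iff P hRP _ 1).mp hxy h
  have h3 := mul_mem_valIdeal_left h2 (lin (toInt P hRP y)) h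
  rw [← h1, map_sub, evalAt_lin, evalAt_lin] at h3
  exact h3

variable {D : Subgroup GQ}
  (hRfix : ∀ (σ : D) (r : R), (σ : GQ) (algebraMap R Qb r) = algebraMap R Qb r)

include hRP in
/-- **inertia moves every point inside its residue class.** -/
theorem red_galAct_of_mem_inertia {σ : D} (hσ : (σ : GQ) ∈ P.inertiaSubgroupIn ℚ)
    (x : WithConv (H →ₐ[R] Qb)) : Red P (galAct hRfix σ x) x := by
  intro h
  rw [galAct_apply]
  exact Fermat.Agent.S05.valuation_apply_sub_lt_one P hσ
    ((P.valuation_le_one_iff _).mpr (apply_mem P hRP x h))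

theorem galAct_mul_pinv_mem_conn {σ : D} (hσ : (σ : GQ) ∈ P.inertiaSubgroupIn ℚ)
    (x : WithConv (H →ₐ[R] Qb)) : galAct hRfix σ x * pinv x ∈ conn P hRP :=
  mul_pinv_mem_conn P hRP (red_galAct_of_mem_inertia P hRP hRfix hσ x)

/-- the decomposition group preserves congruences, hence the connected part. -/
theorem red_galAct {σ : D} (hσ : (σ : GQ) ∈ P.decompositionSubgroup ℚ)
    {x y : WithConv (H →ₐ[R] Qb)}
    (hxy : Red P x y) : Red P (galAct hRfix σ x) (galAct hRfix σ y) := by
  intro h
  rw [galAct_apply, galAct_apply, ← map_sub]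
  have h1 := (Fermat.Agent.S05.valuation_apply_lt_iff P hσ (x h - y h) 1).mpr
    (by rw [map_one]; exact hxy h)
  rwa [map_one, map_one] at h1

theorem galAct_mem_conn {σ : D} (hσ : (σ : GQ) ∈ P.decompositionSubgroup ℚ)
    {x : WithConv (H →ₐ[R] Qb)}
    (hx : x ∈ conn P hRP) : galAct hRfix σ x ∈ conn P hRP := by
  have := red_galAct P hRfix hσ hx
  rwa [map_one] at this

/-- **RIG-unr**: a point of the connected part, killed by `p` and fixed by inertia, is trivial. -/
theorem eq_one_of_mem_conn_of_fixed (hID : P.inertiaSubgroupIn ℚ ≤ D)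
    {p : ℕ} (hp : p.Prime) (hp2 : p ≠ 2) (hP : P.LiesOverPrime p)
    {x : WithConv (H →ₐ[R] Qb)} (hx : x ∈ conn P hRP) (hxp : x ^ p = 1)
    (hfix : ∀ σ : D, (σ : GQ) ∈ P.inertiaSubgroupIn ℚ → galAct hRfix σ x = x) : x = 1 := by
  refine eq_one_of_inertia_fixed hp hp2 P hP hRP (fun σ hσ r => hRfix ⟨σ, hID hσ⟩ r) x hxp
    (apply_mem P hRP x) ?_ hx
  intro σ hσ h
  have := congrArg (fun z : WithConv (H →ₐ[R] Qb) => z h) (hfix ⟨σ, hID hσ⟩ hσ)
  exact this

end Red

end Fermat.Agent.TW.Hopf.PointsReduction
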