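import Mathlib
import Fermat.Prelude.Def_GaloisRep_Flat
import Fermat.Agent.TW.Hopf.PointsReduction

/-!
# Flat models of Galois modules: the connected part (S56 design sprint, F2-core, helper5)

`D ≤ G_ℚ` a subgroup, `R` a ring mapping to the `D`-fixed elements of `Qb` (`hRfix`).
`FlatModel R hRfix V act` : a finite cocommutative Hopf algebra `H` over `R` with an additive,
`D`-equivariant bijection `H(Q̄) ≃ V`.  For `R = ℤ_(p)`, `D = ⊤` this is the datum of the Prelude's
`GaloisRepAdic.IsFlatAt` (`exists_flatModel_of_isFlatAt`); for `D` the decomposition group of `P`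
and `R` the valuation ring of the decomposition field it is the shape of helper11's
`Closure.IsFlatRealizable` (`FlatModel.ofComp`), stable under `D`-stable subquotients.

For `P | p` a valuation subring of `Q̄` containing the image of `R`, `M.V0 P : AddSubgroup V` is the
set of points reducing to the unit section modulo the maximal ideal of `P` ("connected part").
* `act_sub_mem_V0` : `(σ - 1) V ⊆ V⁰` for `σ ∈ D` in the inertia group of `P`;
* `act_mem_V0` : `V⁰` is stable under `σ ∈ D` in the decomposition group of `P`;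
* `eq_zero_of_mem_V0_of_fixed` (**RIG-unr**): an element of `V⁰` killed by `p` and fixed by inertia is
  `0` (`p` odd, `I_P ≤ D`);
* (i) `V0_inf_fixed`, (iii) `unramified_of_extension` (an extension of unramified by unramified
  carrying a flat model is unramified), (ii) `isCompl_V0` (an unramified subgroup `U` such that
  `V / U` is spanned by the `(σ - 1) V`, `σ` in inertia, has the `D_P`-stable complement `V⁰`).
-/

set_option autoImplicit false
set_option linter.unusedSectionVars false

namespace Fermat.Agent.TW.Hopf.Flat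

open Coalgebra WithConv Fermat.Agent.TW.Hopf.Rigidity Fermat.Agent.TW.Hopf.PointsInertia
  Fermat.Agent.TW.Hopf.PointsReduction

local notation "Qb" => AlgebraicClosure ℚ
local notation "GQ" => (AlgebraicClosure ℚ ≃ₐ[ℚ] AlgebraicClosure ℚ)

universe u

/-- A finite flat model over `R` of a `D`-set-with-addition `V`. -/
structure FlatModel (R : Type*) [CommRing R] [Algebra R Qb] {D : Subgroup GQ}
    (hRfix : ∀ (σ : D) (r : R), (σ : GQ) (algebraMap R Qb r) = algebraMap R Qb r)
    (V : Type*) [AddCommGroup V] (act : D → V → V) where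
  /-- the Hopf algebra -/
  H : Type u
  [instCommRing : CommRing H]
  [instHopf : HopfAlgebra R H]
  finite : Module.Finite R H
  cocomm : IsCocomm R H
  /-- points ≃ module -/
  e : WithConv (H →ₐ[R] Qb) ≃ V
  map_mul : ∀ f g : WithConv (H →ₐ[R] Qb), e (f * g) = e f + e g
  equivariant : ∀ (σ : D) (f : WithConv (H →ₐ[R] Qb)), e (galAct hRfix σ f) = act σ (e f)

attribute [instance] FlatModel.instCommRing FlatModel.instHopf

/-- the Prelude's `IsFlatAt` provides flat models of all finite levels, for every subgroup `D`. -/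
theorem exists_flatModel_of_isFlatAt {A : Type} [CommRing A] [IsLocalRing A] (ρ : GaloisRepAdic A)
    {p : ℕ} (hρ : ρ.IsFlatAt p) (I : Ideal A) (hI : Finite (A ⧸ I)) (D : Subgroup GQ) :
    Nonempty (FlatModel.{0} (GaloisRep.ratLocalizedAt p) (D := D) ratLoc_fixed
      (ρ.V ⧸ (I • (⊤ : Submodule A ρ.V))) (fun σ v => ρ.levelAction I (σ : GQ) v)) := by
  obtain ⟨H, iC, iH, hfin, -, hco, e, he1, he2⟩ := hρ.2 I hI
  exact ⟨{ H := H, finite := hfin, cocomm := hco, e := e, map_mul := he1,
           equivariant := fun σ f => he2 (σ : GQ) f _ (fun _ => rfl) }⟩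

namespace FlatModel

variable {R : Type*} [CommRing R] [Algebra R Qb] {D : Subgroup GQ}
  {hRfix : ∀ (σ : D) (r : R), (σ : GQ) (algebraMap R Qb r) = algebraMap R Qb r}
  {V : Type*} [AddCommGroup V] {act : D → V → V}

/-- constructor from the shape of helper11's `Closure.IsFlatRealizable`
(`Λ = R`, `Ω = Qb`, `G = D`, `φ σ = sigmaHom hRfix σ`). -/
def ofComp (H : Type u) [CommRing H] [HopfAlgebra R H] (hfin : Module.Finite R H)
    (hcc : IsCocomm R H) (e : WithConv (H →ₐ[R] Qb) ≃ V)
    (hadd : ∀ f g : WithConv (H →ₐ[R] Qb), e (f * g) = e f + e g)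
    (hact : ∀ (σ : D) (f : WithConv (H →ₐ[R] Qb)),
      e (toConv ((sigmaHom hRfix σ).comp f.ofConv)) = act σ (e f)) :
    FlatModel.{u} R hRfix V act where
  H := H
  finite := hfin
  cocomm := hcc
  e := e
  map_mul := hadd
  equivariant σ f := hact σ f

variable (M : FlatModel.{u} R hRfix V act)

instance : Module.Finite R M.H := M.finite
instance : IsCocomm R M.H := M.cocomm
instance : Algebra.IsIntegral R M.H := Algebra.IsIntegral.of_finite _ _

theorem e_one : M.e 1 = 0 := by
  have := M.map_mul 1 1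
  rw [mul_one] at this
  exact left_eq_add.mp this

theorem e_pinv (x : WithConv (M.H →ₐ[R] Qb)) : M.e (pinv x) = - M.e x := by
  have := M.map_mul (pinv x) x
  rw [pinv_mul_cancel, e_one] at this
  exact eq_neg_of_add_eq_zero_left this.symm

theorem e_pow (x : WithConv (M.H →ₐ[R] Qb)) (n : ℕ) : M.e (x ^ n) = n • M.e x := by
  induction n with
  | zero => rw [pow_zero, e_one, zero_smul]
  | succ n ih => rw [pow_succ, M.map_mul, ih, succ_nsmul]

theorem e_galAct (σ : D) (x : WithConv (M.H →ₐ[R] Qb)) :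
    M.e (galAct hRfix σ x) = act σ (M.e x) :=
  M.equivariant σ x

theorem e_symm_add (a b : V) : M.e.symm (a + b) = M.e.symm a * M.e.symm b := by
  apply M.e.injective
  rw [Equiv.apply_symm_apply, M.map_mul, Equiv.apply_symm_apply, Equiv.apply_symm_apply]

theorem e_symm_zero : M.e.symm 0 = 1 := by
  rw [← e_one M, Equiv.symm_apply_apply]

theorem e_symm_neg (a : V) : M.e.symm (-a) = pinv (M.e.symm a) := by
  apply M.e.injective
  rw [Equiv.apply_symm_apply, e_pinv, Equiv.apply_symm_apply]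

theorem e_symm_act (σ : D) (a : V) : M.e.symm (act σ a) = galAct hRfix σ (M.e.symm a) := by
  apply M.e.injective
  rw [Equiv.apply_symm_apply, e_galAct, Equiv.apply_symm_apply]

/-- the group isomorphism underlying `e`. -/
noncomputable def eAdd : Additive (WithConv (M.H →ₐ[R] Qb)) ≃+ V where
  toFun x := M.e x.toMul
  invFun v := Additive.ofMul (M.e.symm v)
  left_inv x := by simp
  right_inv v := by simp
  map_add' x y := M.map_mul _ _

variable (P : ValuationSubring Qb) (hRP : ∀ r : R, algebraMap R Qb r ∈ P)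

/-- the "connected part" at `P`: points reducing to the unit section. -/
def V0 : AddSubgroup V where
  carrier := {v | M.e.symm v ∈ conn P hRP}
  zero_mem' := by
    show M.e.symm 0 ∈ conn P hRP
    rw [e_symm_zero]
    exact (conn P _).one_mem
  add_mem' {a b} ha hb := by
    show M.e.symm (a + b) ∈ conn P hRP
    rw [e_symm_add]
    exact (conn P _).mul_mem ha hb
  neg_mem' {a} ha := by
    show M.e.symm (-a) ∈ conn P hRP
    rw [e_symm_neg]
    exact pinv_mem_conn P _ ha

theorem mem_V0 {v : V} : v ∈ M.V0 P hRP ↔ M.e.symm v ∈ conn P hRP := Iff.rfl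

theorem e_mem_V0 {x : WithConv (M.H →ₐ[R] Qb)} :
    M.e x ∈ M.V0 P hRP ↔ x ∈ conn P hRP := by
  rw [mem_V0, Equiv.symm_apply_apply]

/-- `(σ - 1) V ⊆ V⁰` for `σ` in the inertia group of `P`. -/
theorem act_sub_mem_V0 {σ : D} (hσ : (σ : GQ) ∈ P.inertiaSubgroupIn ℚ) (v : V) :
    act σ v - v ∈ M.V0 P hRP := by
  obtain ⟨x, rfl⟩ := M.e.surjective v
  have h1 : act σ (M.e x) - M.e x = M.e (galAct hRfix σ x * pinv x) := by
    rw [M.map_mul, e_pinv, e_galAct, sub_eq_add_neg]
  rw [h1, e_mem_V0]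
  exact galAct_mul_pinv_mem_conn P hRP hRfix hσ x

/-- `V⁰` is stable under the decomposition group of `P`. -/
theorem act_mem_V0 {σ : D} (hσ : (σ : GQ) ∈ P.decompositionSubgroup ℚ) {v : V}
    (hv : v ∈ M.V0 P hRP) : act σ v ∈ M.V0 P hRP := by
  obtain ⟨x, rfl⟩ := M.e.surjective v
  rw [← e_galAct M σ x, e_mem_V0]
  exact galAct_mem_conn P hRP hRfix hσ ((e_mem_V0 M P hRP).mp hv)

variable {p : ℕ} (hp : p.Prime) (hP : P.LiesOverPrime p) (hID : P.inertiaSubgroupIn ℚ ≤ D)

include hp hP hID

/-- **RIG-unr**: an element of `V⁰` killed by `p` (odd) and fixed by the inertia group is `0`. -/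
theorem eq_zero_of_mem_V0_of_fixed (hp2 : p ≠ 2) {v : V} (hv : v ∈ M.V0 P hRP)
    (hpv : p • v = 0) (hfix : ∀ σ : D, (σ : GQ) ∈ P.inertiaSubgroupIn ℚ → act σ v = v) : v = 0 := by
  obtain ⟨x, rfl⟩ := M.e.surjective v
  have hx1 : x = 1 := by
    refine eq_one_of_mem_conn_of_fixed P hRP hRfix hID hp hp2 hP
      ((e_mem_V0 M P hRP).mp hv) ?_ ?_
    · apply M.e.injective
      rw [e_pow, hpv, e_one]
    · intro σ hσ
      apply M.e.injective
      rw [e_galAct, hfix σ hσ]
  rw [hx1, e_one]

/-- (i) `V⁰` meets the inertia-invariants trivially (on `p`-torsion). -/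
theorem V0_inf_fixed (hp2 : p ≠ 2) (hpV : ∀ v : V, p • v = 0) (U : AddSubgroup V)
    (hU : ∀ σ : D, (σ : GQ) ∈ P.inertiaSubgroupIn ℚ → ∀ u ∈ U, act σ u = u) :
    M.V0 P hRP ⊓ U = ⊥ := by
  rw [eq_bot_iff]
  rintro v ⟨hv0, hvU⟩
  exact eq_zero_of_mem_V0_of_fixed M P hRP hp hP hID hp2 hv0 (hpV v) (fun σ hσ => hU σ hσ v hvU)

include M hRP in
/-- (iii) an extension of unramified by unramified carrying a flat model is unramified. -/
theorem unramified_of_extension (hp2 : p ≠ 2) (hpV : ∀ v : V, p • v = 0) (U : AddSubgroup V)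
    (hU : ∀ σ : D, (σ : GQ) ∈ P.inertiaSubgroupIn ℚ → ∀ u ∈ U, act σ u = u)
    (hVU : ∀ σ : D, (σ : GQ) ∈ P.inertiaSubgroupIn ℚ → ∀ v : V, act σ v - v ∈ U)
    {σ : D} (hσ : (σ : GQ) ∈ P.inertiaSubgroupIn ℚ) (v : V) : act σ v = v := by
  have h0 : act σ v - v = 0 :=
    eq_zero_of_mem_V0_of_fixed M P hRP hp hP hID hp2 (act_sub_mem_V0 M P hRP hσ v) (hpV _)
      (fun τ hτ => hU τ hτ _ (hVU σ hσ v))
  exact sub_eq_zero.mp h0

/-- (ii) if the subgroup `U` is fixed by inertia and `V` is spanned by `U` and the `(σ - 1) V`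
(`σ` in inertia), then `V = U ⊕ V⁰`, and `V⁰` is stable under the decomposition group
(`act_mem_V0`). -/
theorem isCompl_V0 (hp2 : p ≠ 2) (hpV : ∀ v : V, p • v = 0) (U : AddSubgroup V)
    (hU : ∀ σ : D, (σ : GQ) ∈ P.inertiaSubgroupIn ℚ → ∀ u ∈ U, act σ u = u)
    (hspan : U ⊔ AddSubgroup.closure
      {w | ∃ σ : D, (σ : GQ) ∈ P.inertiaSubgroupIn ℚ ∧ ∃ v : V, w = act σ v - v} = ⊤) :
    IsCompl U (M.V0 P hRP) := by
  constructor
  · rw [disjoint_iff, inf_comm]
    exact V0_inf_fixed M P hRP hp hP hID hp2 hpV U hU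
  · rw [codisjoint_iff, eq_top_iff, ← hspan]
    refine sup_le_sup le_rfl ?_
    rw [AddSubgroup.closure_le]
    rintro w ⟨σ, hσ, v, rfl⟩
    exact act_sub_mem_V0 M P hRP hσ v

end FlatModel

end Fermat.Agent.TW.Hopf.Flat
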