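import Mathlib
import Fermat.Agent.TW.Hopf.FlatModel
import Fermat.Agent.TW.Hopf.DecompCor
import Fermat.Agent.TW.Hopf.OrdLineCor

/-!
# S56 sprint, LOC-flat (ORD case): flat representations are rigid ("(i')")

Glue between
* `Closure.IsFlatRealizable` over `(decompRing P, D_P)` (helper11: `DecompRing`, `DecompCor`),
* helper5's generic `Flat.FlatModel R hRfix V act` and its rigidity theorem
  `FlatModel.eq_zero_of_mem_V0_of_fixed` (**RIG-unr**),
* the abstract rigidity property `OrdLine.IsRigid` consumed by `exists_ordinary_line_of_isRigid`.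

Main results: `isRigid_of_isFlatAt` and `exists_ordinary_line_of_isFlatAt_of_shape` (the ORD case of
F2 given the mod-`ε` shape: `V/E` unramified, `E/εV` ramified).
-/

set_option autoImplicit false
set_option linter.unusedSectionVars false
set_option linter.style.haveILetI false

namespace Fermat.Agent.TW.Hopf.FlatRigid

open WithConv Fermat.Agent.TW.Hopf.Closure Fermat.Agent.TW.Hopf.Descent
  Fermat.Agent.TW.Hopf.DecompRing Fermat.Agent.TW.Hopf.Flat Fermat.Agent.TW.Hopf.PointsReduction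

local notation "Qb" => AlgebraicClosure ℚ
local notation "GQ" => (AlgebraicClosure ℚ ≃ₐ[ℚ] AlgebraicClosure ℚ)

universe u

variable (P : ValuationSubring Qb)

theorem decompRing_fixed (σ : P.decompositionSubgroup ℚ) (r : decompRing P) :
    (σ : GQ) (algebraMap (decompRing P) Qb r) = algebraMap (decompRing P) Qb r :=
  r.2.2 σ.1 σ.2

theorem decompRing_mem (r : decompRing P) : algebraMap (decompRing P) Qb r ∈ P := r.2.1

theorem inertia_le_decomp : P.inertiaSubgroupIn ℚ ≤ P.decompositionSubgroup ℚ := by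
  rintro σ ⟨i', -, rfl⟩
  exact i'.2

/-- `IsFlatRealizable` over `(decompRing P, D_P)` is helper5's `FlatModel`. -/
theorem nonempty_flatModel {V : Type*} [AddCommGroup V]
    {act : P.decompositionSubgroup ℚ → V → V} (h : IsFlatRealizable.{u} (decompOp P) act) :
    Nonempty (FlatModel.{u} (decompRing P) (decompRing_fixed P) V act) := by
  obtain ⟨H, _, _, hfin, -, hcc, e, hadd, hact⟩ := h
  exact ⟨FlatModel.ofComp H hfin hcc e hadd (fun σ f => hact σ f)⟩

/-- **Flat ⇒ rigid.** -/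
theorem isRigid_of_isFlatAt {A : Type} [CommRing A] [IsLocalRing A] [Finite A] {p : ℕ}
    (hp : p.Prime) (hp2 : p ≠ 2) (hpA : (p : A) = 0) (ρ : GaloisRepAdic A) (hflat : ρ.IsFlatAt p)
    (hP : P.LiesOverPrime p) :
    OrdLine.IsRigid ρ.ρ (P.decompositionSubgroup ℚ) (P.inertiaSubgroupIn ℚ) := by
  intro W K _ hW hK y hy hfix hmem
  -- the subquotient `X = W / K`
  set Wa : AddSubgroup ρ.V := W.toAddSubgroup with hWa
  set Ka : AddSubgroup ρ.V := K.toAddSubgroup with hKa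
  let actW : P.decompositionSubgroup ℚ → (Wa →+ Wa) := fun σ =>
    AddMonoidHom.mk' (fun w => ⟨ρ.ρ (σ : GQ) w.1, hW σ.1 σ.2 w.1 w.2⟩)
      (fun a b => Subtype.ext (by simp [map_add]))
  let actQ : P.decompositionSubgroup ℚ → (↥Wa ⧸ Ka.addSubgroupOf Wa) → (↥Wa ⧸ Ka.addSubgroupOf Wa) :=
    fun σ => QuotientAddGroup.map (Ka.addSubgroupOf Wa) (Ka.addSubgroupOf Wa) (actW σ)
      (fun w hw => by
        show ρ.ρ (σ : GQ) w.1 ∈ K
        exact hK σ.1 σ.2 w.1 hw)
  have hQ : ∀ (σ : P.decompositionSubgroup ℚ) (w : Wa), actQ σ (QuotientAddGroup.mk w) =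
      QuotientAddGroup.mk (⟨ρ.ρ (σ : GQ) w.1, hW σ.1 σ.2 w.1 w.2⟩ : Wa) := fun σ w => rfl
  obtain ⟨M⟩ := nonempty_flatModel P
    (isFlatRealizable_decomp_subquotient P hp hP ρ hflat Wa Ka hW hK actQ hQ)
  -- the subgroup of elements of `W` whose class is in the connected part
  let T : AddSubgroup ρ.V :=
    ((M.V0 P (decompRing_mem P)).comap (QuotientAddGroup.mk' (Ka.addSubgroupOf Wa))).map Wa.subtype
  have hT : ∀ z (hz : z ∈ W), z ∈ T ↔
      (QuotientAddGroup.mk (⟨z, hz⟩ : Wa) : ↥Wa ⧸ Ka.addSubgroupOf Wa) ∈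
        M.V0 P (decompRing_mem P) := by
    intro z hz
    constructor
    · rintro ⟨w, hw, rfl⟩
      exact hw
    · intro h
      exact ⟨⟨z, hz⟩, h, rfl⟩
  have hKT : ∀ z ∈ K, z ∈ T := by
    intro z hz
    have hzW : z ∈ W := ‹K ≤ W› hz
    rw [hT z hzW]
    have : (QuotientAddGroup.mk (⟨z, hzW⟩ : Wa) : ↥Wa ⧸ Ka.addSubgroupOf Wa) = 0 := by
      rw [QuotientAddGroup.eq_zero_iff]
      exact hz
    rw [this]
    exact AddSubgroup.zero_mem _
  have hST : ∀ s ∈ ⨆ σ ∈ P.inertiaSubgroupIn ℚ, W.map (ρ.ρ σ - 1), s ∈ T := by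
    intro s hs
    refine Submodule.iSup_induction _ (motive := fun s => s ∈ T) hs (fun σ x hx => ?_)
      (AddSubgroup.zero_mem _) (fun _ _ hx hy => AddSubgroup.add_mem _ hx hy)
    refine Submodule.iSup_induction _ (motive := fun s => s ∈ T) hx (fun hσ x hx => ?_)
      (AddSubgroup.zero_mem _) (fun _ _ hx hy => AddSubgroup.add_mem _ hx hy)
    obtain ⟨w, hw, rfl⟩ := hx
    have hσD : σ ∈ P.decompositionSubgroup ℚ := inertia_le_decomp P hσ
    have hxW : (ρ.ρ σ - 1) w ∈ W := W.sub_mem (hW σ hσD w hw) hw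
    rw [hT _ hxW]
    have := M.act_sub_mem_V0 P (decompRing_mem P) (σ := ⟨σ, hσD⟩) hσ
      (QuotientAddGroup.mk (⟨w, hw⟩ : Wa))
    exact this
  have hyT : y ∈ T := by
    obtain ⟨k0, hk0, s, hs, rfl⟩ := Submodule.mem_sup.1 hmem
    exact AddSubgroup.add_mem _ (hKT k0 hk0) (hST s hs)
  rw [hT y hy] at hyT
  have hzero : (QuotientAddGroup.mk (⟨y, hy⟩ : Wa) : ↥Wa ⧸ Ka.addSubgroupOf Wa) = 0 := by
    refine M.eq_zero_of_mem_V0_of_fixed P (decompRing_mem P) hp hP (inertia_le_decomp P) hp2 hyT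
      ?_ (fun σ hσ => ?_)
    · have h0 : p • (⟨y, hy⟩ : Wa) = 0 := by
        apply Subtype.ext
        rw [AddSubgroup.coe_nsmul]
        show p • y = 0
        rw [← Nat.cast_smul_eq_nsmul A, hpA, zero_smul]
      rw [← QuotientAddGroup.mk_nsmul, h0]
      rfl
    · rw [hQ]
      rw [QuotientAddGroup.eq]
      show -(ρ.ρ (σ : GQ) y) + y ∈ K
      have := K.neg_mem (hfix σ.1 hσ)
      rwa [neg_sub, sub_eq_neg_add] at this
  rw [QuotientAddGroup.eq_zero_iff] at hzero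
  exact hzero

/-- **ORD case of F2, given the mod-`ε` shape.** A flat deformation to `k[ε]` with a `D_P`-stable
`E ⊋ εV` such that inertia is trivial on `V/E` and non-trivial on `E/εV` is ordinary at `P`. -/
theorem exists_ordinary_line_of_isFlatAt_of_shape {k : Type} [Field k] [Finite k] {p : ℕ}
    (hp : p.Prime) (hp2 : p ≠ 2) (hpk : (p : DualNumber k) = 0)
    (ρ : GaloisRepAdic (DualNumber k)) (hflat : ρ.IsFlatAt p) (hP : P.LiesOverPrime p)
    (E : Submodule (DualNumber k) ρ.V) (hE2 : E < ⊤)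
    (hED : ∀ σ ∈ P.decompositionSubgroup ℚ, ∀ v ∈ E, ρ.ρ σ v ∈ E)
    (hquot : ∀ σ ∈ P.inertiaSubgroupIn ℚ, ∀ v, ρ.ρ σ v - v ∈ E)
    (hsub : ∃ σ ∈ P.inertiaSubgroupIn ℚ, ∃ v ∈ E, ρ.ρ σ v - v ∉
      IsLocalRing.maximalIdeal (DualNumber k) • (⊤ : Submodule (DualNumber k) ρ.V)) :
    ∃ L : Submodule (DualNumber k) ρ.V,
      (∃ b : Module.Basis (Fin 2) (DualNumber k) ρ.V, L = Submodule.span (DualNumber k) {b 0}) ∧
      (∀ σ ∈ P.decompositionSubgroup ℚ, ∀ v ∈ L, ρ.ρ σ v ∈ L) ∧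
      (∀ σ ∈ P.inertiaSubgroupIn ℚ, ∀ v, ρ.ρ σ v - v ∈ L) := by
  haveI : Finite (DualNumber k) := Finite.of_equiv (k × k) (Equiv.refl _)
  have hnorm : ∀ τ ∈ P.decompositionSubgroup ℚ, ∀ σ ∈ P.inertiaSubgroupIn ℚ,
      τ * σ * τ⁻¹ ∈ P.inertiaSubgroupIn ℚ := by
    rintro τ hτ _ ⟨i', hi', rfl⟩
    haveI : (P.inertiaSubgroup ℚ).Normal := by
      unfold ValuationSubring.inertiaSubgroup
      infer_instance
    exact ⟨(⟨τ, hτ⟩ : P.decompositionSubgroup ℚ) * i' * (⟨τ, hτ⟩ : P.decompositionSubgroup ℚ)⁻¹,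
      Subgroup.Normal.conj_mem inferInstance i' hi' _, rfl⟩
  exact OrdLine.exists_ordinary_line_of_isRigid ρ.finrank_eq hnorm (inertia_le_decomp P) E hE2 hED
    hquot hsub (isRigid_of_isFlatAt P hp hp2 hpk ρ hflat hP)

end Fermat.Agent.TW.Hopf.FlatRigid
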