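import Mathlib
import Fermat.Agent.TW.Hopf.DecompCor
import Fermat.Agent.TW.Hopf.FlatModel

/-!
# Flat models of `D_P`-stable subquotients (S56 sprint, LOC-flat ORD case, helper5)

`ρ : GaloisRepAdic A` flat at `p`, `A` finite, `P | p`.  For `D_P`-stable additive subgroups `W`, `K`
of `ρ.V` the subquotient `X = W ⧸ (K ∩ W)` with the induced action `actX` of `D_P` carries a
`FlatModel` over the valuation ring `decompRing P` of the decomposition field
(`exists_flatModel`; helper11's `DecompCor.isFlatRealizable_decomp_subquotient` + `FlatModel.ofComp`).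
So the rigidity statements of `FlatModel`, `PointsTame`, `PointsOmega` apply to `X`.
-/

set_option autoImplicit false
set_option linter.unusedSectionVars false

namespace Fermat.Agent.TW.Hopf.FlatSubquot

open Fermat.Agent.TW.Hopf.Flat Fermat.Agent.TW.Hopf.PointsReduction
  Fermat.Agent.TW.Hopf.DecompRing Fermat.Agent.TW.Hopf.Closure WithConv

local notation "Qb" => AlgebraicClosure ℚ
local notation "GQ" => (AlgebraicClosure ℚ ≃ₐ[ℚ] AlgebraicClosure ℚ)

section Base

variable (P : ValuationSubring Qb)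

theorem decompRing_fixed (σ : P.decompositionSubgroup ℚ) (r : decompRing P) :
    (σ : GQ) (algebraMap (decompRing P) Qb r) = algebraMap (decompRing P) Qb r :=
  r.2.2 σ.1 σ.2

theorem decompRing_mem (r : decompRing P) : algebraMap (decompRing P) Qb r ∈ P := r.2.1

theorem inertia_le : P.inertiaSubgroupIn ℚ ≤ P.decompositionSubgroup ℚ := fun _ hσ =>
  Fermat.Agent.S05.mem_decompositionSubgroup_of_mem_inertiaSubgroupIn P hσ

theorem sigmaHom_eq_decompOp (σ : P.decompositionSubgroup ℚ) :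
    sigmaHom (decompRing_fixed P) σ = decompOp P σ := by
  apply AlgHom.ext
  intro z
  rfl

end Base

section Subquot

variable {A : Type} [CommRing A] [IsLocalRing A] (ρ : GaloisRepAdic A) (P : ValuationSubring Qb)
  {W K : AddSubgroup ρ.V}
  (hW : ∀ σ ∈ P.decompositionSubgroup ℚ, ∀ v ∈ W, ρ.ρ σ v ∈ W)
  (hK : ∀ σ ∈ P.decompositionSubgroup ℚ, ∀ v ∈ K, ρ.ρ σ v ∈ K)

/-- the action of `D_P` on `W`. -/
noncomputable def actW (σ : P.decompositionSubgroup ℚ) : W →+ W where
  toFun w := ⟨ρ.ρ (σ : GQ) w.1, hW σ.1 σ.2 w.1 w.2⟩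
  map_zero' := by
    apply Subtype.ext
    show ρ.ρ (σ : GQ) (0 : ρ.V) = 0
    rw [map_zero]
  map_add' a b := by
    apply Subtype.ext
    show ρ.ρ (σ : GQ) ((a : ρ.V) + (b : ρ.V)) = ρ.ρ (σ : GQ) a + ρ.ρ (σ : GQ) b
    rw [map_add]

/-- the action of `D_P` on the subquotient `W ⧸ (K ∩ W)`. -/
noncomputable def actX (σ : P.decompositionSubgroup ℚ) :
    (↥W ⧸ K.addSubgroupOf W) →+ (↥W ⧸ K.addSubgroupOf W) :=
  QuotientAddGroup.map (K.addSubgroupOf W) (K.addSubgroupOf W) (actW ρ P hW σ)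
    (fun w hw => hK σ.1 σ.2 w.1 hw)

theorem actX_mk (σ : P.decompositionSubgroup ℚ) (w : W) :
    actX ρ P hW hK σ (QuotientAddGroup.mk w) = QuotientAddGroup.mk (actW ρ P hW σ w) := rfl

theorem mk_eq_zero_iff (w : W) :
    (QuotientAddGroup.mk w : ↥W ⧸ K.addSubgroupOf W) = 0 ↔ (w : ρ.V) ∈ K := by
  rw [QuotientAddGroup.eq_zero_iff]
  rfl

/-- **the flat model of a `D_P`-stable subquotient.** -/
theorem exists_flatModel [Finite A] {p : ℕ} (hp : p.Prime) (hP : P.LiesOverPrime p)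
    (hρ : ρ.IsFlatAt p) :
    Nonempty (FlatModel.{0} (decompRing P) (decompRing_fixed P) (↥W ⧸ K.addSubgroupOf W)
      (fun σ x => actX ρ P hW hK σ x)) := by
  obtain ⟨H, _, _, hfin, -, hcc, e, hadd, hact⟩ :=
    isFlatRealizable_decomp_subquotient P hp hP ρ hρ W K hW hK
      (fun σ x => actX ρ P hW hK σ x) (fun σ w => rfl)
  refine ⟨FlatModel.ofComp H hfin hcc e hadd (fun σ f => ?_)⟩
  rw [sigmaHom_eq_decompOp]
  exact hact σ f

end Subquot

end Fermat.Agent.TW.Hopf.FlatSubquot
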