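import Mathlib
import Fermat.Agent.Val.RankOne
import Fermat.Agent.TW.Hopf.FlatModel

/-!
# Rigidity for tamely ramified points (S56 design sprint, F2-core, helper5)

**RIG-tame.**  `P | p` a valuation subring of `Qb`, `x` a `Qb`-point of the finite Hopf algebra `H`
over `R` (`R → P^{G_ℚ}`), killed by `p`, reducing to the unit section modulo the maximal ideal of
`P`, whose orbit under the inertia group of `P` is contained in a finite inertia-stable set with
`e' < p - 1` elements.  Then `x = 1`.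

Proof: for every `h`, the inertia-orbit of `z = x h - ε h` has at most `e'` elements, all of the
valuation of `z`, so `v(z) ^ e' ≤ v(p)` (`S13.valuation_pow_card_le_of_inertia_stable`, on main);
with `α ^ e' = p`, `z ∈ α P`; `α ^ (p-1) = p · α ^ (p-1-e')` and `RigidityRam` applies in the ring `P`
(`(α)`-adically separated: `Val.exists_pow_le_valuation`, on main).

Module form: `FlatModel.eq_zero_of_mem_V0_of_orbit`, `FlatModel.eq_zero_of_tame`
(a flat module killed by `p` with `V = Σ (σ-1) V` elementwise and inertia-orbits of size `< p - 1`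
is zero: the input of the parity argument for flat characters).
-/

set_option autoImplicit false
set_option linter.unusedSectionVars false

namespace Fermat.Agent.TW.Hopf.PointsTame

open Coalgebra WithConv Fermat.Agent.TW.Hopf.Rigidity Fermat.Agent.TW.Hopf.RigidityRam
  Fermat.Agent.TW.Hopf.PointsInertia Fermat.Agent.TW.Hopf.PointsReduction

local notation "Qb" => AlgebraicClosure ℚ
local notation "GQ" => (AlgebraicClosure ℚ ≃ₐ[ℚ] AlgebraicClosure ℚ)

local instance instIsGaloisQbPointsTame : IsGalois ℚ Qb :=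
  Fermat.Agent.S54.FrobExists.isGalois_rat_algebraicClosure

/-! ### The valuation of `Qb` at `P` has rank one -/

section Arch

variable {p : ℕ} (hp : p.Prime) (P : ValuationSubring Qb) (hP : P.LiesOverPrime p)

include hp hP in
theorem eq_zero_of_forall_le_pow {z : Qb} (hz : ∀ k : ℕ, P.valuation z ≤ P.valuation (p : Qb) ^ k) :
    z = 0 := by
  by_contra hz0
  have hℓ1 : P.valuation (p : Qb) < 1 := valuation_p_lt_one P hP
  have hℓ0 : P.valuation (p : Qb) ≠ 0 := valuation_p_ne_zero hp P
  have hzP : z ∈ P := by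
    rw [← P.valuation_le_one_iff]
    simpa using hz 0
  have halg : IsAlgebraic ℤ z :=
    (IsFractionRing.isAlgebraic_iff ℤ ℚ Qb).2
      ((AlgebraicClosure.instIsAlgClosure ℚ).isAlgebraic.isAlgebraic z)
  obtain ⟨N, hN⟩ := Fermat.Agent.Val.exists_pow_le_valuation P hp hℓ1 halg hz0 hzP
  have h1 := hz (N + 1)
  have h2 : P.valuation (p : Qb) ^ (N + 1) < P.valuation (p : Qb) ^ N :=
    pow_lt_pow_right_of_lt_one₀ (zero_lt_iff.mpr hℓ0) hℓ1 (Nat.lt_succ_self N)
  exact absurd (lt_of_le_of_lt (le_trans hN h1) h2) (lt_irrefl _)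

end Arch

/-! ### RIG-tame -/

section RigTame

variable {R : Type*} [CommRing R] [Algebra R Qb] {H : Type*} [CommRing H] [HopfAlgebra R H]
  [IsCocomm R H] [Algebra.IsIntegral R H]
  {p : ℕ} (hp : p.Prime) (P : ValuationSubring Qb) (hP : P.LiesOverPrime p)
  (hRP : ∀ r : R, algebraMap R Qb r ∈ P) {D : Subgroup GQ}
  (hRfix : ∀ (σ : D) (r : R), (σ : GQ) (algebraMap R Qb r) = algebraMap R Qb r)
  (hID : P.inertiaSubgroupIn ℚ ≤ D)

include hp hP hRP hID in
/-- the valuation bound for a point with a small inertia-orbit. -/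
theorem valuation_pow_card_le {x : WithConv (H →ₐ[R] Qb)} (hx : x ∈ conn P hRP)
    (S : Finset (WithConv (H →ₐ[R] Qb))) (hxS : x ∈ S)
    (hS : ∀ σ : D, (σ : GQ) ∈ P.inertiaSubgroupIn ℚ → ∀ y ∈ S, galAct hRfix σ y ∈ S) (h : H) :
    P.valuation (x h - algebraMap R Qb (counit h)) ^ S.card ≤ P.valuation (p : Qb) := by
  classical
  set z : Qb := x h - algebraMap R Qb (counit h) with hz
  have hcard : 0 < S.card := Finset.card_pos.mpr ⟨x, hxS⟩
  by_cases hz0 : z = 0
  · rw [hz0, map_zero, zero_pow hcard.ne']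
    exact zero_le
  have hz1 : P.valuation z < 1 := hx h
  -- the orbit of `x`
  set O : Finset (WithConv (H →ₐ[R] Qb)) :=
    S.filter (fun y => ∃ σ : D, (σ : GQ) ∈ P.inertiaSubgroupIn ℚ ∧ y = galAct hRfix σ x) with hO
  set T : Finset Qb := O.image (fun y => y h - algebraMap R Qb (counit h)) with hT
  have hxO : x ∈ O := by
    rw [hO, Finset.mem_filter]
    exact ⟨hxS, 1, Subgroup.one_mem _, (galAct_one hRfix x).symm⟩
  have hTne : T.Nonempty := ⟨z, Finset.mem_image.mpr ⟨x, hxO, rfl⟩⟩
  have hTstab : ∀ σ ∈ P.inertiaSubgroupIn ℚ, ∀ t ∈ T, σ t ∈ T := by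
    intro τ hτ t ht
    obtain ⟨y, hyO, rfl⟩ := Finset.mem_image.mp ht
    rw [hO, Finset.mem_filter] at hyO
    obtain ⟨hyS, σ, hσ, rfl⟩ := hyO
    refine Finset.mem_image.mpr
      ⟨galAct hRfix ⟨τ, hID hτ⟩ (galAct hRfix σ x), ?_, ?_⟩
    · rw [hO, Finset.mem_filter]
      refine ⟨hS ⟨τ, hID hτ⟩ hτ _ hyS, ⟨τ, hID hτ⟩ * σ, Subgroup.mul_mem _ hτ hσ, ?_⟩
      rw [galAct_mul]
    · rw [map_sub, hRfix ⟨τ, hID hτ⟩]
      rfl
  have hTval : ∀ t ∈ T, P.valuation t = P.valuation z := by
    intro t ht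
    obtain ⟨y, hyO, rfl⟩ := Finset.mem_image.mp ht
    rw [hO, Finset.mem_filter] at hyO
    obtain ⟨-, σ, hσ, rfl⟩ := hyO
    have : galAct hRfix σ x h - algebraMap R Qb (counit h) = (σ : GQ) z := by
      rw [hz, map_sub, hRfix σ]
      rfl
    rw [this]
    exact Fermat.Agent.S05.valuation_apply_eq_of_mem_inertia P hσ z
  have h1 := Fermat.Agent.S13.valuation_pow_card_le_of_inertia_stable P hp hP T hTne hTstab hz0 hz1
    hTval
  have h2 : T.card ≤ S.card :=
    le_trans Finset.card_image_le (Finset.card_le_card (Finset.filter_subset _ _))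
  exact le_trans (pow_le_pow_of_le_one zero_le hz1.le h2) h1

/-- the monoid hom `toInt`. -/
noncomputable def toIntHom : WithConv (H →ₐ[R] Qb) →* WithConv (H →ₐ[R] intSubalg P hRP) where
  toFun := toInt P hRP
  map_one' := toInt_one P hRP
  map_mul' := toInt_mul P hRP

include hp hP hID in
/-- **RIG-tame.** -/
theorem eq_one_of_mem_conn_of_orbit {x : WithConv (H →ₐ[R] Qb)} (hx : x ∈ conn P hRP)
    (hxp : x ^ p = 1) (S : Finset (WithConv (H →ₐ[R] Qb))) (hxS : x ∈ S)
    (hS : ∀ σ : D, (σ : GQ) ∈ P.inertiaSubgroupIn ℚ → ∀ y ∈ S, galAct hRfix σ y ∈ S)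
    (hcard : S.card < p - 1) : x = 1 := by
  classical
  set e' := S.card with he'
  have he'pos : 0 < e' := Finset.card_pos.mpr ⟨x, hxS⟩
  have hℓ1 : P.valuation (p : Qb) < 1 := valuation_p_lt_one P hP
  have hℓ0 : P.valuation (p : Qb) ≠ 0 := valuation_p_ne_zero hp P
  have hpQ : (p : Qb) ≠ 0 := Nat.cast_ne_zero.mpr hp.ne_zero
  -- `α ^ e' = p`
  obtain ⟨α, hα⟩ := IsAlgClosed.exists_pow_nat_eq (p : Qb) he'pos
  have hα0 : α ≠ 0 := by
    rintro rfl
    rw [zero_pow he'pos.ne'] at hα
    exact hpQ hα.symm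
  have hvα : P.valuation α ^ e' = P.valuation (p : Qb) := by rw [← map_pow, hα]
  have hvα1 : P.valuation α < 1 := by
    by_contra h
    rw [not_lt] at h
    have : 1 ≤ P.valuation α ^ e' := one_le_pow₀ h
    rw [hvα] at this
    exact absurd hℓ1 (not_lt.mpr this)
  have hαP : α ∈ P := (P.valuation_le_one_iff _).mp hvα1.le
  set B := intSubalg P hRP with hB
  set a : B := ⟨α, hαP⟩ with ha
  set m := p - 1 - e' with hm
  have hm1 : 1 ≤ m := by omega
  set b : B := a ^ m with hb
  have hab : a ^ (p - 1) = (p : B) * b := by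
    have h1 : p - 1 = e' + m := by omega
    rw [h1, pow_add, hb]
    congr 1
    apply Subtype.ext
    show α ^ e' = ((p : B) : Qb)
    rw [hα]
    simp
  have hreg : ∀ w : B, (p : B) * a * w = 0 → w = 0 := by
    intro w hw
    have h1 := congrArg (Subtype.val : B → Qb) hw
    have h2 : (p : Qb) * α * (w : Qb) = 0 := by
      have h0 : (((p : B) * a * w : B) : Qb) = (p : Qb) * α * (w : Qb) := by
        rw [MulMemClass.coe_mul, MulMemClass.coe_mul]
        congr 2
      rw [← h0, h1]
      rfl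
    apply Subtype.ext
    rcases mul_eq_zero.mp h2 with h3 | h3
    · rcases mul_eq_zero.mp h3 with h4 | h4
      · exact absurd h4 hpQ
      · exact absurd h4 hα0
    · exact h3
  have hsep : ∀ w : B, (∀ k : ℕ, w ∈ (Ideal.span {a, b} : Ideal B) ^ k) → w = 0 := by
    intro w hw
    have hle : (Ideal.span {a, b} : Ideal B) ≤ Ideal.span {a} := by
      rw [Ideal.span_le]
      rintro c (rfl | rfl)
      · exact Ideal.subset_span rfl
      · rw [hb, ← Nat.sub_add_cancel hm1, pow_succ]
        exact Ideal.mul_mem_left _ _ (Ideal.subset_span rfl)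
    have hk : ∀ k : ℕ, P.valuation (w : Qb) ≤ P.valuation α ^ k := by
      intro k
      have h1 := Ideal.pow_right_mono hle k (hw k)
      rw [Ideal.span_singleton_pow, Ideal.mem_span_singleton'] at h1
      obtain ⟨u, hu⟩ := h1
      have h2 : (w : Qb) = (u : Qb) * α ^ k := by
        rw [← hu]
        rfl
      rw [h2, map_mul, map_pow]
      calc P.valuation (u : Qb) * P.valuation α ^ k ≤ 1 * P.valuation α ^ k :=
            mul_le_mul_left ((P.valuation_le_one_iff _).mpr u.2) _
        _ = _ := one_mul _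
    have h3 : (w : Qb) ^ e' = 0 := by
      apply eq_zero_of_forall_le_pow hp P hP
      intro k
      rw [map_pow, ← hvα, ← pow_mul, mul_comm, pow_mul]
      exact pow_le_pow_left₀ zero_le (hk k) e'
    apply Subtype.ext
    exact pow_eq_zero_iff he'pos.ne' |>.mp h3
  have hxi : (toInt P hRP x) ^ p = 1 := by
    have := congrArg (toIntHom P hRP) hxp
    rw [map_pow, map_one] at this
    exact this
  have hcong : ∀ h : H, ∃ w : B, toInt P hRP x h - algebraMap R B (counit h) = a * w := by
    intro h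
    set z : Qb := x h - algebraMap R Qb (counit h) with hz
    have h1 := valuation_pow_card_le hp P hP hRP hRfix hID hx S hxS hS h
    rw [← hvα] at h1
    have h2 : P.valuation z ≤ P.valuation α := (pow_le_pow_iff_left₀ zero_le zero_le he'pos.ne').mp h1
    have h3 : z / α ∈ P := by
      rw [← P.valuation_le_one_iff, map_div₀]
      exact div_le_one_of_le₀ h2 zero_le
    refine ⟨⟨z / α, h3⟩, ?_⟩
    apply Subtype.ext
    show x h - algebraMap R Qb (counit h) = α * (z / α)
    rw [mul_div_cancel₀ _ hα0]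
  have h1 := eq_one_of_pow_eq_one_of_congr_ram hp hab hreg hsep (toInt P hRP x) hxi hcong
  apply toInt_injective P hRP
  rw [h1, toInt_one]

end RigTame

/-! ### Module form -/

section Module

open Fermat.Agent.TW.Hopf.Flat

universe u

variable {R : Type*} [CommRing R] [Algebra R Qb] {D : Subgroup GQ}
  {hRfix : ∀ (σ : D) (r : R), (σ : GQ) (algebraMap R Qb r) = algebraMap R Qb r}
  {V : Type*} [AddCommGroup V] {act : D → V → V} (M : FlatModel.{u} R hRfix V act)
  {p : ℕ} (hp : p.Prime) (P : ValuationSubring Qb) (hP : P.LiesOverPrime p)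
  (hRP : ∀ r : R, algebraMap R Qb r ∈ P) (hID : P.inertiaSubgroupIn ℚ ≤ D)

include hp hP hID in
/-- **RIG-tame**, module form: an element of `V⁰` killed by `p` contained in a finite
inertia-stable set with fewer than `p - 1` elements is `0`. -/
theorem FlatModel.eq_zero_of_mem_V0_of_orbit {v : V} (hv : v ∈ M.V0 P hRP) (hpv : p • v = 0)
    (S : Finset V) (hvS : v ∈ S)
    (hS : ∀ σ : D, (σ : GQ) ∈ P.inertiaSubgroupIn ℚ → ∀ w ∈ S, act σ w ∈ S)
    (hcard : S.card < p - 1) : v = 0 := by
  classical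
  obtain ⟨x, rfl⟩ := M.e.surjective v
  have hx1 : x = 1 := by
    refine eq_one_of_mem_conn_of_orbit hp P hP hRP hRfix hID
      ((FlatModel.e_mem_V0 M P hRP).mp hv) ?_ (S.image M.e.symm) ?_ ?_ ?_
    · apply M.e.injective
      rw [FlatModel.e_pow, hpv, FlatModel.e_one]
    · exact Finset.mem_image.mpr ⟨M.e x, hvS, M.e.symm_apply_apply x⟩
    · intro σ hσ y hy
      obtain ⟨w, hwS, rfl⟩ := Finset.mem_image.mp hy
      refine Finset.mem_image.mpr ⟨act σ w, hS σ hσ w hwS, ?_⟩
      apply M.e.injective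
      rw [Equiv.apply_symm_apply, FlatModel.e_galAct, Equiv.apply_symm_apply]
    · exact lt_of_le_of_lt Finset.card_image_le hcard
  rw [hx1, FlatModel.e_one]

include M hp hP hRP hID in
/-- a flat module killed by `p` all of whose elements are of the form `(σ - 1) w` with `σ` in the
inertia group, and have inertia-orbits with fewer than `p - 1` elements, is zero. -/
theorem FlatModel.eq_zero_of_tame (hpV : ∀ v : V, p • v = 0)
    (h1 : ∀ v : V, ∃ σ : D, (σ : GQ) ∈ P.inertiaSubgroupIn ℚ ∧ ∃ w : V, v = act σ w - w)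
    (h2 : ∀ v : V, ∃ S : Finset V, v ∈ S ∧
      (∀ σ : D, (σ : GQ) ∈ P.inertiaSubgroupIn ℚ → ∀ w ∈ S, act σ w ∈ S) ∧
      S.card < p - 1) (v : V) : v = 0 := by
  obtain ⟨σ, hσ, w, rfl⟩ := h1 v
  obtain ⟨S, hvS, hS, hcard⟩ := h2 (act σ w - w)
  exact FlatModel.eq_zero_of_mem_V0_of_orbit M hp P hP hRP hID
    (FlatModel.act_sub_mem_V0 M P hRP hσ w) (hpV _) S hvS hS hcard

end Module

end Fermat.Agent.TW.Hopf.PointsTame
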