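import Mathlib
import Fermat.Agent.BR3.WildCyclo
import Fermat.Agent.TW.Hopf.PointsTame

/-!
# The inertia character of a connected flat line is cyclotomic (S56 sprint, F2, helper5)

`P | p` a valuation subring of `Qb`, `x ≠ 1` a `Qb`-point of the finite Hopf algebra `H` over `R`,
killed by `p`, reducing to the unit section modulo the maximal ideal of `P`, whose inertia-orbit is
contained in a finite inertia-stable set with at most `p - 1` elements.  If `g` in the inertia group
acts on `x` by `x ↦ x ^ c` and on the `p`-th roots of unity by `ζ ↦ ζ ^ a`, then `c ≡ a mod p`.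

Proof: let `z₀ = x h₀ - ε h₀` be a coordinate of maximal valuation.  Then
`(x ^ c) h₀ - ε h₀ ≡ c z₀` modulo `z₀ ^ 2` (`pow_apply_congr`), so `g z₀ / z₀ ≡ c`;
`v(z₀) ^ (p-1) = v(p)` (`≥` by `RigidityRam`, `≤` by the orbit bound of `PointsTame`), so
`z₀ / (ζ - 1)` is a unit and `g z₀ / z₀ ≡ g (ζ - 1) / (ζ - 1) ≡ a`.
-/

set_option autoImplicit false
set_option linter.unusedSectionVars false

namespace Fermat.Agent.TW.Hopf.PointsOmega

open Coalgebra WithConv Fermat.Agent.TW.Hopf.Rigidity Fermat.Agent.TW.Hopf.RigidityRam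
  Fermat.Agent.TW.Hopf.PointsInertia Fermat.Agent.TW.Hopf.PointsReduction
  Fermat.Agent.TW.Hopf.PointsTame

local notation "Qb" => AlgebraicClosure ℚ
local notation "GQ" => (AlgebraicClosure ℚ ≃ₐ[ℚ] AlgebraicClosure ℚ)

/-! ### First-order expansion of powers of a point -/

section Abstract

theorem one_add_pow_sub_mem {W : Type*} [CommRing W] (I₂ : Ideal W) (X : W) (hX : X * X ∈ I₂)
    (c : ℕ) : (1 + X) ^ c - 1 - c • X ∈ I₂ := by
  induction c with
  | zero => simp
  | succ c ih =>
    have h1 : (1 + X) ^ (c + 1) - 1 - (c + 1) • X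
        = ((1 + X) ^ c - 1 - c • X) * (1 + X) + c • (X * X) := by
      simp only [nsmul_eq_mul]
      push_cast
      ring
    rw [h1]
    exact I₂.add_mem (I₂.mul_mem_right _ ih) (nsmul_mem hX c)

variable {R H B : Type*} [CommRing R] [Ring H] [Bialgebra R H] [IsCocomm R H] [CommRing B]
  [Algebra R B]

/-- if `x ≡ 1` modulo `J` then `x ^ c - 1 ≡ c (x - 1)` modulo `J ^ 2`, coordinatewise. -/
theorem pow_apply_congr (J : Ideal B) (x : WithConv (H →ₐ[R] B))
    (hx : ∀ h : H, x h - algebraMap R B (counit h) ∈ J) (c : ℕ) (h : H) :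
    (x ^ c) h - algebraMap R B (counit h) - c • (x h - algebraMap R B (counit h)) ∈ J * J := by
  set X : WithConv (H →ₗ[R] B) := lin x - 1 with hXdef
  have hX : X ∈ valIdeal (R := R) (H := H) J := by
    intro h'
    rw [hXdef, map_sub, evalAt_lin, evalAt_one]
    exact hx h'
  have hXX : X * X ∈ valIdeal (R := R) (H := H) (J * J) := mul_mem_valIdeal_mul hX hX
  have h1 := one_add_pow_sub_mem (valIdeal (R := R) (H := H) (J * J)) X hXX c
  have h2 : (1 : WithConv (H →ₗ[R] B)) + X = lin x := by rw [hXdef]; ring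
  rw [h2, ← lin_pow] at h1
  have h3 := h1 h
  rw [map_sub, map_sub, evalAt_lin, evalAt_one, map_nsmul, hXdef, map_sub, evalAt_lin,
    evalAt_one] at h3
  exact h3

end Abstract

/-! ### A coordinate of maximal valuation -/

section Coord

variable {R : Type*} [CommRing R] [Algebra R Qb] {H : Type*} [CommRing H] [HopfAlgebra R H]
  [IsCocomm R H] [Module.Finite R H]
  (P : ValuationSubring Qb) (hRP : ∀ r : R, algebraMap R Qb r ∈ P)

include hRP in
/-- the coordinates `x h - ε h` of a point have a member of maximal valuation. -/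
theorem exists_coord_max (x : WithConv (H →ₐ[R] Qb)) :
    ∃ h₀ : H, ∀ h : H, P.valuation (x h - algebraMap R Qb (counit h))
      ≤ P.valuation (x h₀ - algebraMap R Qb (counit h₀)) := by
  classical
  obtain ⟨s, hs⟩ := (Module.Finite.fg_top : (⊤ : Submodule R H).FG)
  set z : H → Qb := fun h => x h - algebraMap R Qb (counit h) with hz
  obtain ⟨h₀, -, hmax⟩ := Finset.exists_max_image (insert 0 s) (fun h => P.valuation (z h))
    ⟨0, Finset.mem_insert_self _ _⟩
  refine ⟨h₀, fun h => ?_⟩
  have hmem : h ∈ Submodule.span R (s : Set H) := by rw [hs]; trivial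
  induction hmem using Submodule.span_induction with
  | mem y hy => exact hmax y (Finset.mem_insert_of_mem hy)
  | zero => exact hmax 0 (Finset.mem_insert_self _ _)
  | add a b _ _ ha hb =>
    have : z (a + b) = z a + z b := by
      simp only [hz, map_add]
      ring
    show P.valuation (z (a + b)) ≤ _
    rw [this]
    exact le_trans (Valuation.map_add _ _ _) (max_le ha hb)
  | smul r a _ ha =>
    have : z (r • a) = algebraMap R Qb r * z a := by
      have e1 : x (r • a) = algebraMap R Qb r * x a := by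
        rw [show x (r • a) = x.ofConv (r • a) from rfl, map_smul, Algebra.smul_def]
      have e2 : (counit (r • a) : R) = r * counit a := by
        rw [map_smul, smul_eq_mul]
      simp only [hz]
      rw [e1, e2, map_mul]
      ring
    show P.valuation (z (r • a)) ≤ _
    rw [this, map_mul]
    calc P.valuation (algebraMap R Qb r) * P.valuation (z a)
        ≤ 1 * P.valuation (z a) := mul_le_mul_left ((P.valuation_le_one_iff _).mpr (hRP r)) _
      _ = P.valuation (z a) := one_mul _
      _ ≤ _ := ha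

end Coord

/-! ### The valuation of the leading coordinate -/

section Val

variable {R : Type*} [CommRing R] [Algebra R Qb] {H : Type*} [CommRing H] [HopfAlgebra R H]
  [IsCocomm R H] [Module.Finite R H]
  {p : ℕ} (hp : p.Prime) (P : ValuationSubring Qb) (hP : P.LiesOverPrime p)
  (hRP : ∀ r : R, algebraMap R Qb r ∈ P)

/-- the ideal of elements of valuation `≤ γ`. -/
def leIdeal (γ : P.ValueGroup) : Ideal (intSubalg P hRP) where
  carrier := {y | P.valuation (y : Qb) ≤ γ}
  add_mem' {a b} ha hb := by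
    show P.valuation ((a + b : intSubalg P hRP) : Qb) ≤ γ
    rw [AddMemClass.coe_add]
    exact le_trans (Valuation.map_add _ _ _) (max_le ha hb)
  zero_mem' := by
    show P.valuation ((0 : intSubalg P hRP) : Qb) ≤ γ
    rw [ZeroMemClass.coe_zero, map_zero]
    exact zero_le
  smul_mem' c y hy := by
    show P.valuation ((c * y : intSubalg P hRP) : Qb) ≤ γ
    rw [MulMemClass.coe_mul, map_mul]
    calc P.valuation (c : Qb) * P.valuation (y : Qb) ≤ 1 * γ :=
          mul_le_mul' ((P.valuation_le_one_iff _).mpr c.2) hy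
      _ = γ := one_mul _

theorem mem_leIdeal {γ : P.ValueGroup} {y : intSubalg P hRP} :
    y ∈ leIdeal P hRP γ ↔ P.valuation (y : Qb) ≤ γ := Iff.rfl

theorem leIdeal_mul_le (γ δ : P.ValueGroup) :
    leIdeal P hRP γ * leIdeal P hRP δ ≤ leIdeal P hRP (γ * δ) := by
  rw [Ideal.mul_le]
  intro r hr s hs
  show P.valuation ((r * s : intSubalg P hRP) : Qb) ≤ γ * δ
  rw [MulMemClass.coe_mul, map_mul]
  exact mul_le_mul' hr hs

theorem leIdeal_pow_le (γ : P.ValueGroup) (k : ℕ) :
    leIdeal P hRP γ ^ k ≤ leIdeal P hRP (γ ^ k) := by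
  induction k with
  | zero =>
    intro y _
    show P.valuation (y : Qb) ≤ γ ^ 0
    rw [pow_zero]
    exact (P.valuation_le_one_iff _).mpr y.2
  | succ k ih =>
    rw [pow_succ, pow_succ]
    exact le_trans (Ideal.mul_mono ih le_rfl) (leIdeal_mul_le P hRP _ _)

include hp hP in
/-- **lower bound**: the leading coordinate `z₀` of a nontrivial point of the connected part killed
by `p` satisfies `v(p) ≤ v(z₀) ^ (p - 1)`. -/
theorem le_valuation_coord_pow {x : WithConv (H →ₐ[R] Qb)} (hx : x ∈ conn P hRP)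
    (hxp : x ^ p = 1) (hx1 : x ≠ 1) {h₀ : H}
    (hmax : ∀ h : H, P.valuation (x h - algebraMap R Qb (counit h))
      ≤ P.valuation (x h₀ - algebraMap R Qb (counit h₀))) :
    P.valuation (p : Qb) ≤ P.valuation (x h₀ - algebraMap R Qb (counit h₀)) ^ (p - 1) := by
  classical
  by_contra hlt
  rw [not_le] at hlt
  apply hx1
  set z₀ : Qb := x h₀ - algebraMap R Qb (counit h₀) with hz₀
  have hℓ1 : P.valuation (p : Qb) < 1 := valuation_p_lt_one P hP
  have hℓ0 : P.valuation (p : Qb) ≠ 0 := valuation_p_ne_zero hp P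
  have hpQ : (p : Qb) ≠ 0 := Nat.cast_ne_zero.mpr hp.ne_zero
  have hp1 : 0 < p - 1 := by have := hp.two_le; omega
  by_cases hz0 : z₀ = 0
  · -- all coordinates vanish
    apply ofConv_injective
    apply AlgHom.ext
    intro h
    have h1 := hmax h
    rw [hz0, map_zero] at h1
    have h2 : x h - algebraMap R Qb (counit h) = 0 :=
      (map_eq_zero _).mp (le_antisymm h1 zero_le)
    exact sub_eq_zero.mp h2
  have hz1 : P.valuation z₀ < 1 := hx h₀
  have hz₀P : z₀ ∈ P := (P.valuation_le_one_iff _).mp hz1.le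
  set B := intSubalg P hRP with hB
  set a : B := ⟨z₀, hz₀P⟩ with ha
  have hbv : P.valuation (z₀ ^ (p - 1) / (p : Qb)) < 1 := by
    rw [map_div₀, map_pow, div_lt_one₀ (zero_lt_iff.mpr hℓ0)]
    exact hlt
  have hbP : z₀ ^ (p - 1) / (p : Qb) ∈ P := (P.valuation_le_one_iff _).mp hbv.le
  set b : B := ⟨z₀ ^ (p - 1) / (p : Qb), hbP⟩ with hb
  have hab : a ^ (p - 1) = (p : B) * b := by
    apply Subtype.ext
    show z₀ ^ (p - 1) = ((p : B) : Qb) * (z₀ ^ (p - 1) / (p : Qb))
    have : ((p : B) : Qb) = (p : Qb) := by simp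
    rw [this, mul_div_cancel₀ _ hpQ]
  have hreg : ∀ w : B, (p : B) * a * w = 0 → w = 0 := by
    intro w hw
    have h1 := congrArg (Subtype.val : B → Qb) hw
    have h2 : (p : Qb) * z₀ * (w : Qb) = 0 := by
      have h0 : (((p : B) * a * w : B) : Qb) = (p : Qb) * z₀ * (w : Qb) := by
        rw [MulMemClass.coe_mul, MulMemClass.coe_mul]
        congr 2
      rw [← h0, h1]
      rfl
    apply Subtype.ext
    rcases mul_eq_zero.mp h2 with h3 | h3
    · rcases mul_eq_zero.mp h3 with h4 | h4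
      · exact absurd h4 hpQ
      · exact absurd h4 hz0
    · exact h3
  -- separatedness
  set γ : P.ValueGroup := max (P.valuation z₀) (P.valuation (z₀ ^ (p - 1) / (p : Qb))) with hγ
  have hγ1 : γ < 1 := max_lt hz1 hbv
  have halgz : ∀ y : Qb, IsAlgebraic ℤ y := fun y =>
    (IsFractionRing.isAlgebraic_iff ℤ ℚ Qb).2
      ((AlgebraicClosure.instIsAlgClosure ℚ).isAlgebraic.isAlgebraic y)
  obtain ⟨n, hn⟩ : ∃ n : ℕ, γ ^ n ≤ P.valuation (p : Qb) := by
    rcases le_total (P.valuation z₀) (P.valuation (z₀ ^ (p - 1) / (p : Qb))) with hle | hle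
    · have hb0 : z₀ ^ (p - 1) / (p : Qb) ≠ 0 := div_ne_zero (pow_ne_zero _ hz0) hpQ
      obtain ⟨n, hn⟩ := Fermat.Agent.Val.exists_pow_valuation_le P hp hℓ1 (halgz _) hb0 hbv
      exact ⟨n, by rw [hγ, max_eq_right hle]; exact hn⟩
    · obtain ⟨n, hn⟩ := Fermat.Agent.Val.exists_pow_valuation_le P hp hℓ1 (halgz _) hz0 hz1
      exact ⟨n, by rw [hγ, max_eq_left hle]; exact hn⟩
  have hsep : ∀ w : B, (∀ k : ℕ, w ∈ (Ideal.span {a, b} : Ideal B) ^ k) → w = 0 := by
    intro w hw
    have hle : (Ideal.span {a, b} : Ideal B) ≤ leIdeal P hRP γ := by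
      rw [Ideal.span_le]
      rintro c (rfl | rfl)
      · exact (mem_leIdeal P hRP).mpr (le_max_left _ _)
      · exact (mem_leIdeal P hRP).mpr (le_max_right _ _)
    apply Subtype.ext
    apply eq_zero_of_forall_le_pow hp P hP
    intro k
    have h1 : w ∈ leIdeal P hRP (γ ^ (n * k)) :=
      leIdeal_pow_le P hRP γ (n * k) (Ideal.pow_right_mono hle (n * k) (hw (n * k)))
    calc P.valuation (w : Qb) ≤ γ ^ (n * k) := h1
      _ = (γ ^ n) ^ k := pow_mul γ n k
      _ ≤ P.valuation (p : Qb) ^ k := pow_le_pow_left' hn k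
  have hxi : (toInt P hRP x) ^ p = 1 := by
    have := congrArg (toIntHom P hRP) hxp
    rw [map_pow, map_one] at this
    exact this
  have hcong : ∀ h : H, ∃ w : B, toInt P hRP x h - algebraMap R B (counit h) = a * w := by
    intro h
    set z : Qb := x h - algebraMap R Qb (counit h) with hz
    have h3 : z / z₀ ∈ P := by
      rw [← P.valuation_le_one_iff, map_div₀]
      exact div_le_one_of_le₀ (hmax h) zero_le
    refine ⟨⟨z / z₀, h3⟩, ?_⟩
    apply Subtype.ext
    show x h - algebraMap R Qb (counit h) = z₀ * (z / z₀)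
    rw [mul_div_cancel₀ _ hz0]
  have h1 := eq_one_of_pow_eq_one_of_congr_ram hp hab hreg hsep (toInt P hRP x) hxi hcong
  apply toInt_injective P hRP
  rw [h1, toInt_one]

end Val

/-! ### The inertia character -/

section Main

variable {R : Type*} [CommRing R] [Algebra R Qb] {H : Type*} [CommRing H] [HopfAlgebra R H]
  [IsCocomm R H] [Module.Finite R H]
  {p : ℕ} (hp : p.Prime) (P : ValuationSubring Qb) (hP : P.LiesOverPrime p)
  (hRP : ∀ r : R, algebraMap R Qb r ∈ P) {D : Subgroup GQ}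
  (hRfix : ∀ (σ : D) (r : R), (σ : GQ) (algebraMap R Qb r) = algebraMap R Qb r)
  (hID : P.inertiaSubgroupIn ℚ ≤ D)

include hp hP hID in
/-- **the inertia character of a connected flat line is the cyclotomic character.** -/
theorem natCast_eq_of_galAct_eq_pow {x : WithConv (H →ₐ[R] Qb)} (hx : x ∈ conn P hRP)
    (hxp : x ^ p = 1) (hx1 : x ≠ 1) (S : Finset (WithConv (H →ₐ[R] Qb))) (hxS : x ∈ S)
    (hS : ∀ σ : D, (σ : GQ) ∈ P.inertiaSubgroupIn ℚ → ∀ y ∈ S, galAct hRfix σ y ∈ S)
    (hcard : S.card ≤ p - 1) {g : D} (hg : (g : GQ) ∈ P.inertiaSubgroupIn ℚ) {c a : ℕ}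
    (hgc : galAct hRfix g x = x ^ c) {ζ : Qb} (hζ : IsPrimitiveRoot ζ p)
    (hga : (g : GQ) ζ = ζ ^ a) : (c : ZMod p) = (a : ZMod p) := by
  classical
  obtain ⟨h₀, hmax⟩ := exists_coord_max P hRP x
  set z₀ : Qb := x h₀ - algebraMap R Qb (counit h₀) with hz₀
  have hℓ1 : P.valuation (p : Qb) < 1 := valuation_p_lt_one P hP
  have hℓ0 : P.valuation (p : Qb) ≠ 0 := valuation_p_ne_zero hp P
  have hp1 : p - 1 ≠ 0 := by have := hp.two_le; omega
  have hlow := le_valuation_coord_pow hp P hP hRP hx hxp hx1 hmax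
  have hup := valuation_pow_card_le hp P hP hRP hRfix hID hx S hxS hS h₀
  have hz1 : P.valuation z₀ < 1 := hx h₀
  have h2 : P.valuation z₀ ^ (p - 1) ≤ P.valuation z₀ ^ S.card :=
    pow_le_pow_of_le_one zero_le hz1.le hcard
  have heq : P.valuation z₀ ^ (p - 1) = P.valuation (p : Qb) := le_antisymm (h2.trans hup) hlow
  have hπ : P.valuation (ζ - 1) ^ (p - 1) = P.valuation (p : Qb) :=
    Fermat.Agent.BR3.WildCyclo.valuation_sub_one_pow hp hζ P
  have hvz : P.valuation z₀ = P.valuation (ζ - 1) := by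
    apply le_antisymm
    · exact (pow_le_pow_iff_left₀ zero_le zero_le hp1).mp (by rw [heq, hπ])
    · exact (pow_le_pow_iff_left₀ zero_le zero_le hp1).mp (by rw [heq, hπ])
  have hvz0 : P.valuation z₀ ≠ 0 := by
    intro h
    rw [h, zero_pow hp1] at heq
    exact hℓ0 heq.symm
  have hz0 : z₀ ≠ 0 := (Valuation.ne_zero_iff _).mp hvz0
  set π : Qb := ζ - 1 with hπdef
  have hπ0 : π ≠ 0 := by
    rw [← Valuation.ne_zero_iff P.valuation, ← hvz]
    exact hvz0
  have hζP : ζ ∈ P := by simpa using Fermat.Agent.BR3.WildCyclo.zeta_pow_mem hp hζ P 1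
  -- (3) `g z₀ ≡ c z₀` modulo `z₀ ^ 2`
  have e1 : (g : GQ) z₀ = (x ^ c) h₀ - algebraMap R Qb (counit h₀) := by
    rw [← hgc, galAct_apply, hz₀, map_sub, hRfix g]
  have hA : P.valuation ((g : GQ) z₀ - (c : Qb) * z₀) < P.valuation z₀ := by
    set B := intSubalg P hRP with hB
    have hx' : ∀ h : H, toInt P hRP x h - algebraMap R B (counit h)
        ∈ leIdeal P hRP (P.valuation z₀) := by
      intro h
      exact hmax h
    have h3 := pow_apply_congr (leIdeal P hRP (P.valuation z₀)) (toInt P hRP x) hx' c h₀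
    have h4 := leIdeal_mul_le P hRP _ _ h3
    rw [mem_leIdeal] at h4
    have h5 : (((toInt P hRP x ^ c) h₀ - algebraMap R B (counit h₀)
        - c • (toInt P hRP x h₀ - algebraMap R B (counit h₀)) : B) : Qb)
        = (g : GQ) z₀ - (c : Qb) * z₀ := by
      have h6 : toInt P hRP x ^ c = toInt P hRP (x ^ c) := by
        have := map_pow (toIntHom P hRP) x c
        exact this.symm
      rw [e1, h6, hz₀, nsmul_eq_mul]
      rfl
    rw [h5] at h4
    refine lt_of_le_of_lt h4 ?_
    calc P.valuation z₀ * P.valuation z₀ < 1 * P.valuation z₀ :=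
          mul_lt_mul_of_pos_right hz1 (zero_lt_iff.mpr hvz0)
      _ = P.valuation z₀ := one_mul _
  -- (4) `g z₀ ≡ a z₀`
  set u : Qb := z₀ / π with hu
  have hvu : P.valuation u = 1 := by
    rw [hu, map_div₀, hvz, div_self]
    rw [← hvz]
    exact hvz0
  have hgu : P.valuation ((g : GQ) u - u) < 1 :=
    Fermat.Agent.S05.valuation_apply_sub_lt_one P hg hvu.le
  set s : Qb := ∑ i ∈ Finset.range a, ζ ^ i with hs
  have hgπ : (g : GQ) π = π * s := by
    rw [hπdef, map_sub, map_one, hga, hs, mul_comm, geom_sum_mul]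
  have hsP : P.valuation s ≤ 1 := by
    rw [P.valuation_le_one_iff]
    exact P.toSubring.sum_mem fun i _ => pow_mem hζP i
  have hπ1 : P.valuation π < 1 := by rw [← hvz]; exact hz1
  have hsa : P.valuation (s - (a : Qb)) < 1 := by
    have h1 : s - (a : Qb) = ∑ i ∈ Finset.range a, (ζ ^ i - 1) := by
      rw [Finset.sum_sub_distrib, hs]
      simp
    rw [h1]
    apply Valuation.map_sum_lt _ one_ne_zero
    intro i _
    exact lt_of_le_of_lt (Fermat.Agent.BR3.WildCyclo.valuation_pow_sub_one_le P hζP i) hπ1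
  have hzu : z₀ = u * π := by rw [hu, div_mul_cancel₀ _ hπ0]
  have hBv : P.valuation ((g : GQ) z₀ - (a : Qb) * z₀) < P.valuation z₀ := by
    have h1 : (g : GQ) z₀ - (a : Qb) * z₀ = π * (((g : GQ) u - u) * s + u * (s - (a : Qb))) := by
      conv_lhs => rw [hzu, map_mul, hgπ]
      ring
    rw [h1, map_mul, hvz]
    have h2 : P.valuation (((g : GQ) u - u) * s + u * (s - (a : Qb))) < 1 := by
      refine lt_of_le_of_lt (Valuation.map_add _ _ _) (max_lt ?_ ?_)
      · rw [map_mul]
        calc P.valuation ((g : GQ) u - u) * P.valuation s ≤ P.valuation ((g : GQ) u - u) * 1 :=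
              mul_le_mul_right hsP _
          _ = _ := mul_one _
          _ < 1 := hgu
      · rw [map_mul, hvu, one_mul]
        exact hsa
    calc P.valuation π * P.valuation (((g : GQ) u - u) * s + u * (s - (a : Qb)))
        < P.valuation π * 1 := by
          apply mul_lt_mul_of_pos_left h2
          rw [← hvz]
          exact zero_lt_iff.mpr hvz0
      _ = P.valuation π := mul_one _
  -- (5) conclusion
  have hdiff : P.valuation ((((c : ℤ) - (a : ℤ) : ℤ) : Qb) * z₀) < P.valuation z₀ := by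
    have h1 : (((c : ℤ) - (a : ℤ) : ℤ) : Qb) * z₀
        = ((g : GQ) z₀ - (a : Qb) * z₀) - ((g : GQ) z₀ - (c : Qb) * z₀) := by
      push_cast
      ring
    rw [h1]
    exact lt_of_le_of_lt (Valuation.map_sub _ _ _) (max_lt hBv hA)
  have hdvd : (p : ℤ) ∣ (c : ℤ) - (a : ℤ) := by
    by_contra hnd
    have h1 := Fermat.Agent.S05.valuation_intCast_eq_one_of_not_dvd P hp hP hnd
    rw [map_mul, h1, one_mul] at hdiff
    exact lt_irrefl _ hdiff
  have h3 : (((c : ℤ) - (a : ℤ) : ℤ) : ZMod p) = 0 :=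
    (ZMod.intCast_zmod_eq_zero_iff_dvd _ _).mpr hdvd
  push_cast at h3
  exact sub_eq_zero.mp h3

end Main

/-! ### Module form -/

section Module

open Fermat.Agent.TW.Hopf.Flat

universe u

variable {R : Type*} [CommRing R] [Algebra R Qb] {D : Subgroup GQ}
  {hRfix : ∀ (σ : D) (r : R), (σ : GQ) (algebraMap R Qb r) = algebraMap R Qb r}
  {V : Type*} [AddCommGroup V] {act : D → V → V} (M : FlatModel.{u} R hRfix V act)
  {p : ℕ} (hp : p.Prime) (P : ValuationSubring Qb) (hP : P.LiesOverPrime p)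
  (hRP : ∀ r : R, algebraMap R Qb r ∈ P) (hID : P.inertiaSubgroupIn ℚ ≤ D)

include hp hP hID in
/-- module form: if `g` in the inertia group acts on the nonzero element `v` of `V⁰` (killed by
`p`, with inertia-orbit inside a stable set with at most `p - 1` elements) by `v ↦ c • v`, and on
the `p`-th roots of unity by `ζ ↦ ζ ^ a`, then `c ≡ a` modulo `p`. -/
theorem FlatModel.natCast_eq_of_act_eq_nsmul {v : V} (hv : v ∈ M.V0 P hRP) (hpv : p • v = 0)
    (hv0 : v ≠ 0) (S : Finset V) (hvS : v ∈ S)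
    (hS : ∀ σ : D, (σ : GQ) ∈ P.inertiaSubgroupIn ℚ → ∀ w ∈ S, act σ w ∈ S)
    (hcard : S.card ≤ p - 1) {g : D} (hg : (g : GQ) ∈ P.inertiaSubgroupIn ℚ) {c a : ℕ}
    (hgc : act g v = c • v) {ζ : Qb} (hζ : IsPrimitiveRoot ζ p) (hga : (g : GQ) ζ = ζ ^ a) :
    (c : ZMod p) = (a : ZMod p) := by
  classical
  obtain ⟨x, rfl⟩ := M.e.surjective v
  refine natCast_eq_of_galAct_eq_pow hp P hP hRP hRfix hID
    ((FlatModel.e_mem_V0 M P hRP).mp hv) ?_ ?_ (S.image M.e.symm) ?_ ?_ ?_ hg ?_ hζ hga
  · apply M.e.injective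
    rw [FlatModel.e_pow, hpv, FlatModel.e_one]
  · rintro rfl
    exact hv0 (FlatModel.e_one M)
  · exact Finset.mem_image.mpr ⟨M.e x, hvS, M.e.symm_apply_apply x⟩
  · intro σ hσ y hy
    obtain ⟨w, hwS, rfl⟩ := Finset.mem_image.mp hy
    refine Finset.mem_image.mpr ⟨act σ w, hS σ hσ w hwS, ?_⟩
    apply M.e.injective
    rw [Equiv.apply_symm_apply, FlatModel.e_galAct, Equiv.apply_symm_apply]
  · exact le_trans Finset.card_image_le hcard
  · apply M.e.injective
    rw [FlatModel.e_galAct, hgc, FlatModel.e_pow]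

end Module

end Fermat.Agent.TW.Hopf.PointsOmega
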