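import Mathlib
import Fermat.Agent.BR2.TameChar
import Fermat.Agent.BR2.TameDisc
import Fermat.Agent.Cheb.FrobDict
import Fermat.Agent.S54.FrobExists

/-!
# The tame relation for representations of finite level (S56 sprint, LOC-flat ORD case, helper5)

`ρ : G_ℚ →* M` a monoid homomorphism trivial on the absolute Galois group of a number field `L₀`,
`P | p` a valuation subring of `Qb`, `τ` in the inertia group of `P`.  Then there are `σ` in the
decomposition group of `P` (a Frobenius element) and `a : ℕ` with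
`ρ ((σ τ σ⁻¹ τ⁻ᵖ) ^ (p ^ a)) = 1` (`exists_tame_relation`; main's `BR2/TameChar.exists_pow_apply_eq`
on the normal closure of `L₀`).

Consequence used for flat characters: if `x : A` (a local ring of residue characteristic `p`, with
finite residue field) satisfies `x ^ ((p - 1) p ^ a) ≡ 1` modulo `𝔪`, then `x ≡ c` modulo `𝔪` for a
natural number `c` (`exists_natCast_sub_mem`).
-/

set_option autoImplicit false
set_option linter.unusedSectionVars false

namespace Fermat.Agent.TW.Hopf.TameOrder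

local notation "Qb" => AlgebraicClosure ℚ
local notation "GQ" => (AlgebraicClosure ℚ ≃ₐ[ℚ] AlgebraicClosure ℚ)

local instance instIsGaloisQbTameOrder : IsGalois ℚ Qb :=
  Fermat.Agent.S54.FrobExists.isGalois_rat_algebraicClosure

/-- **the tame relation at finite level**, for a representation. -/
theorem exists_tame_relation {M : Type*} [Monoid M] (ρ : GQ →* M)
    (L₀ : IntermediateField ℚ Qb) [FiniteDimensional ℚ L₀]
    (hL₀ : ∀ σ : GQ, (∀ x ∈ L₀, σ x = x) → ρ σ = 1)
    {p : ℕ} (hp : p.Prime) (P : ValuationSubring Qb) (hP : P.LiesOverPrime p)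
    {τ : GQ} (hτ : τ ∈ P.inertiaSubgroupIn ℚ) :
    ∃ σ ∈ P.decompositionSubgroup ℚ, ∃ a : ℕ,
      ρ ((σ * τ * σ⁻¹ * (τ ^ p)⁻¹) ^ (p ^ a)) = 1 := by
  classical
  have hle : L₀ ≤ IntermediateField.normalClosure ℚ L₀ Qb := IntermediateField.le_normalClosure L₀
  obtain ⟨σ, hσ⟩ := Fermat.Agent.Cheb.exists_isFrobeniusAt_of_liesOverPrime hp hP
  obtain ⟨π, hπ⟩ := Fermat.Agent.BR2.TameDisc.exists_discreteOn P hp hP
    (IntermediateField.normalClosure ℚ L₀ Qb)
  obtain ⟨a, ha⟩ := Fermat.Agent.BR2.TameChar.exists_pow_apply_eq P hp hP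
    (IntermediateField.normalClosure ℚ L₀ Qb) hπ hσ hτ
  exact ⟨σ, hσ.mem_decompositionSubgroup, a, hL₀ _ fun x hx => ha x (hle hx)⟩

/-- in a local ring of residue characteristic `p`, an element whose `(p - 1) p ^ a`-th power is
`≡ 1` modulo `𝔪` is congruent to a natural number modulo `𝔪`. -/
theorem exists_natCast_sub_mem {A : Type*} [CommRing A] [IsLocalRing A] {p : ℕ} (hp : p.Prime)
    (hpA : (p : A) ∈ IsLocalRing.maximalIdeal A) {x : A} {a : ℕ}
    (hx : (x ^ (p - 1)) ^ (p ^ a) - 1 ∈ IsLocalRing.maximalIdeal A) :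
    ∃ c : ℕ, x - (c : A) ∈ IsLocalRing.maximalIdeal A := by
  classical
  have : Fact p.Prime := ⟨hp⟩
  set κ := IsLocalRing.ResidueField A with hκ
  have hpκ : (p : κ) = 0 := by
    have h2 : IsLocalRing.residue A (p : A) = 0 := by
      rw [IsLocalRing.residue_eq_zero_iff]
      exact hpA
    rwa [map_natCast] at h2
  have : CharP κ p := (CharP.charP_iff_prime_eq_zero hp).mpr hpκ
  set y : κ := IsLocalRing.residue A x with hy
  have h1 : (y ^ (p - 1)) ^ (p ^ a) = 1 := by
    have h2 : IsLocalRing.residue A ((x ^ (p - 1)) ^ (p ^ a) - 1) = 0 := by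
      rw [IsLocalRing.residue_eq_zero_iff]
      exact hx
    rw [map_sub, map_pow, map_pow, map_one, sub_eq_zero] at h2
    exact h2
  have h2 : y ^ (p - 1) = 1 := by
    have h3 : (y ^ (p - 1) - 1) ^ (p ^ a) = 0 := by
      rw [sub_pow_char_pow, h1, one_pow, sub_self]
    exact sub_eq_zero.mp (pow_eq_zero_iff (pow_pos hp.pos a).ne' |>.mp h3)
  have h3 : y ^ p = y := by
    have : p = (p - 1) + 1 := (Nat.sub_add_cancel hp.one_le).symm
    rw [this, pow_succ, h2, one_mul]
  have h4 : y ∈ (⊥ : Subfield κ) := (Subfield.mem_bot_iff_pow_eq_self κ p).mpr h3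
  obtain ⟨n, hn⟩ := (mem_bot_iff_intCast p κ).mp h4
  refine ⟨(n % (p : ℤ)).toNat, ?_⟩
  rw [← IsLocalRing.residue_eq_zero_iff, map_sub, map_natCast, sub_eq_zero, ← hy, ← hn]
  have hpos : 0 ≤ n % (p : ℤ) := Int.emod_nonneg _ (by exact_mod_cast hp.ne_zero)
  have h5 : (((n % (p : ℤ)).toNat : ℕ) : κ) = ((n % (p : ℤ) : ℤ) : κ) := by
    conv_rhs => rw [← Int.toNat_of_nonneg hpos]
    rw [Int.cast_natCast]
  rw [h5]
  have h6 : n = n % (p : ℤ) + (p : ℤ) * (n / (p : ℤ)) := (Int.emod_add_mul_ediv n p).symm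
  conv_lhs => rw [h6]
  rw [Int.cast_add, Int.cast_mul, Int.cast_natCast, hpκ, zero_mul, add_zero]

end Fermat.Agent.TW.Hopf.TameOrder
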