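import Mathlib
import Fermat.Agent.TW.Hopf.FlatSubquot
import Fermat.Agent.TW.Hopf.PointsOmega
import Fermat.Agent.TW.Hopf.TameOrder
import Fermat.Agent.TW.Hopf.OrdLin

/-!
# Flat characters are unramified or cyclotomic on inertia (S56 sprint, F4-red, helper5)

`ρ : GaloisRepAdic A` flat at `p`, `A` a finite local ring with `p = 0` and `𝔪 ^ 2 = 0`, `P | p`.
`rD`, `ID` : the action of the decomposition group `D_P` on `ρ.V` and the inertia subgroup, in the
vocabulary of `OrdLin`.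

`chi_cyclotomic` (= hypothesis `hchi` of `OrdLin.exists_line`): if `D_P` acts on a subquotient
`W / K` (`𝔪 W ≤ K`, `W ≠ K`) of `ρ.V` through a character `x` which is nontrivial on inertia, then
`x g ≡ a` modulo `𝔪` for every `g` in the inertia group acting on `μ_p` by `ζ ↦ ζ ^ a`.

Proof: `x` is multiplicative modulo `𝔪`; the tame relation (`TameOrder.exists_tame_relation`) gives
`x τ ^ ((p-1) p^a) ≡ 1`, so `x τ ≡ c_τ ∈ ℕ`; the orbit `{c • v}` has at most `p - 1` elements and the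
`θ`-lemma (`PointsOmega`) on the flat model of `W / K` (`FlatSubquot`) identifies `c_g` with `a`.
-/

set_option autoImplicit false
set_option linter.unusedSectionVars false

namespace Fermat.Agent.TW.Hopf.FlatChi

open IsLocalRing Fermat.Agent.TW.Hopf.Flat Fermat.Agent.TW.Hopf.FlatSubquot
  Fermat.Agent.TW.Hopf.OrdLin Fermat.Agent.TW.Hopf.DecompRing

local notation "Qb" => AlgebraicClosure ℚ
local notation "GQ" => (AlgebraicClosure ℚ ≃ₐ[ℚ] AlgebraicClosure ℚ)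

section Defs

variable {A : Type} [CommRing A] [IsLocalRing A] (ρ : GaloisRepAdic A) (P : ValuationSubring Qb)

/-- the action of the decomposition group on `ρ.V`. -/
noncomputable def rD : ↥(P.decompositionSubgroup ℚ) →* Module.End A ρ.V :=
  ρ.ρ.comp (P.decompositionSubgroup ℚ).subtype

theorem rD_apply (g : ↥(P.decompositionSubgroup ℚ)) (v : ρ.V) : rD ρ P g v = ρ.ρ (g : GQ) v := rfl

/-- the inertia group inside the decomposition group. -/
noncomputable def ID : Subgroup ↥(P.decompositionSubgroup ℚ) :=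
  (P.inertiaSubgroupIn ℚ).subgroupOf (P.decompositionSubgroup ℚ)

theorem mem_ID {g : ↥(P.decompositionSubgroup ℚ)} :
    g ∈ ID P ↔ (g : GQ) ∈ P.inertiaSubgroupIn ℚ := Subgroup.mem_subgroupOf

theorem ID_normal (g h : ↥(P.decompositionSubgroup ℚ)) (hh : h ∈ ID P) : g * h * g⁻¹ ∈ ID P := by
  rw [mem_ID] at hh ⊢
  haveI : Algebra.IsAlgebraic ℚ Qb := (AlgebraicClosure.instIsAlgClosure ℚ).isAlgebraic
  exact Fermat.Agent.BR2.TameChar.conj_mem_inertia g.2 hh

end Defs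

section Char

variable {A : Type} [CommRing A] [IsLocalRing A] (ρ : GaloisRepAdic A) (P : ValuationSubring Qb)
  {K W : Submodule A ρ.V} (hK : Stable (rD ρ P) K) (hW : Stable (rD ρ P) W)
  {x : ↥(P.decompositionSubgroup ℚ) → A}
  (hx : ∀ g : ↥(P.decompositionSubgroup ℚ), ∀ w ∈ W, rD ρ P g w - x g • w ∈ K)
  {w₀ : ρ.V} (hw₀W : w₀ ∈ W) (hw₀K : w₀ ∉ K)

include hw₀K in
theorem mem_max_of_smul_mem {u : A} (hu : u • w₀ ∈ K) : u ∈ maximalIdeal A := by
  by_contra h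
  rw [notMem_maximalIdeal] at h
  exact hw₀K (mem_of_unit_smul_mem h hu)

include hW hx hw₀W hw₀K in
theorem char_mul (g h : ↥(P.decompositionSubgroup ℚ)) : x (g * h) - x g * x h ∈ maximalIdeal A := by
  apply mem_max_of_smul_mem ρ hw₀K
  have h1 : (x (g * h) - x g * x h) • w₀
      = -(rD ρ P (g * h) w₀ - x (g * h) • w₀)
        + (rD ρ P g (rD ρ P h w₀) - x g • rD ρ P h w₀)
        + x g • (rD ρ P h w₀ - x h • w₀) := by
    rw [map_mul, Module.End.mul_apply, sub_smul, mul_smul, smul_sub]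
    abel
  rw [h1]
  exact K.add_mem (K.add_mem (K.neg_mem (hx (g * h) w₀ hw₀W)) (hx g _ (hW h w₀ hw₀W)))
    (K.smul_mem _ (hx h w₀ hw₀W))

include hx hw₀W hw₀K in
theorem char_one : x 1 - 1 ∈ maximalIdeal A := by
  apply mem_max_of_smul_mem ρ hw₀K
  have h1 : (x 1 - 1) • w₀ = -(rD ρ P 1 w₀ - x 1 • w₀) := by
    rw [map_one, Module.End.one_apply, sub_smul, one_smul]
    abel
  rw [h1]
  exact K.neg_mem (hx 1 w₀ hw₀W)

/-- the residual character. -/
noncomputable def resChar (hW : Stable (rD ρ P) W)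
    (hx : ∀ g : ↥(P.decompositionSubgroup ℚ), ∀ w ∈ W, rD ρ P g w - x g • w ∈ K)
    (hw₀W : w₀ ∈ W) (hw₀K : w₀ ∉ K) :
    ↥(P.decompositionSubgroup ℚ) →* ResidueField A where
  toFun g := residue A (x g)
  map_one' := by
    have h := char_one ρ P hx hw₀W hw₀K
    rw [← residue_eq_zero_iff, map_sub, map_one, sub_eq_zero] at h
    exact h
  map_mul' g h := by
    have h1 := char_mul ρ P hW hx hw₀W hw₀K g h
    rw [← residue_eq_zero_iff, map_sub, map_mul, sub_eq_zero] at h1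
    exact h1

theorem resChar_apply (g : ↥(P.decompositionSubgroup ℚ)) :
    resChar ρ P hW hx hw₀W hw₀K g = residue A (x g) := rfl

include hW hx hw₀W hw₀K in
theorem char_isUnit (g : ↥(P.decompositionSubgroup ℚ)) : IsUnit (x g) := by
  rw [← notMem_maximalIdeal, ← residue_eq_zero_iff, ← resChar_apply ρ P hW hx hw₀W hw₀K]
  intro h0
  have h1 : resChar ρ P hW hx hw₀W hw₀K (g * g⁻¹) = 1 := by rw [mul_inv_cancel, map_one]
  rw [map_mul, h0, zero_mul] at h1
  exact zero_ne_one h1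

include hx hw₀W hw₀K in
/-- if `g` acts trivially on `w₀` then `x g ≡ 1`. -/
theorem char_eq_one_of_fix {g : ↥(P.decompositionSubgroup ℚ)} (hg : rD ρ P g w₀ = w₀) :
    x g - 1 ∈ maximalIdeal A := by
  apply mem_max_of_smul_mem ρ hw₀K
  have h1 : (x g - 1) • w₀ = -(rD ρ P g w₀ - x g • w₀) := by
    rw [hg, sub_smul, one_smul]
    abel
  rw [h1]
  exact K.neg_mem (hx g w₀ hw₀W)

variable {p : ℕ} (hp : p.Prime) (hP : P.LiesOverPrime p) (hpA : (p : A) = 0)
  (hm2 : ∀ y ∈ maximalIdeal A, ∀ z ∈ maximalIdeal A, y * z = 0)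

include hm2 in
/-- `ρ` factors through a number field. -/
theorem exists_trivial_level : ∃ L₀ : IntermediateField ℚ Qb, FiniteDimensional ℚ L₀ ∧
    ∀ σ : GQ, (∀ z ∈ L₀, σ z = z) → ρ.ρ σ = 1 := by
  obtain ⟨L₀, hfin, hL₀⟩ := ρ.isAdicContinuous 2
  refine ⟨L₀, hfin, fun σ hσ => ?_⟩
  have hm : maximalIdeal A ^ 2 = ⊥ := by
    rw [eq_bot_iff, pow_two, Ideal.mul_le]
    intro y hy z hz
    rw [hm2 y hy z hz]
    exact Ideal.zero_mem _
  apply LinearMap.ext
  intro v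
  have h1 := hL₀ σ hσ v
  rw [hm, Submodule.bot_smul, Submodule.mem_bot, sub_eq_zero] at h1
  rw [h1, Module.End.one_apply]

include hW hx hw₀W hw₀K hp hP hpA hm2 in
/-- **the character is congruent to a natural number on inertia** (tame relation). -/
theorem exists_natCast_char {τ : ↥(P.decompositionSubgroup ℚ)} (hτ : τ ∈ ID P) :
    ∃ c : ℕ, x τ - (c : A) ∈ maximalIdeal A := by
  classical
  obtain ⟨L₀, hfin, hL₀⟩ := exists_trivial_level ρ hm2
  haveI := hfin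
  obtain ⟨σ, hσ, a, ha⟩ := Fermat.Agent.TW.Hopf.TameOrder.exists_tame_relation ρ.ρ L₀ hL₀ hp P hP
    ((mem_ID P).mp hτ)
  set σ' : ↥(P.decompositionSubgroup ℚ) := ⟨σ, hσ⟩ with hσ'
  set c' : ↥(P.decompositionSubgroup ℚ) := σ' * τ * σ'⁻¹ * (τ ^ p)⁻¹ with hc'
  have hfix : rD ρ P (c' ^ (p ^ a)) w₀ = w₀ := by
    rw [rD_apply]
    have : ((c' ^ (p ^ a) : ↥(P.decompositionSubgroup ℚ)) : GQ)
        = (σ * (τ : GQ) * σ⁻¹ * ((τ : GQ) ^ p)⁻¹) ^ (p ^ a) := rfl
    rw [this, ha, Module.End.one_apply]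
  have h1 := char_eq_one_of_fix ρ P hx hw₀W hw₀K hfix
  set χ := (resChar ρ P hW hx hw₀W hw₀K).toHomUnits with hχ
  have hχ1 : χ (c' ^ (p ^ a)) = 1 := by
    apply Units.ext
    rw [hχ, MonoidHom.coe_toHomUnits, resChar_apply, Units.val_one]
    rw [← residue_eq_zero_iff, map_sub, map_one, sub_eq_zero] at h1
    exact h1
  have hχ2 : χ c' = (χ τ ^ (p - 1))⁻¹ := by
    rw [hc', map_mul, map_mul, map_mul, map_inv, map_inv, map_pow, mul_comm (χ σ') (χ τ),
      mul_inv_cancel_right]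
    have : p = (p - 1) + 1 := (Nat.sub_add_cancel hp.one_le).symm
    conv_lhs => rw [this, pow_succ, mul_inv_rev, mul_inv_cancel_left]
  rw [map_pow, hχ2, inv_pow, inv_eq_one] at hχ1
  have hpA' : (p : A) ∈ maximalIdeal A := by rw [hpA]; exact Ideal.zero_mem _
  apply Fermat.Agent.TW.Hopf.TameOrder.exists_natCast_sub_mem hp hpA' (a := a)
  rw [← residue_eq_zero_iff, map_sub, map_pow, map_pow, map_one, sub_eq_zero]
  have h2 := congrArg (fun u : (ResidueField A)ˣ => (u : ResidueField A)) hχ1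
  simp only [Units.val_pow_eq_pow_val, Units.val_one] at h2
  rw [hχ, MonoidHom.coe_toHomUnits, resChar_apply] at h2
  exact h2

include hx hw₀W in
/-- if `x g ≡ c` modulo `𝔪` and `𝔪 W ≤ K` then `g w₀ ≡ c • w₀` modulo `K`. -/
theorem act_sub_nsmul_mem (hmW : maximalIdeal A • W ≤ K) {g : ↥(P.decompositionSubgroup ℚ)} {c : ℕ}
    (hc : x g - (c : A) ∈ maximalIdeal A) : rD ρ P g w₀ - c • w₀ ∈ K := by
  have h1 : rD ρ P g w₀ - c • w₀ = (rD ρ P g w₀ - x g • w₀) + (x g - (c : A)) • w₀ := by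
    rw [sub_smul, Nat.cast_smul_eq_nsmul]
    abel
  rw [h1]
  exact K.add_mem (hx g w₀ hw₀W) (hmW (Submodule.smul_mem_smul hc hw₀W))

end Char

section Main

variable {A : Type} [CommRing A] [IsLocalRing A] [Finite A] (ρ : GaloisRepAdic A)
  (P : ValuationSubring Qb) {p : ℕ} (hp : p.Prime) (hP : P.LiesOverPrime p) (hpA : (p : A) = 0)
  (hm2 : ∀ y ∈ maximalIdeal A, ∀ z ∈ maximalIdeal A, y * z = 0) (hflat : ρ.IsFlatAt p)
  {ζ : Qb} (hζ : IsPrimitiveRoot ζ p)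

include hp hP hpA hm2 hflat hζ in
/-- **a ramified character on a flat subquotient is cyclotomic on inertia**
(hypothesis `hchi` of `OrdLin.exists_line`). -/
theorem chi_cyclotomic (K W : Submodule A ρ.V) (hK : Stable (rD ρ P) K) (hW : Stable (rD ρ P) W)
    (_hKW : K ≤ W) (hmW : maximalIdeal A • W ≤ K) (x : ↥(P.decompositionSubgroup ℚ) → A)
    (hx : ∀ g : ↥(P.decompositionSubgroup ℚ), ∀ w ∈ W, rD ρ P g w - x g • w ∈ K)
    (hw : ∃ w ∈ W, w ∉ K) (hram : ∃ g ∈ ID P, x g - 1 ∉ maximalIdeal A)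
    (g : ↥(P.decompositionSubgroup ℚ)) (hg : g ∈ ID P) (a : ℕ) (hga : (g : GQ) ζ = ζ ^ a) :
    x g - (a : A) ∈ maximalIdeal A := by
  classical
  obtain ⟨w₀, hw₀W, hw₀K⟩ := hw
  obtain ⟨g₀, hg₀, hg₀u⟩ := hram
  rw [notMem_maximalIdeal] at hg₀u
  -- the flat model of the subquotient
  have hW' : ∀ σ ∈ P.decompositionSubgroup ℚ, ∀ v ∈ W.toAddSubgroup, ρ.ρ σ v ∈ W.toAddSubgroup :=
    fun σ hσ v hv => hW ⟨σ, hσ⟩ v hv
  have hK' : ∀ σ ∈ P.decompositionSubgroup ℚ, ∀ v ∈ K.toAddSubgroup, ρ.ρ σ v ∈ K.toAddSubgroup :=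
    fun σ hσ v hv => hK ⟨σ, hσ⟩ v hv
  obtain ⟨M⟩ := exists_flatModel ρ P hW' hK' hp hP hflat
  set X := ↥W.toAddSubgroup ⧸ K.toAddSubgroup.addSubgroupOf W.toAddSubgroup with hX
  set mk : W.toAddSubgroup → X := fun w => QuotientAddGroup.mk w with hmk
  set v₀ : X := mk ⟨w₀, hw₀W⟩ with hv₀
  have hv₀ne : v₀ ≠ 0 := by
    intro h
    exact hw₀K ((mk_eq_zero_iff ρ (W := W.toAddSubgroup) (K := K.toAddSubgroup) ⟨w₀, hw₀W⟩).mp h)
  have hpv : ∀ v : X, p • v = 0 := by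
    intro v
    obtain ⟨w, rfl⟩ := QuotientAddGroup.mk_surjective v
    rw [← QuotientAddGroup.mk_nsmul]
    have : p • w = 0 := by
      apply Subtype.ext
      show p • (w : ρ.V) = 0
      rw [← Nat.cast_smul_eq_nsmul A, hpA, zero_smul]
    rw [this]
    rfl
  -- the action on `v₀`
  have hact : ∀ (σ : ↥(P.decompositionSubgroup ℚ)) (c : ℕ), x σ - (c : A) ∈ maximalIdeal A →
      actX ρ P hW' hK' σ v₀ = c • v₀ := by
    intro σ c hc
    rw [hv₀, hmk, actX_mk, ← QuotientAddGroup.mk_nsmul, QuotientAddGroup.eq]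
    show -(rD ρ P σ w₀) + c • w₀ ∈ K
    have := K.neg_mem (act_sub_nsmul_mem ρ P hx hw₀W hmW hc)
    rwa [neg_sub, sub_eq_neg_add] at this
  -- `v₀` is in the connected part
  have hv₀mem : v₀ ∈ M.V0 P (decompRing_mem P) := by
    set w' : ρ.V := (↑hg₀u.unit⁻¹ : A) • w₀ with hw'
    have hw'W : w' ∈ W := W.smul_mem _ hw₀W
    have h1 := FlatModel.act_sub_mem_V0 M P (decompRing_mem P) ((mem_ID P).mp hg₀)
      (mk ⟨w', hw'W⟩)
    have h2 : actX ρ P hW' hK' g₀ (mk ⟨w', hw'W⟩) - mk ⟨w', hw'W⟩ = v₀ := by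
      rw [hv₀, hmk, actX_mk, ← QuotientAddGroup.mk_sub, QuotientAddGroup.eq]
      show -(rD ρ P g₀ w' - w') + w₀ ∈ K
      have h3 : -(rD ρ P g₀ w' - w') + w₀
          = -((↑hg₀u.unit⁻¹ : A) • (rD ρ P g₀ w₀ - x g₀ • w₀)) := by
        have h4 : (↑hg₀u.unit⁻¹ : A) * (x g₀ - 1) = 1 := IsUnit.val_inv_mul hg₀u
        have h5 : w₀ = ((↑hg₀u.unit⁻¹ : A) * (x g₀ - 1)) • w₀ := by rw [h4, one_smul]
        conv_lhs => rw [h5]
        rw [hw', map_smul, smul_sub, mul_smul, sub_smul, one_smul, smul_sub]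
        abel
      rw [h3]
      exact K.neg_mem (K.smul_mem _ (hx g₀ w₀ hw₀W))
    rw [← h2]
    exact h1
  -- the characters on inertia are natural numbers
  have hnat : ∀ σ : ↥(P.decompositionSubgroup ℚ), (σ : GQ) ∈ P.inertiaSubgroupIn ℚ →
      ∃ c : ℕ, x σ - (c : A) ∈ maximalIdeal A ∧ ¬ p ∣ c := by
    intro σ hσ
    obtain ⟨c, hc⟩ := exists_natCast_char ρ P hW hx hw₀W hw₀K hp hP hpA hm2 ((mem_ID P).mpr hσ)
    refine ⟨c, hc, ?_⟩
    rintro ⟨m, rfl⟩
    have hu := char_isUnit ρ P hW hx hw₀W hw₀K σ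
    rw [← notMem_maximalIdeal] at hu
    apply hu
    have : x σ = (x σ - ((p * m : ℕ) : A)) + ((p * m : ℕ) : A) := by ring
    rw [this]
    refine Ideal.add_mem _ hc ?_
    rw [Nat.cast_mul, hpA, zero_mul]
    exact Ideal.zero_mem _
  -- the orbit
  set S : Finset X := ((Finset.range p).erase 0).image (fun c : ℕ => c • v₀) with hS
  have hvS : v₀ ∈ S := by
    rw [hS, Finset.mem_image]
    refine ⟨1, ?_, one_nsmul _⟩
    rw [Finset.mem_erase, Finset.mem_range]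
    exact ⟨one_ne_zero, hp.one_lt⟩
  have hSstab : ∀ σ : ↥(P.decompositionSubgroup ℚ), (σ : GQ) ∈ P.inertiaSubgroupIn ℚ →
      ∀ y ∈ S, (fun σ x => actX ρ P hW' hK' σ x) σ y ∈ S := by
    intro σ hσ y hy
    obtain ⟨c, hc, rfl⟩ := Finset.mem_image.mp hy
    rw [Finset.mem_erase, Finset.mem_range] at hc
    obtain ⟨cσ, hcσ, hpcσ⟩ := hnat σ hσ
    show actX ρ P hW' hK' σ (c • v₀) ∈ S
    rw [map_nsmul, hact σ cσ hcσ, smul_smul]
    have h1 : (c * cσ) • v₀ = ((c * cσ) % p) • v₀ := by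
      conv_lhs => rw [← Nat.mod_add_div (c * cσ) p, add_smul, mul_smul, hpv, add_zero]
    rw [h1, hS, Finset.mem_image]
    refine ⟨(c * cσ) % p, ?_, rfl⟩
    rw [Finset.mem_erase, Finset.mem_range]
    refine ⟨?_, Nat.mod_lt _ hp.pos⟩
    intro h0
    have hdvd : p ∣ c * cσ := Nat.dvd_of_mod_eq_zero h0
    rcases hp.dvd_mul.mp hdvd with h | h
    · exact absurd (Nat.le_of_dvd (Nat.pos_of_ne_zero hc.1) h) (not_le.mpr hc.2)
    · exact hpcσ h
  have hcard : S.card ≤ p - 1 := by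
    refine le_trans Finset.card_image_le ?_
    rw [Finset.card_erase_of_mem (Finset.mem_range.mpr hp.pos), Finset.card_range]
  obtain ⟨cg, hcg, -⟩ := hnat g ((mem_ID P).mp hg)
  have hθ := Fermat.Agent.TW.Hopf.PointsOmega.FlatModel.natCast_eq_of_act_eq_nsmul M hp P hP
    (decompRing_mem P) (inertia_le P) hv₀mem (hpv v₀) hv₀ne S hvS hSstab hcard
    ((mem_ID P).mp hg) (hact g cg hcg) hζ hga
  have hmod : cg % p = a % p := (ZMod.natCast_eq_natCast_iff' cg a p).mp hθ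
  have hcast : ∀ n : ℕ, (n : A) = ((n % p : ℕ) : A) := by
    intro n
    conv_lhs => rw [← Nat.mod_add_div n p, Nat.cast_add, Nat.cast_mul, hpA, zero_mul, add_zero]
  rw [hcast a, ← hmod, ← hcast cg]
  exact hcg

end Main

end Fermat.Agent.TW.Hopf.FlatChi
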