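import Mathlib
import Fermat.Agent.TW.Ord.Rigid
import Fermat.Prelude.Def_GaloisRep_Flat

/-!
# S56 sprint, block LOC-flat (ORD case): matrix form of the ordinary line

Translation layer between the module form of F2 (`∃ L = span {b 0}`, stable under `D_P`, inertia
trivial on `V / L` — the body of the Prelude's `IsOrdinaryAt`) and the matrix contract
`triangular_of_flat` (helper19's `MatRep` / `conjHom` / `redHom` vocabulary):

* `stableSub` : the submodule `E ⊆ k[ε]²` of vectors whose reduction lies in the `k`-line spanned by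
  the first column of `B₀` (`hred`), with `smul_top_lt_stableSub`, `stableSub_lt_top`,
  `stableSub_stable`;
* `triangular_of_line` : ordinary line + `det = cyclotomic` ⇒ matrix shape;
* `triangular_of_flat_of_line` : the contract, given the module-level F2 statement as a hypothesis.
-/

set_option autoImplicit false
set_option linter.unusedSectionVars false

namespace Fermat.Agent.TW.Hopf.FlatTri

open Matrix Fermat.Agent.TW.Sel Fermat.Agent.TW.Ord Fermat.Agent.S53

local notation "M2" => Matrix (Fin 2) (Fin 2)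
local notation "Qb" => AlgebraicClosure ℚ
local notation "GQ" => (AlgebraicClosure ℚ ≃ₐ[ℚ] AlgebraicClosure ℚ)

variable {k : Type} [Field k]

/-- The module form of "ordinary at `P`" for a matrix representation (body of `IsOrdinaryAt`). -/
def HasOrdLine (r : MatRep (DualNumber k)) (P : ValuationSubring Qb) : Prop :=
  ∃ L : Submodule (DualNumber k) r.toAdic.V,
    (∃ b : Module.Basis (Fin 2) (DualNumber k) r.toAdic.V, L = Submodule.span (DualNumber k) {b 0}) ∧
    (∀ σ ∈ P.decompositionSubgroup ℚ, ∀ v ∈ L, r.toAdic.ρ σ v ∈ L) ∧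
    (∀ σ ∈ P.inertiaSubgroupIn ℚ, ∀ v : r.toAdic.V, r.toAdic.ρ σ v - v ∈ L)

/-- **(T4)** ordinary line + cyclotomic determinant ⇒ the matrix shape of `triangular_of_flat`. -/
theorem triangular_of_line {p : ℕ} (r : MatRep (DualNumber k))
    (hdet : r.toAdic.DetIsCyclotomic p) (P : ValuationSubring Qb) (hL : HasOrdLine r P) :
    ∃ B : (M2 (DualNumber k))ˣ,
      (∀ σ ∈ P.decompositionSubgroup ℚ, (conjHom B r.toHom σ) 1 0 = 0) ∧
      (∀ σ ∈ P.inertiaSubgroupIn ℚ, (conjHom B r.toHom σ) 1 1 = 1 ∧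
        ∀ a : ℕ, (∀ μ : Qb, μ ^ p = 1 → σ μ = μ ^ a) →
          (conjHom B r.toHom σ) 0 0 = (a : DualNumber k)) := by
  obtain ⟨L, ⟨b, hLb⟩, hD, hI⟩ := hL
  have hp0 : (p : DualNumber k) = 0 := natCast_dualNumber_eq_zero hdet.1
  have hbot : Ideal.span {(((p ^ 1 : ℕ)) : DualNumber k)} = ⊥ := by
    rw [pow_one, hp0]; exact Ideal.span_singleton_eq_bot.2 rfl
  have hx : ∀ σ ∈ P.decompositionSubgroup ℚ, ∃ x : DualNumber k, (r σ) *ᵥ (b 0) = x • b 0 := by
    intro σ hσ
    have h := hD σ hσ (b 0) (by rw [hLb]; exact Submodule.mem_span_singleton_self _)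
    rw [hLb] at h
    obtain ⟨x, hx⟩ := Submodule.mem_span_singleton.1 h
    exact ⟨x, hx.symm⟩
  refine ⟨basisUnit b, fun σ hσ => ?_, fun σ hσ => ?_⟩
  · obtain ⟨x, hx⟩ := hx σ hσ
    rw [conjHom_apply]
    exact (basisUnit_conj_col_zero b (r σ) hx).1
  · have hσD : σ ∈ P.decompositionSubgroup ℚ := by
      obtain ⟨i', -, rfl⟩ := hσ
      exact i'.2
    obtain ⟨x, hx⟩ := hx σ hσD
    obtain ⟨e10, e00⟩ := basisUnit_conj_col_zero b (r σ) hx
    have e11 : ((((basisUnit b)⁻¹ : (M2 (DualNumber k))ˣ) : M2 (DualNumber k)) * r σ *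
        (basisUnit b : M2 (DualNumber k))) 1 1 = 1 := by
      refine basisUnit_conj_one_one b (r σ) ?_
      have := hI σ hσ (b 1)
      rw [hLb] at this
      rw [one_smul]
      exact this
    rw [← conjHom_apply (basisUnit b) r.toHom σ] at e10 e00 e11
    refine ⟨e11, fun a ha => ?_⟩
    have hdetT : (r σ).det = x := by
      have h1 : (conjHom (basisUnit b) r.toHom σ).det = (r σ).det := by
        rw [conjHom_apply]; exact Matrix.det_units_conj' _ _
      rw [← h1, Matrix.det_fin_two, e10, e00, e11, mul_zero, sub_zero, mul_one]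
    have hda : (r σ).det = (a : DualNumber k) := by
      have := hdet.2 1 σ a (fun μ hμ => ha μ (by rwa [pow_one] at hμ))
      rw [hbot, Ideal.mem_bot, sub_eq_zero] at this
      rw [← this]
      exact (LinearMap.det_toLin' (r.toHom σ)).symm
    rw [e00, ← hdetT, hda]

/-! ### (T0) the stable submodule attached to `hred` -/

/-- Vectors of `k[ε]²` whose reduction mod `ε` is a multiple of `w`. -/
def stableSub (w : Fin 2 → k) : Submodule (DualNumber k) (Fin 2 → DualNumber k) where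
  carrier := {v | ∃ c : k, ∀ i, (v i).fst = c * w i}
  add_mem' := by
    rintro v v' ⟨c, hc⟩ ⟨c', hc'⟩
    exact ⟨c + c', fun i => by rw [Pi.add_apply, TrivSqZeroExt.fst_add, hc, hc', add_mul]⟩
  zero_mem' := ⟨0, fun i => by simp⟩
  smul_mem' := by
    rintro a v ⟨c, hc⟩
    exact ⟨a.fst * c, fun i => by
      rw [Pi.smul_apply, smul_eq_mul, TrivSqZeroExt.fst_mul, hc, mul_assoc]⟩

theorem mem_stableSub {w : Fin 2 → k} {v : Fin 2 → DualNumber k} :
    v ∈ stableSub w ↔ ∃ c : k, ∀ i, (v i).fst = c * w i := Iff.rfl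

theorem fst_eq_zero_of_mem_maximalIdeal {a : DualNumber k}
    (ha : a ∈ IsLocalRing.maximalIdeal (DualNumber k)) : a.fst = 0 := by
  rw [IsLocalRing.mem_maximalIdeal, mem_nonunits_iff, TrivSqZeroExt.isUnit_iff_isUnit_fst,
    isUnit_iff_ne_zero, not_not] at ha
  exact ha

theorem smul_top_lt_stableSub {w : Fin 2 → k} (hw : w ≠ 0) :
    IsLocalRing.maximalIdeal (DualNumber k) • (⊤ : Submodule (DualNumber k) (Fin 2 → DualNumber k))
      < stableSub w := by
  refine lt_of_le_of_ne (fun v hv => ⟨0, fun i => ?_⟩) (fun h => hw ?_)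
  · rw [zero_mul]
    exact fst_eq_zero_of_mem_maximalIdeal (MatRep.forall_mem_of_mem_smul_top hv i)
  · have hmem : (fun i => (TrivSqZeroExt.inl (w i) : DualNumber k)) ∈ stableSub w :=
      ⟨1, fun i => by rw [TrivSqZeroExt.fst_inl, one_mul]⟩
    rw [← h] at hmem
    funext i
    have := fst_eq_zero_of_mem_maximalIdeal (MatRep.forall_mem_of_mem_smul_top hmem i)
    rwa [TrivSqZeroExt.fst_inl] at this

theorem stableSub_lt_top {w : Fin 2 → k} (w' : Fin 2 → k) (hw' : ∀ c : k, w' ≠ c • w) :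
    stableSub w < ⊤ := by
  refine lt_of_le_of_ne le_top (fun h => ?_)
  have hmem : (fun i => (TrivSqZeroExt.inl (w' i) : DualNumber k)) ∈ stableSub w := by
    rw [h]; exact Submodule.mem_top
  obtain ⟨c, hc⟩ := hmem
  refine hw' c ?_
  funext i
  have := hc i
  rwa [TrivSqZeroExt.fst_inl] at this

theorem stableSub_stable {w : Fin 2 → k} (X : M2 (DualNumber k)) {x : k}
    (hX : (mfst X) *ᵥ w = x • w) {v : Fin 2 → DualNumber k} (hv : v ∈ stableSub w) :
    X *ᵥ v ∈ stableSub w := by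
  obtain ⟨c, hc⟩ := hv
  refine ⟨c * x, fun i => ?_⟩
  have h1 : ((X *ᵥ v) i).fst = ∑ j, (X i j).fst * (v j).fst := by
    simp only [Matrix.mulVec, dotProduct]
    rw [← TrivSqZeroExt.fstHom_apply k, map_sum]
    simp [TrivSqZeroExt.fst_mul]
  have h2 : ∑ j, (X i j).fst * w j = x * w i := by
    have := congrFun hX i
    simpa [Matrix.mulVec, dotProduct] using this
  rw [h1]
  simp only [hc]
  rw [mul_assoc, ← h2, Finset.mul_sum]
  refine Finset.sum_congr rfl fun j _ => ?_
  ring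

/-- First column of a conjugate with vanishing lower-left entry: an eigenvector. -/
theorem mulVec_col_zero_of_conj {B₀ : (M2 k)ˣ} {Y : M2 k}
    (h : ((B₀⁻¹ : (M2 k)ˣ) * Y * B₀ : M2 k) 1 0 = 0) :
    Y *ᵥ (fun i => (B₀ : M2 k) i 0) =
      (((B₀⁻¹ : (M2 k)ˣ) * Y * B₀ : M2 k) 0 0) • (fun i => (B₀ : M2 k) i 0) := by
  set Z : M2 k := ((B₀⁻¹ : (M2 k)ˣ) : M2 k) * Y * (B₀ : M2 k) with hZ
  have hYB : Y * (B₀ : M2 k) = (B₀ : M2 k) * Z := by
    rw [hZ, ← mul_assoc, ← mul_assoc, Units.mul_inv, one_mul]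
  funext i
  have h1 := congrFun (congrFun hYB i) 0
  simp only [Matrix.mul_apply, Fin.sum_univ_two] at h1
  simp only [Matrix.mulVec, dotProduct, Fin.sum_univ_two, Pi.smul_apply, smul_eq_mul]
  rw [h1, h, mul_zero, add_zero, mul_comm]

/-- **The contract `triangular_of_flat`, given the module-level F2 statement** (`hline` is
literally the conclusion of `exists_ordinary_line_of_isFlatAt` for `ρ := r.toAdic`). -/
theorem triangular_of_flat_of_line {p : ℕ} (r : MatRep (DualNumber k))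
    (hdet : r.toAdic.DetIsCyclotomic p) (P : ValuationSubring Qb)
    (hline : ∀ E : Submodule (DualNumber k) r.toAdic.V,
      IsLocalRing.maximalIdeal (DualNumber k) • (⊤ : Submodule (DualNumber k) r.toAdic.V) < E →
      E < ⊤ → (∀ σ ∈ P.decompositionSubgroup ℚ, ∀ v ∈ E, r.toAdic.ρ σ v ∈ E) → HasOrdLine r P)
    (hred : ∃ B₀ : (M2 k)ˣ, ∀ σ ∈ P.decompositionSubgroup ℚ,
      ((B₀⁻¹ : (M2 k)ˣ) * redHom r.toHom σ * B₀ : M2 k) 1 0 = 0) :
    ∃ B : (M2 (DualNumber k))ˣ,
      (∀ σ ∈ P.decompositionSubgroup ℚ, (conjHom B r.toHom σ) 1 0 = 0) ∧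
      (∀ σ ∈ P.inertiaSubgroupIn ℚ, (conjHom B r.toHom σ) 1 1 = 1 ∧
        ∀ a : ℕ, (∀ μ : Qb, μ ^ p = 1 → σ μ = μ ^ a) →
          (conjHom B r.toHom σ) 0 0 = (a : DualNumber k)) := by
  obtain ⟨B₀, hB₀⟩ := hred
  refine triangular_of_line r hdet P (hline (stableSub (fun i => (B₀ : M2 k) i 0)) ?_ ?_ ?_)
  · refine smul_top_lt_stableSub (fun h => ?_)
    have hdet0 : (B₀ : M2 k).det = 0 := by
      rw [Matrix.det_fin_two]
      have h0 := congrFun h 0
      have h1 := congrFun h 1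
      simp only [Pi.zero_apply] at h0 h1
      rw [h0, h1, zero_mul, mul_zero, sub_zero]
    have hu : IsUnit (B₀ : M2 k).det := (Matrix.isUnit_iff_isUnit_det _).1 B₀.isUnit
    rw [hdet0] at hu
    exact not_isUnit_zero hu
  · refine stableSub_lt_top (fun i => (B₀ : M2 k) i 1) (fun c h => ?_)
    have hdet0 : (B₀ : M2 k).det = 0 := by
      rw [Matrix.det_fin_two]
      have h0 := congrFun h 0
      have h1 := congrFun h 1
      simp only [Pi.smul_apply, smul_eq_mul] at h0 h1
      rw [h0, h1]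
      ring
    have hu : IsUnit (B₀ : M2 k).det := (Matrix.isUnit_iff_isUnit_det _).1 B₀.isUnit
    rw [hdet0] at hu
    exact not_isUnit_zero hu
  · intro σ hσ v hv
    exact stableSub_stable (r σ) (mulVec_col_zero_of_conj (hB₀ σ hσ)) hv

end Fermat.Agent.TW.Hopf.FlatTri
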