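import Mathlib
import Fermat.Agent.TW.Hopf.FlatRigid
import Fermat.Agent.TW.Hopf.OrdLin

/-!
# S56 sprint, LOC-flat (ORD case): the rigidity hypothesis `hrig` of `OrdLin.exists_line`

`rig_decomp` : for a flat `ρ : GaloisRepAdic A` (`A` finite local, `p = 0` in `A`, `p` odd) and a
place `P | p`, the restriction of `ρ` to `G := ↥D_P` with `I := I_P ⊓ D_P` satisfies literally the
hypothesis `hrig` of helper5's `OrdLin.exists_line` / `OrdLin.exists_line_of_good`.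
(Adapter from `FlatRigid.isRigid_of_isFlatAt`.)
-/

set_option autoImplicit false
set_option linter.unusedSectionVars false

namespace Fermat.Agent.TW.Hopf.RigDecomp

open Fermat.Agent.TW.Hopf

local notation "Qb" => AlgebraicClosure ℚ
local notation "GQ" => (AlgebraicClosure ℚ ≃ₐ[ℚ] AlgebraicClosure ℚ)

theorem rig_decomp {A : Type} [CommRing A] [IsLocalRing A] [Finite A] {p : ℕ} (hp : p.Prime)
    (hp2 : p ≠ 2) (hpA : (p : A) = 0) (ρ : GaloisRepAdic A) (hflat : ρ.IsFlatAt p)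
    (P : ValuationSubring Qb) (hP : P.LiesOverPrime p) :
    let r : ↥(P.decompositionSubgroup ℚ) →* Module.End A ρ.V :=
      ρ.ρ.comp (P.decompositionSubgroup ℚ).subtype
    let I : Subgroup ↥(P.decompositionSubgroup ℚ) :=
      (P.inertiaSubgroupIn ℚ).subgroupOf (P.decompositionSubgroup ℚ)
    ∀ K W : Submodule A ρ.V, OrdLin.Stable r K → OrdLin.Stable r W → K ≤ W → ∀ y ∈ W,
      y ∈ K ⊔ OrdLin.J r I W → (∀ g ∈ I, r g y - y ∈ K) → y ∈ K := by
  intro r I K W hK hW hKW y hy hmem hfix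
  refine FlatRigid.isRigid_of_isFlatAt P hp hp2 hpA ρ hflat hP W K hKW
    (fun τ hτ v hv => hW ⟨τ, hτ⟩ v hv) (fun τ hτ v hv => hK ⟨τ, hτ⟩ v hv) y hy
    (fun σ hσ => hfix ⟨σ, FlatRigid.inertia_le_decomp P hσ⟩ hσ) ?_
  refine (sup_le_sup le_rfl ?_ : K ⊔ OrdLin.J r I W ≤ _) hmem
  refine Submodule.span_le.2 ?_
  rintro _ ⟨g, hg, w, hw, rfl⟩
  exact Submodule.mem_iSup_of_mem (g : GQ) (Submodule.mem_iSup_of_mem hg ⟨w, hw, rfl⟩)

end Fermat.Agent.TW.Hopf.RigDecomp
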