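import Mathlib
import Fermat.Agent.TW.Hopf.FlatChi
import Fermat.Agent.TW.Hopf.RigDecomp
import Fermat.Agent.BR3.WildCyclo
import Fermat.Agent.TW.Ord.Rigid
import Fermat.Agent.TW.Hopf.FlatTri

/-!
# FLAT ⇒ ORD: a flat deformation of a locally reducible residual representation is ordinary
(S56 sprint, LOC-flat ORD case, F2 = OF-1 + OF-2; helper5, with helper11's F0 / `rig_decomp`)

`A` a finite local ring with `p = 0` and `𝔪 ^ 2 = 0` (`A = k[ε]`, `k` finite of characteristic `p`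
odd), `ρ : GaloisRepAdic A` flat at `p` with cyclotomic determinant, `P | p`.  If `ρ.V` has a
`D_P`-stable submodule strictly between `𝔪 V` and `V` (the residual representation has a
`D_P`-stable line), then there is a `D_P`-stable free rank-one direct summand `L` with `I_P` acting
trivially on `V / L`: the body of the Prelude's `GaloisRepAdic.IsOrdinaryAt` at `P`
(`exists_ordinary_line_of_isFlatAt`, `exists_ordinary_line_of_isFlatAt_dualNumber`).
-/

set_option autoImplicit false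
set_option linter.unusedSectionVars false

namespace Fermat.Agent.TW.Hopf.FlatOrd

open IsLocalRing Fermat.Agent.TW.Hopf.OrdLin Fermat.Agent.TW.Hopf.FlatChi
  Fermat.Agent.TW.Hopf.FlatSubquot

local notation "Qb" => AlgebraicClosure ℚ
local notation "GQ" => (AlgebraicClosure ℚ ≃ₐ[ℚ] AlgebraicClosure ℚ)

/-- if `g ζ = ζ ^ a` for a primitive `p`-th root of unity then `g μ = μ ^ a` on all of `μ_p`. -/
theorem apply_eq_pow_of_primitiveRoot {p : ℕ} (hp : p.Prime) {ζ : Qb} (hζ : IsPrimitiveRoot ζ p)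
    {g : GQ} {a : ℕ} (hga : g ζ = ζ ^ a) (μ : Qb) (hμ : μ ^ p = 1) : g μ = μ ^ a := by
  have : NeZero p := ⟨hp.ne_zero⟩
  obtain ⟨j, -, rfl⟩ := hζ.eq_pow_of_pow_eq_one hμ
  rw [map_pow, hga, ← pow_mul, ← pow_mul, mul_comm]

/-- **FLAT ⇒ ORD** over a finite local ring with `p = 0`, `𝔪 ^ 2 = 0`. -/
theorem exists_ordinary_line_of_isFlatAt {A : Type} [CommRing A] [IsLocalRing A] [Finite A]
    {p : ℕ} (hp : p.Prime) (hp2 : p ≠ 2) (hpA : (p : A) = 0)
    (hm2 : ∀ y ∈ maximalIdeal A, ∀ z ∈ maximalIdeal A, y * z = 0)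
    (ρ : GaloisRepAdic A) (hflat : ρ.IsFlatAt p) (hdet : ρ.DetIsCyclotomic p)
    (P : ValuationSubring Qb) (hP : P.LiesOverPrime p)
    (E : Submodule A ρ.V) (hE1 : maximalIdeal A • (⊤ : Submodule A ρ.V) < E) (hE2 : E < ⊤)
    (hED : ∀ σ ∈ P.decompositionSubgroup ℚ, ∀ v ∈ E, ρ.ρ σ v ∈ E) :
    ∃ L : Submodule A ρ.V, (∃ b : Module.Basis (Fin 2) A ρ.V, L = A ∙ b 0) ∧
      (∀ σ ∈ P.decompositionSubgroup ℚ, ∀ v ∈ L, ρ.ρ σ v ∈ L) ∧
      (∀ σ ∈ P.inertiaSubgroupIn ℚ, ∀ v : ρ.V, ρ.ρ σ v - v ∈ L) := by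
  classical
  have : NeZero p := ⟨hp.ne_zero⟩
  obtain ⟨ζ, hζ⟩ : ∃ ζ : Qb, IsPrimitiveRoot ζ p := HasEnoughRootsOfUnity.exists_primitiveRoot Qb p
  set cyc : ↥(P.decompositionSubgroup ℚ) → ℕ → Prop := fun g a => (g : GQ) ζ = ζ ^ a with hcyc
  have hcyc_ex : ∀ g ∈ ID P, ∃ a, cyc g a := by
    intro g _
    have h1 : ((g : GQ) ζ) ^ p = 1 := by rw [← map_pow, hζ.pow_eq_one, map_one]
    obtain ⟨i, -, hi⟩ := hζ.eq_pow_of_pow_eq_one h1
    exact ⟨i, hi.symm⟩
  have hcyc_ne : ∃ g ∈ ID P, ∃ a, cyc g a ∧ ((a : A) - 1) ∉ maximalIdeal A := by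
    have h2 : ¬ p ∣ 2 := by
      intro h
      have := (Nat.prime_dvd_prime_iff_eq hp Nat.prime_two).mp h
      exact hp2 this
    obtain ⟨σ, hσ, hσζ, -⟩ := Fermat.Agent.BR3.WildCyclo.exists_inertia_apply_eq_pow hp hζ P hP h2
    refine ⟨⟨σ, inertia_le P hσ⟩, (mem_ID P).mpr hσ, 2, hσζ, ?_⟩
    have : ((2 : ℕ) : A) - 1 = 1 := by push_cast; ring
    rw [this]
    exact fun h => (Ideal.ne_top_iff_one _).mp (maximalIdeal.isMaximal A).ne_top h
  have hdet' : ∀ g ∈ ID P, ∀ a, cyc g a → LinearMap.det (rD ρ P g) = (a : A) := by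
    intro g _ a hga
    have h1 := hdet.2 1 (g : GQ) a (fun μ hμ => by
      rw [pow_one] at hμ
      exact apply_eq_pow_of_primitiveRoot hp hζ hga μ hμ)
    rw [pow_one, hpA, Ideal.span_singleton_zero, Ideal.mem_bot, sub_eq_zero] at h1
    exact h1
  have hrig := Fermat.Agent.TW.Hopf.RigDecomp.rig_decomp hp hp2 hpA ρ hflat P hP
  have hchi := chi_cyclotomic ρ P hp hP hpA hm2 hflat hζ
  have hE : Stable (rD ρ P) E := fun g v hv => hED g g.2 v hv
  obtain ⟨L, hb, hL, hT⟩ := exists_line (r := rD ρ P) (I := ID P) hm2 (ID_normal P) cyc hcyc_ne hdet'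
    hrig (Module.finBasisOfFinrankEq A ρ.V ρ.finrank_eq) hcyc_ex hchi hE hE1 hE2
  refine ⟨L, hb, fun σ hσ v hv => hL ⟨σ, hσ⟩ v hv, fun σ hσ v => ?_⟩
  exact hT ⟨σ, inertia_le P hσ⟩ ((mem_ID P).mpr hσ) v Submodule.mem_top

/-- in `k[ε]` the product of two non-units vanishes. -/
theorem dualNumber_mul_eq_zero_of_mem {k : Type} [Field k] {y z : DualNumber k}
    (hy : y ∈ maximalIdeal (DualNumber k)) (hz : z ∈ maximalIdeal (DualNumber k)) : y * z = 0 := by
  have h0 : ∀ {x : DualNumber k}, x ∈ maximalIdeal (DualNumber k) → x.fst = 0 := by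
    intro x hx
    rw [IsLocalRing.mem_maximalIdeal, mem_nonunits_iff, TrivSqZeroExt.isUnit_iff_isUnit_fst,
      isUnit_iff_ne_zero, not_not] at hx
    exact hx
  apply TrivSqZeroExt.ext
  · rw [TrivSqZeroExt.fst_mul, h0 hy, zero_mul, TrivSqZeroExt.fst_zero]
  · rw [TrivSqZeroExt.snd_mul, h0 hy, h0 hz, zero_smul, TrivSqZeroExt.snd_zero]
    simp

/-- **FLAT ⇒ ORD over the dual numbers** `k[ε]`, `k` a finite field of characteristic `p` odd:
the hypothesis `hline` of `FlatTri.triangular_of_flat_of_line`. -/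
theorem exists_ordinary_line_of_isFlatAt_dualNumber {k : Type} [Field k] [Finite k]
    {p : ℕ} (hp : p.Prime) (hp2 : p ≠ 2)
    (ρ : GaloisRepAdic (DualNumber k)) (hflat : ρ.IsFlatAt p) (hdet : ρ.DetIsCyclotomic p)
    (P : ValuationSubring Qb) (hP : P.LiesOverPrime p)
    (E : Submodule (DualNumber k) ρ.V)
    (hE1 : maximalIdeal (DualNumber k) • (⊤ : Submodule (DualNumber k) ρ.V) < E) (hE2 : E < ⊤)
    (hED : ∀ σ ∈ P.decompositionSubgroup ℚ, ∀ v ∈ E, ρ.ρ σ v ∈ E) :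
    ∃ L : Submodule (DualNumber k) ρ.V,
      (∃ b : Module.Basis (Fin 2) (DualNumber k) ρ.V, L = (DualNumber k) ∙ b 0) ∧
      (∀ σ ∈ P.decompositionSubgroup ℚ, ∀ v ∈ L, ρ.ρ σ v ∈ L) ∧
      (∀ σ ∈ P.inertiaSubgroupIn ℚ, ∀ v : ρ.V, ρ.ρ σ v - v ∈ L) := by
  have : Finite (DualNumber k) := Finite.of_equiv (k × k) (Equiv.refl _)
  exact exists_ordinary_line_of_isFlatAt hp hp2
    (Fermat.Agent.TW.Ord.natCast_dualNumber_eq_zero hdet.1)
    (fun y hy z hz => dualNumber_mul_eq_zero_of_mem hy hz) ρ hflat hdet P hP E hE1 hE2 hED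

open Matrix Fermat.Agent.TW.Sel Fermat.Agent.TW.Ord Fermat.Agent.S53 in
/-- **The matrix contract `triangular_of_flat` of the LOC-flat block (ORD case).**  A flat
deformation `r` to `k[ε]` with cyclotomic determinant whose reduction has a `D_P`-stable line is
conjugate over `k[ε]` to an upper triangular representation on `D_P` with unramified quotient
character and sub character `= ω` on inertia. -/
theorem triangular_of_flat {k : Type} [Field k] [Finite k] {p : ℕ} [Fact p.Prime] (hp2 : p ≠ 2)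
    (r : MatRep (DualNumber k)) (hflat : r.toAdic.IsFlatAt p)
    (hdet : r.toAdic.DetIsCyclotomic p) (P : ValuationSubring Qb) (hP : P.LiesOverPrime p)
    (hred : ∃ B₀ : (Matrix (Fin 2) (Fin 2) k)ˣ, ∀ σ ∈ P.decompositionSubgroup ℚ,
      ((B₀⁻¹ : (Matrix (Fin 2) (Fin 2) k)ˣ) * redHom r.toHom σ * B₀ :
        Matrix (Fin 2) (Fin 2) k) 1 0 = 0) :
    ∃ B : (Matrix (Fin 2) (Fin 2) (DualNumber k))ˣ,
      (∀ σ ∈ P.decompositionSubgroup ℚ, (conjHom B r.toHom σ) 1 0 = 0) ∧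
      (∀ σ ∈ P.inertiaSubgroupIn ℚ, (conjHom B r.toHom σ) 1 1 = 1 ∧
        ∀ a : ℕ, (∀ μ : Qb, μ ^ p = 1 → σ μ = μ ^ a) →
          (conjHom B r.toHom σ) 0 0 = (a : DualNumber k)) :=
  Fermat.Agent.TW.Hopf.FlatTri.triangular_of_flat_of_line r hdet P
    (fun E h1 h2 h3 => exists_ordinary_line_of_isFlatAt_dualNumber (Fact.out : p.Prime) hp2
      r.toAdic hflat hdet P hP E h1 h2 h3) hred

end Fermat.Agent.TW.Hopf.FlatOrd
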