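import Mathlib
import Fermat.Agent.TW.Hopf.FlatOrd
import Fermat.Agent.TW.LocFlat.OrdContracts

/-!
# S56 / LOC-flat, ORD case: the contract `TriFlatOut p k` (F2), literally
(helper5; `FlatOrd.triangular_of_flat` in helper25's `OrdContracts` vocabulary)
-/

set_option autoImplicit false

namespace Fermat.Agent.TW.Hopf.FlatOrd

/-- **Contract (F2)** of `TW/LocFlat/OrdContracts.lean`: a flat deformation to `k[ε]` of a
`D_P`-reducible residual representation is ordinary, in matrix form (`k` finite, `p` odd). -/
theorem triFlatOut (p : ℕ) [Fact p.Prime] (hp2 : p ≠ 2) (k : Type) [Field k] [Finite k] :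
    Fermat.Agent.TW.LocFlat.TriFlatOut p k :=
  fun r hflat hdet P hP hred => triangular_of_flat hp2 r hflat hdet P hP hred

end Fermat.Agent.TW.Hopf.FlatOrd
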